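import Fermat.Agent.DigitPrimes.Main
import Fermat.Agent.DigitSums.Main
import Fermat.Agent.ThreePrimes.Main
import Fermat.Agent.Root.SummaryPrimeNumberTheorem

/-!
# The digit sums of the primes modulo `m`
-/

set_option autoImplicit false

noncomputable section

namespace FA.DigitPrimes

open Finset Filter ArithmeticFunction
open FA.DigitSums (digitSum)
open FA.ThreePrimes (powerPart powerPart_nonneg sum_powerPart_le)
open scoped Topology Nat.Prime

/-- The primes up to `N` with digit sum `≡ b (mod m)` in base `q`. -/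
def digitPrimes (q m b N : ℕ) : Finset ℕ :=
  (Icc 1 N).filter fun p => p.Prime ∧ digitSum q p % m = b % m

/-- `∑ Λ n` over a class of the digit sum. -/
def digitPsi (q m b N : ℕ) : ℝ :=
  ∑ n ∈ (Icc 1 N).filter (fun n => digitSum q n % m = b % m), Λ n

theorem tendsto_rpow_neg_nat {δ : ℝ} (hδ : 0 < δ) :
    Tendsto (fun N : ℕ => (N : ℝ) ^ (-δ)) atTop (𝓝 0) :=
  (tendsto_rpow_neg_atTop hδ).comp tendsto_natCast_atTop_atTop

theorem tendsto_waveSum_div {q : ℕ} (hq : 2 ≤ q) {z : ℂ} (hz : ‖z‖ = 1)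
    (hz1 : z ^ (q - 1) ≠ 1) :
    Tendsto (fun N : ℕ => waveSum q z Λ N / N) atTop (𝓝 0) := by
  obtain ⟨δ, C, hδ, hC, h⟩ := exists_vonMangoldt_wave_le hq hz hz1
  refine squeeze_zero_norm' ?_ (by simpa using (tendsto_rpow_neg_nat hδ).const_mul C)
  filter_upwards [eventually_gt_atTop 0] with N hN
  have hN0 : (0 : ℝ) < N := Nat.cast_pos.2 hN
  rw [norm_div, Complex.norm_natCast, div_le_iff₀ hN0, mul_assoc, ← Real.rpow_add_one hN0.ne',
    neg_add_eq_sub]
  exact h N hN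

theorem tendsto_waveSum_one_div (q : ℕ) :
    Tendsto (fun N : ℕ => waveSum q 1 Λ N / N) atTop (𝓝 1) := by
  have h := ((Complex.continuous_ofReal.tendsto _).comp
    (PNT.Summary.tendsto_psi.comp (tendsto_natCast_atTop_atTop (R := ℝ))))
  refine h.congr fun N => ?_
  simp only [Function.comp_apply, waveSum, wave, one_pow, mul_one, Chebyshev.psi,
    Nat.floor_natCast, Complex.ofReal_div, Complex.ofReal_sum, Complex.ofReal_natCast]

/-- **Equidistribution over the prime powers.** -/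
theorem tendsto_digitPsi {q m : ℕ} (hq : 2 ≤ q) (hm : 0 < m) (hcop : Nat.Coprime m (q - 1))
    (b : ℕ) :
    Tendsto (fun N : ℕ => digitPsi q m b N / N) atTop (𝓝 (1 / (m : ℝ))) := by
  obtain ⟨ζ, hζdef⟩ : ∃ ζ : ℂ, ζ = Complex.exp (2 * Real.pi * Complex.I / m) := ⟨_, rfl⟩
  have hζ : IsPrimitiveRoot ζ m := hζdef ▸ Complex.isPrimitiveRoot_exp m hm.ne'
  have hζn : ‖ζ‖ = 1 := hζdef ▸ DigitSums.norm_root hm.ne'
  obtain ⟨m', rfl⟩ : ∃ m', m = m' + 1 := ⟨m - 1, by omega⟩
  obtain ⟨k, hk⟩ : ∃ k, k = m' + 1 - b % (m' + 1) := ⟨_, rfl⟩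
  have hsum : ∀ N : ℕ, ((m' + 1 : ℕ) : ℂ) * (digitPsi q (m' + 1) b N : ℂ) =
      ∑ j ∈ range (m' + 1), (ζ ^ k) ^ j * waveSum q (ζ ^ j) Λ N := fun N => by
    simp only [waveSum, mul_sum, digitPsi]
    rw [Complex.ofReal_sum, sum_filter, mul_sum, sum_comm]
    refine sum_congr rfl fun n _ => ?_
    have h := DigitSums.orthogonality hm hζ (digitSum q n) b
    rw [← hk] at h
    have e : ∀ j, (ζ ^ k) ^ j * ((Λ n : ℂ) * wave q (ζ ^ j) n) =
        (ζ ^ (digitSum q n + k)) ^ j * (Λ n : ℂ) := fun j => by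
      rw [wave]
      ring
    rw [sum_congr rfl fun j _ => e j, ← sum_mul, h]
    split_ifs <;> push_cast <;> ring
  have hlim : Tendsto (fun N : ℕ => ∑ j ∈ range (m' + 1),
      (ζ ^ k) ^ j * (waveSum q (ζ ^ j) Λ N / N)) atTop (𝓝 1) := by
    have h := (tendsto_finsetSum (range m') fun j hj => (tendsto_waveSum_div hq
      (z := ζ ^ (j + 1)) (by rw [norm_pow, hζn, one_pow]) (fun h1 => by
        rw [← pow_mul, hζ.pow_eq_one_iff_dvd] at h1
        have := Nat.le_of_dvd (Nat.succ_pos j) (hcop.dvd_of_dvd_mul_right h1)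
        have := mem_range.1 hj
        omega)).const_mul ((ζ ^ k) ^ (j + 1))).add (tendsto_waveSum_one_div q)
    simp only [mul_zero, sum_const_zero, zero_add] at h
    refine h.congr fun N => ?_
    rw [sum_range_succ', pow_zero, pow_zero, one_mul]
  have hre := ((Complex.continuous_re.tendsto _).comp hlim).div_const ((m' + 1 : ℕ) : ℝ)
  rw [Complex.one_re] at hre
  refine hre.congr fun N => ?_
  have e : ∑ j ∈ range (m' + 1), (ζ ^ k) ^ j * (waveSum q (ζ ^ j) Λ N / N) =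
      ((((m' + 1 : ℕ) : ℝ) * (digitPsi q (m' + 1) b N / N) : ℝ) : ℂ) := by
    rw [Complex.ofReal_mul, Complex.ofReal_natCast, Complex.ofReal_div, Complex.ofReal_natCast,
      ← mul_div_assoc, hsum, sum_div]
    simp only [mul_div_assoc]
  simp only [Function.comp_apply, e, Complex.ofReal_re]
  rw [mul_div_cancel_left₀ _ (Nat.cast_ne_zero.2 (Nat.succ_ne_zero m'))]

theorem sum_log_digitPrimes (q m b : ℕ) {N : ℕ} (hN : 1 ≤ N) :
    ∑ p ∈ digitPrimes q m b N, Real.log p ≤ digitPsi q m b N ∧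
      digitPsi q m b N ≤ (∑ p ∈ digitPrimes q m b N, Real.log p) + 2 * √(N : ℝ) * Real.log N := by
  obtain ⟨S, hS⟩ : ∃ S, S = (Icc 1 N).filter (fun n => digitSum q n % m = b % m) := ⟨_, rfl⟩
  have e1 : digitPrimes q m b N = S.filter Nat.Prime := by
    rw [hS, filter_filter, digitPrimes]
    exact filter_congr fun n _ => And.comm
  have e2 : ∑ p ∈ S.filter Nat.Prime, Real.log p = ∑ p ∈ S.filter Nat.Prime, Λ p :=
    sum_congr rfl fun p hp => (vonMangoldt_apply_prime (mem_filter.1 hp).2).symm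
  have e3 : ∑ n ∈ S, powerPart n = ∑ n ∈ S.filter (fun n => ¬n.Prime), Λ n := by
    rw [sum_filter]
    refine sum_congr rfl fun n _ => ?_
    unfold powerPart
    split_ifs <;> simp_all
  have e4 := sum_filter_add_sum_filter_not S Nat.Prime (fun n => Λ n)
  rw [digitPsi, ← hS, e1, e2, ← e4, ← e3]
  refine ⟨le_add_of_nonneg_right (sum_nonneg fun n _ => powerPart_nonneg n),
    add_le_add le_rfl ((sum_le_sum_of_subset_of_nonneg (hS ▸ filter_subset _ _)
      fun n _ _ => powerPart_nonneg n).trans (sum_powerPart_le hN))⟩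

theorem card_digitPrimes_le (q m b N : ℕ) {y : ℝ} (hy : 1 < y) :
    ((digitPrimes q m b N).card : ℝ) ≤
      y + (∑ p ∈ digitPrimes q m b N, Real.log p) / Real.log y := by
  have hl : 0 < Real.log y := Real.log_pos hy
  rw [← sum_filter_add_sum_filter_not (digitPrimes q m b N) (fun p : ℕ => (p : ℝ) ≤ y)
    (fun p : ℕ => Real.log p), ← card_filter_add_card_filter_not (s := digitPrimes q m b N)
      (fun p : ℕ => (p : ℝ) ≤ y), Nat.cast_add]
  refine add_le_add ?_ ?_
  · refine le_trans (Nat.cast_le.2 ((card_le_card (t := Icc 1 ⌊y⌋₊) fun p hp => ?_).trans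
      (Nat.card_Icc 1 ⌊y⌋₊).le)) (le_trans (le_of_eq ?_) (Nat.floor_le (by linarith)))
    · rw [mem_filter, digitPrimes, mem_filter, mem_Icc] at hp
      exact mem_Icc.2 ⟨hp.1.1.1, Nat.le_floor hp.2⟩
    · simp
  · rw [le_div_iff₀ hl]
    refine le_trans ?_ (le_add_of_nonneg_left (sum_nonneg fun p _ => Real.log_natCast_nonneg p))
    refine le_of_eq_of_le (nsmul_eq_mul _ _).symm (card_nsmul_le_sum _ _ (Real.log y)
      fun p hp => ?_)
    exact Real.log_le_log (by linarith) (not_le.1 (mem_filter.1 hp).2).le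

theorem tendsto_card_digitPrimes {q m : ℕ} (hq : 2 ≤ q) (hm : 0 < m)
    (hcop : Nat.Coprime m (q - 1)) (b : ℕ) :
    Tendsto (fun N : ℕ => ((digitPrimes q m b N).card : ℝ) * Real.log N / N) atTop
      (𝓝 (1 / (m : ℝ))) := by
  have hψ := tendsto_digitPsi hq hm hcop b
  have hlogN : Tendsto (fun N : ℕ => Real.log N) atTop atTop :=
    Real.tendsto_log_atTop.comp tendsto_natCast_atTop_atTop
  have hsmall : ∀ {s : ℝ}, 0 < s →
      Tendsto (fun N : ℕ => Real.log N * (N : ℝ) ^ (-s)) atTop (𝓝 0) := fun {s} hs =>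
    ((isLittleO_log_rpow_atTop hs).tendsto_div_nhds_zero.comp
      tendsto_natCast_atTop_atTop).congr fun N => by
        simp only [Function.comp_apply]
        rw [Real.rpow_neg (Nat.cast_nonneg N), div_eq_mul_inv]
  refine Metric.tendsto_nhds.2 fun ε hε => ?_
  obtain ⟨σ, hσ0, hσ1, hσε⟩ : ∃ σ : ℝ, 0 < σ ∧ σ ≤ 1 / 2 ∧ 4 * σ ≤ ε / 2 :=
    ⟨min (1 / 2) (ε / 8), by positivity, min_le_left _ _,
      by linarith [min_le_right (1 / 2 : ℝ) (ε / 8)]⟩
  filter_upwards [Metric.tendsto_nhds.1 hψ (σ / 4) (by positivity),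
    (hsmall (show (0 : ℝ) < 1 / 2 by norm_num)).eventually_le_const (show 0 < σ / 4 by positivity),
    (hsmall hσ0).eventually_le_const (show 0 < σ / 4 by positivity),
    hlogN.eventually_gt_atTop 1, eventually_gt_atTop 1] with N hN h2 h3 hlN hN1
  have hN0 : (0 : ℝ) < N := Nat.cast_pos.2 (by omega)
  rw [Real.dist_eq] at hN ⊢
  obtain ⟨hlo, hhi⟩ := sum_log_digitPrimes q m b (show 1 ≤ N by omega)
  obtain ⟨Θ, hΘ⟩ : ∃ Θ, Θ = ∑ p ∈ digitPrimes q m b N, Real.log p := ⟨_, rfl⟩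
  rw [← hΘ] at hlo hhi
  obtain ⟨c, hc⟩ : ∃ c : ℝ, c = (digitPrimes q m b N).card := ⟨_, rfl⟩
  rw [← hc]
  obtain ⟨r, hr⟩ : ∃ r : ℝ, r = c * Real.log N / N := ⟨_, rfl⟩
  rw [← hr]
  have hup : Θ / N ≤ r := by
    rw [hr, hΘ, hc]
    refine div_le_div_of_nonneg_right ((sum_le_card_nsmul _ _ (Real.log N) fun p hp => ?_).trans
      (nsmul_eq_mul _ _).le) hN0.le
    rw [digitPrimes, mem_filter, mem_Icc] at hp
    exact Real.log_le_log (Nat.cast_pos.2 hp.1.1) (Nat.cast_le.2 hp.1.2)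
  have hdown : (1 - σ) * r ≤ Real.log N * (N : ℝ) ^ (-σ) + Θ / N := by
    have h := card_digitPrimes_le q m b N
      (Real.one_lt_rpow (show (1 : ℝ) < N by exact_mod_cast hN1) (show 0 < 1 - σ by linarith))
    rw [← hc, ← hΘ, Real.log_rpow hN0] at h
    have h0 : (0 : ℝ) ≤ (N : ℝ) ^ (1 - σ) := by positivity
    rw [hr, ← mul_div_assoc, div_le_iff₀ hN0, add_mul, div_mul_cancel₀ _ hN0.ne', mul_assoc,
      ← Real.rpow_add_one hN0.ne', neg_add_eq_sub]
    refine (le_of_eq_of_le (by ring)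
      (mul_le_mul_of_nonneg_left h (show 0 ≤ (1 - σ) * Real.log N from
        mul_nonneg (by linarith) (by linarith)))).trans ?_
    rw [mul_add, mul_div_cancel₀ _ (show 0 < (1 - σ) * Real.log N from
      mul_pos (by linarith) (by linarith)).ne', mul_assoc]
    exact add_le_add (mul_le_of_le_one_left (mul_nonneg (by linarith) h0) (by linarith)) le_rfl
  have hpow : 2 * √(N : ℝ) * Real.log N / N = 2 * (Real.log N * (N : ℝ) ^ (-(1 / 2) : ℝ)) := by
    rw [Real.sqrt_eq_rpow, show (-(1 / 2) : ℝ) = 1 / 2 - 1 by norm_num, Real.rpow_sub hN0,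
      Real.rpow_one]
    ring
  have hlo' : Θ / N ≤ digitPsi q m b N / N := div_le_div_of_nonneg_right hlo hN0.le
  have hhi' : digitPsi q m b N / N ≤ Θ / N + 2 * √(N : ℝ) * Real.log N / N := by
    rw [← add_div]
    exact div_le_div_of_nonneg_right hhi hN0.le
  rw [hpow] at hhi'
  have hm1 : 1 / (m : ℝ) ≤ 1 := by
    rw [div_le_one (Nat.cast_pos.2 hm)]
    exact Nat.one_le_cast.2 hm
  have hΘ1 := abs_lt.1 hN
  have hr4 : r ≤ 4 := by nlinarith
  have := mul_le_mul_of_nonneg_left hr4 hσ0.le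
  exact abs_lt.2 ⟨by linarith, by linarith⟩

/-- **The proportion of the primes in each class.** -/
theorem tendsto_digitPrimes_proportion {q m : ℕ} (hq : 2 ≤ q) (hm : 0 < m)
    (hcop : Nat.Coprime m (q - 1)) (b : ℕ) :
    Tendsto (fun N : ℕ => ((digitPrimes q m b N).card : ℝ) / π N) atTop (𝓝 (1 / (m : ℝ))) := by
  have h := (tendsto_card_digitPrimes hq hm hcop b).div
    (PNT.Summary.prime_number_theorem.comp (tendsto_natCast_atTop_atTop (R := ℝ))) one_ne_zero
  rw [div_one] at h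
  refine h.congr' ?_
  filter_upwards [eventually_gt_atTop 1] with N hN
  have hl : Real.log (N : ℝ) ≠ 0 := (Real.log_pos (Nat.one_lt_cast.2 hN)).ne'
  have hN0 : (N : ℝ) ≠ 0 := Nat.cast_ne_zero.2 (by omega)
  simp only [Function.comp_apply, Nat.floor_natCast, Pi.div_apply]
  field_simp

end FA.DigitPrimes

end
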