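import Fermat.Agent.DigitSums.Saving
import Fermat.Agent.ThreePrimes.Exponential
import Mathlib.Analysis.Complex.Circle

/-!
# The digit sum modulo powers of the base

For `z` of modulus one the function `z ^ s n`, `s` the sum of the digits in base `q`, of `n` reduced
modulo `q ^ L` is a combination of additive characters with coefficients given by a product over
the digits. Their squares sum to `1`, and they decay exponentially when `z ^ (q - 1) ≠ 1`. Over a
class modulo `q ^ d k`, `q ∤ k`, the square of their sum times `k` grows with every further digit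
by at most a factor `β < q` independent of `z`: Cauchy's inequality over the digits of one class
is strict, as their weights are never all equal with none outside the class.
-/

set_option autoImplicit false

noncomputable section

namespace FA.DigitPrimes

open Finset
open FA.ThreePrimes (eAdd eAdd_add eAdd_intCast norm_eAdd conj_eAdd eAdd_nat_mul sum_eAdd_grid
  four_nearDist_le nearDist_eq_abs)
open FA.DigitSums (digitSum expSum digitFactor)
open scoped ComplexConjugate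

/-- `z ^ s n`. -/
def wave (q : ℕ) (z : ℂ) (n : ℕ) : ℂ := z ^ digitSum q n

/-- `z ^ s (n mod q ^ L)`. -/
def low (q : ℕ) (z : ℂ) (L n : ℕ) : ℂ := wave q z (n % q ^ L)

theorem norm_wave (q : ℕ) {z : ℂ} (hz : ‖z‖ = 1) (n : ℕ) : ‖wave q z n‖ = 1 := by
  rw [wave, norm_pow, hz, one_pow]

theorem digitSum_split {q : ℕ} (hq : 2 ≤ q) : ∀ L n r : ℕ, r < q ^ L →
    digitSum q (q ^ L * n + r) = digitSum q n + digitSum q r
  | 0, n, r, hr => by
    obtain rfl : r = 0 := by simpa using hr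
    simp [digitSum]
  | L + 1, n, r, hr => by
    rw [pow_succ] at hr ⊢
    have hq0 : 0 < q := by omega
    have hd := Nat.mod_lt r hq0
    have e : r = q * (r / q) + r % q := (Nat.div_add_mod r q).symm
    rw [show q ^ L * q * n + r = q * (q ^ L * n + r / q) + r % q by rw [mul_add]; linarith,
      DigitSums.digitSum_add hq hd,
      digitSum_split hq L n (r / q) ((Nat.div_lt_iff_lt_mul hq0).2 hr)]
    conv_rhs => rw [e, DigitSums.digitSum_add hq hd]
    ring

/-- **Without a carry the high digits cancel.** -/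
theorem wave_carry {q : ℕ} (hq : 2 ≤ q) {z : ℂ} (hz : ‖z‖ = 1) {L u v : ℕ}
    (h : u % q ^ L + v < q ^ L) :
    wave q z (u + v) * conj (wave q z u) = low q z L (u + v) * conj (low q z L u) := by
  have hr := Nat.mod_lt u (show 0 < q ^ L by positivity)
  have e1 : u + v = q ^ L * (u / q ^ L) + (u % q ^ L + v) := by
    rw [← add_assoc, Nat.div_add_mod]
  have hw : z ^ digitSum q (u / q ^ L) * conj (z ^ digitSum q (u / q ^ L)) = 1 := by
    rw [Complex.mul_conj', norm_pow, hz, one_pow, Complex.ofReal_one, one_pow]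
  have e2 : (u + v) % q ^ L = u % q ^ L + v := by
    rw [e1, Nat.mul_add_mod, Nat.mod_eq_of_lt h]
  simp only [low, wave, e2]
  conv_lhs => rw [e1, digitSum_split hq L _ _ h]
  conv_lhs => arg 2; rw [← Nat.div_add_mod u (q ^ L), digitSum_split hq L _ _ hr]
  rw [pow_add, pow_add, map_mul]
  linear_combination (z ^ digitSum q (u % q ^ L + v) * conj (z ^ digitSum q (u % q ^ L))) * hw

/-- The coefficient of `e (n h / q ^ L)` in `low q z L n`, times `q ^ L`. -/
def coefC (q : ℕ) (z : ℂ) (L h : ℕ) : ℂ := expSum q z (eAdd (-((h : ℝ) / (q : ℝ) ^ L))) (q ^ L)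

/-- The size of the coefficient of `e (n h / q ^ L)` in `low q z L n`. -/
def coef (q : ℕ) (z : ℂ) (L h : ℕ) : ℝ := ‖coefC q z L h‖ / (q : ℝ) ^ L

theorem coef_nonneg (q : ℕ) (z : ℂ) (L h : ℕ) : 0 ≤ coef q z L h := by unfold coef; positivity

/-- **The expansion in additive characters.** -/
theorem pow_mul_low {q : ℕ} (hq : 2 ≤ q) (z : ℂ) (L n : ℕ) : (q : ℂ) ^ L * low q z L n =
    ∑ h ∈ range (q ^ L), coefC q z L h * eAdd (((n * h : ℕ) : ℝ) / (q : ℝ) ^ L) := by
  obtain ⟨Q, hQ⟩ : ∃ Q, Q = q ^ L := ⟨_, rfl⟩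
  have hQ0 : 0 < Q := hQ ▸ by positivity
  have hQR : (q : ℝ) ^ L = (Q : ℝ) := by rw [hQ]; push_cast; rfl
  simp only [coefC, expSum, sum_mul, ← hQ, hQR]
  rw [sum_comm]
  have e : ∀ u h : ℕ, z ^ digitSum q u * eAdd (-((h : ℝ) / Q)) ^ u *
      eAdd (((n * h : ℕ) : ℝ) / Q) =
        z ^ digitSum q u * eAdd ((((n : ℤ) - u : ℤ) : ℝ) * h / Q) := fun u h => by
    rw [mul_assoc, ← eAdd_nat_mul, ← eAdd_add]
    congr 2
    push_cast
    ring
  simp only [e, ← mul_sum, sum_eAdd_grid hQ0, mul_ite, mul_zero]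
  rw [sum_eq_single_of_mem (n % Q) (mem_range.2 (Nat.mod_lt n hQ0))]
  · rw [if_pos, low, wave, ← hQ, mul_comm, show (q : ℂ) ^ L = (Q : ℂ) by rw [hQ]; push_cast; rfl]
    exact Nat.modEq_iff_dvd.1 (Nat.mod_modEq n Q)
  · intro u hu hne
    rw [if_neg]
    intro hd
    exact hne (((Nat.mod_eq_of_lt (mem_range.1 hu)).symm).trans
      ((Nat.modEq_iff_dvd (a := u) (b := n)).2 hd))

theorem coef_zero (q : ℕ) (z : ℂ) (h : ℕ) : coef q z 0 h = 1 := by
  simp [coef, coefC, expSum, digitSum]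

/-- The weights of one digit, at the point `v`. -/
def digitW (q : ℕ) (v : ℂ) (i : ℕ) : ℝ := ‖digitFactor q (v * eAdd (-((i : ℝ) / q)))‖ / q

theorem digitW_nonneg (q : ℕ) (v : ℂ) (i : ℕ) : 0 ≤ digitW q v i := by unfold digitW; positivity

/-- The point of the digit `L` above `h`. -/
def digitPt (q : ℕ) (z : ℂ) (L h : ℕ) : ℂ := z * eAdd (-((h : ℝ) / (q : ℝ) ^ L))

theorem norm_digitPt (q : ℕ) {z : ℂ} (hz : ‖z‖ = 1) (L h : ℕ) : ‖digitPt q z L h‖ = 1 := by
  rw [digitPt, norm_mul, hz, norm_eAdd, one_mul]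

/-- **The product over the digits.** -/
theorem coef_succ {q : ℕ} (hq : 2 ≤ q) (z : ℂ) (L h i : ℕ) :
    coef q z (L + 1) (h + q ^ L * i) =
      digitW q (digitPt q z (L + 1) h) i * coef q z L h := by
  have hq0 : (q : ℝ) ≠ 0 := Nat.cast_ne_zero.2 (by omega)
  have e1 : eAdd (-(((h + q ^ L * i : ℕ) : ℝ) / (q : ℝ) ^ (L + 1))) =
      eAdd (-((h : ℝ) / (q : ℝ) ^ (L + 1))) * eAdd (-((i : ℝ) / q)) := by
    rw [← eAdd_add]
    congr 1
    push_cast
    rw [pow_succ]
    field_simp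
    ring
  have e2 : eAdd (-(((h + q ^ L * i : ℕ) : ℝ) / (q : ℝ) ^ (L + 1))) ^ q =
      eAdd (-((h : ℝ) / (q : ℝ) ^ L)) := by
    rw [← eAdd_nat_mul, show (q : ℝ) * -(((h + q ^ L * i : ℕ) : ℝ) / (q : ℝ) ^ (L + 1)) =
      -((h : ℝ) / (q : ℝ) ^ L) + ((-(i : ℤ) : ℤ) : ℝ) by
        push_cast; rw [pow_succ]; field_simp; ring, eAdd_add, eAdd_intCast, mul_one]
  rw [coef, coefC, pow_succ' q, DigitSums.expSum_mul hq, e2, e1, norm_mul, coef, coefC, digitW,
    digitPt, mul_assoc z, pow_succ' (q : ℝ)]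
  ring

/-- **The weights of one digit square to `1`.** -/
theorem sum_digitW_sq {q : ℕ} (hq : 2 ≤ q) {v : ℂ} (hv : ‖v‖ = 1) :
    ∑ i ∈ range q, digitW q v i ^ 2 = 1 := by
  have hq0 : (q : ℝ) ≠ 0 := Nat.cast_ne_zero.2 (by omega)
  have hf : ∀ i, digitFactor q (v * eAdd (-((i : ℝ) / q))) =
      ∑ d ∈ range q, v ^ d * eAdd (-((d : ℝ) * i / q)) := fun i => by
    refine sum_congr rfl fun d _ => ?_
    rw [mul_pow, ← eAdd_nat_mul]
    congr 2
    ring
  have e : ∀ i : ℕ, ((‖digitFactor q (v * eAdd (-((i : ℝ) / q)))‖ ^ 2 : ℝ) : ℂ) =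
      ∑ d ∈ range q, ∑ d' ∈ range q,
        v ^ d * conj (v ^ d') * eAdd ((((d' : ℤ) - d : ℤ) : ℝ) * i / q) := fun i => by
    rw [Complex.ofReal_pow, ← Complex.mul_conj', hf, map_sum, sum_mul_sum]
    refine sum_congr rfl fun d _ => sum_congr rfl fun d' _ => ?_
    rw [map_mul (conj : ℂ →+* ℂ), conj_eAdd, mul_mul_mul_comm, ← eAdd_add]
    congr 2
    push_cast
    ring
  have key : ∑ i ∈ range q, ‖digitFactor q (v * eAdd (-((i : ℝ) / q)))‖ ^ 2 = (q : ℝ) ^ 2 := by
    refine Complex.ofReal_injective ?_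
    rw [Complex.ofReal_sum, sum_congr rfl fun i _ => e i, sum_comm,
      sum_congr rfl fun d _ => sum_comm]
    simp only [← mul_sum, sum_eAdd_grid (show 0 < q by omega), mul_ite, mul_zero]
    have e3 : ∀ d ∈ range q, ∀ d' ∈ range q, ((q : ℤ) ∣ (d' : ℤ) - d ↔ d' = d) := by
      intro d hd d' hd'
      rw [← Nat.modEq_iff_dvd, Nat.ModEq, Nat.mod_eq_of_lt (mem_range.1 hd),
        Nat.mod_eq_of_lt (mem_range.1 hd')]
      exact eq_comm
    rw [sum_congr rfl fun d hd => (sum_congr rfl fun d' hd' => if_congr (e3 d hd d' hd') rfl rfl)]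
    rw [sum_congr rfl fun d hd => by rw [sum_ite_eq' (range q) d, if_pos hd, Complex.mul_conj',
      norm_pow, hv, one_pow, Complex.ofReal_one, one_pow, one_mul], sum_const, card_range,
      nsmul_eq_mul]
    push_cast
    ring
  simp only [digitW, div_pow]
  rw [← sum_div, key, div_self (pow_ne_zero 2 hq0)]

theorem sum_range_digits {M : Type*} [AddCommMonoid M] (F : ℕ → M) (a : ℕ) : ∀ b : ℕ,
    ∑ x ∈ range (a * b), F x = ∑ i ∈ range b, ∑ h ∈ range a, F (h + a * i)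
  | 0 => by simp
  | b + 1 => by
    rw [mul_add, mul_one, sum_range_add, sum_range_digits F a b, sum_range_succ]
    simp only [add_comm (a * b)]

/-- **Parseval.** -/
theorem sum_coef_sq {q : ℕ} (hq : 2 ≤ q) {z : ℂ} (hz : ‖z‖ = 1) :
    ∀ L, ∑ h ∈ range (q ^ L), coef q z L h ^ 2 = 1
  | 0 => by simp [coef_zero]
  | L + 1 => by
    rw [pow_succ, sum_range_digits, sum_comm, ← sum_coef_sq hq hz L]
    refine sum_congr rfl fun h _ => ?_
    simp only [coef_succ hq, mul_pow]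
    rw [← sum_mul, sum_digitW_sq hq (norm_digitPt q hz _ _), one_mul]

/-- The sum of the coefficients over the class of `a + q ^ d c` modulo `q ^ d k`, `m` digits
further. -/
def classSum (q : ℕ) (z : ℂ) (d m k c a : ℕ) : ℝ :=
  ∑ j ∈ (range (q ^ m)).filter (fun j => j % k = c), coef q z (d + m) (a + q ^ d * j)

theorem classSum_nonneg (q : ℕ) (z : ℂ) (d m k c a : ℕ) : 0 ≤ classSum q z d m k c a :=
  sum_nonneg fun _ _ => coef_nonneg _ _ _ _

theorem classSum_zero_le (q : ℕ) (z : ℂ) (d k c a : ℕ) :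
    classSum q z d 0 k c a ≤ coef q z d a :=
  (sum_le_sum_of_subset_of_nonneg (filter_subset _ _) fun _ _ _ => coef_nonneg _ _ _ _).trans
    (by simp)

/-- The lowest of the further digits, taken out. -/
theorem classSum_succ (q : ℕ) (z : ℂ) (d m k c a : ℕ) :
    classSum q z d (m + 1) k c a = ∑ i ∈ range q, ∑ j ∈ range (q ^ m),
      if (i + q * j) % k = c then coef q z (d + 1 + m) (a + q ^ d * i + q ^ (d + 1) * j)
        else 0 := by
  rw [classSum, sum_filter, pow_succ', sum_range_digits, sum_comm]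
  refine sum_congr rfl fun i _ => sum_congr rfl fun j _ => ?_
  rw [show d + (m + 1) = d + 1 + m by ring,
    show a + q ^ d * (i + q * j) = a + q ^ d * i + q ^ (d + 1) * j by ring]

theorem continuous_digitW (q i : ℕ) : Continuous fun v : ℂ => digitW q v i := by
  unfold digitW digitFactor
  fun_prop

theorem norm_sub_one_sq {u : ℂ} (hu : ‖u‖ = 1) : ‖u - 1‖ ^ 2 = 2 - 2 * u.re := by
  rw [← Complex.normSq_eq_norm_sq, Complex.normSq_sub, Complex.normSq_eq_norm_sq, hu]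
  simp
  ring

/-- **The weights are never all equal on a class and zero outside.** -/
theorem sum_digitW_class_lt {q g c : ℕ} (hq : 2 ≤ q) (hgq : g ∣ q) (hlt : g < q)
    (hg : 2 ≤ g ∨ 3 ≤ q) (hc : c < g) {v : ℂ} (hv : ‖v‖ = 1) :
    (g : ℝ) * (∑ i ∈ (range q).filter (fun i => i % g = c), digitW q v i) ^ 2 < q := by
  obtain ⟨S, hS⟩ : ∃ S, S = (range q).filter (fun i => i % g = c) := ⟨_, rfl⟩
  rw [← hS]
  obtain ⟨n, rfl⟩ := hgq
  have hg0 : 0 < g := by omega
  have hn2 : 2 ≤ n := by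
    by_contra! h
    interval_cases n <;> omega
  have hcard : S.card = n := by
    rw [hS]
    refine le_antisymm ((card_le_card_of_injOn (fun i => i / g) (t := range n) (fun i hi => ?_)
      fun i hi j hj e => ?_).trans (card_range n).le) ((card_range n).ge.trans
        (card_le_card_of_injOn (fun l => c + g * l) (fun l hl => ?_) fun a _ b _ e => ?_))
    · simp only [mem_coe, mem_filter, mem_range] at hi
      exact mem_coe.2 (mem_range.2 (Nat.div_lt_of_lt_mul hi.1))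
    · simp only [mem_coe, mem_filter] at hi hj
      simp only at e
      rw [← Nat.div_add_mod i g, ← Nat.div_add_mod j g, e, hi.2, hj.2]
    · simp only [mem_coe, mem_range] at hl
      simp only [mem_coe, mem_filter, mem_range, Nat.add_mul_mod_self_left, Nat.mod_eq_of_lt hc,
        and_true]
      calc c + g * l < g + g * l := Nat.add_lt_add_right hc _
        _ = g * (l + 1) := by ring
        _ ≤ g * n := Nat.mul_le_mul_left g hl
    · exact Nat.eq_of_mul_eq_mul_left hg0 (by simpa using e)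
  have hn0 : (0 : ℝ) < n := Nat.cast_pos.2 (by omega)
  obtain ⟨T, hT⟩ : ∃ T, T = ∑ i ∈ S, digitW (g * n) v i := ⟨_, rfl⟩
  rw [← hT]
  obtain ⟨R, hR⟩ : ∃ R, R = (range (g * n)).filter (fun i => ¬i % g = c) := ⟨_, rfl⟩
  have hsplit : ∑ i ∈ S, digitW (g * n) v i ^ 2 + ∑ i ∈ R, digitW (g * n) v i ^ 2 = 1 := by
    rw [hS, hR, sum_filter_add_sum_filter_not, sum_digitW_sq hq hv]
  by_contra! hge
  push_cast at hge
  have hT2 : (n : ℝ) ≤ T ^ 2 := le_of_mul_le_mul_left (by linarith) (Nat.cast_pos.2 hg0)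
  have hT0 : 0 ≤ T := hT ▸ sum_nonneg fun i _ => digitW_nonneg _ _ _
  have hsq : ∑ i ∈ S, (digitW (g * n) v i - T / n) ^ 2 + ∑ i ∈ R, digitW (g * n) v i ^ 2 ≤ 0 := by
    have e : ∑ i ∈ S, (digitW (g * n) v i - T / n) ^ 2 =
        ∑ i ∈ S, digitW (g * n) v i ^ 2 - T ^ 2 / n := by
      simp only [sub_sq, sum_add_distrib, sum_sub_distrib, ← sum_mul, ← mul_sum, ← hT, sum_const,
        hcard, nsmul_eq_mul]
      field_simp
      ring
    have h1 : 1 ≤ T ^ 2 / n := by rwa [le_div_iff₀ hn0, one_mul]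
    linarith
  have hS0 : ∀ i ∈ S, digitW (g * n) v i = T / n := fun i hi => by
    have h1 := (sum_eq_zero_iff_of_nonneg fun j _ => sq_nonneg _).1 (le_antisymm
      (by linarith [sum_nonneg (s := R) fun j _ => sq_nonneg (digitW (g * n) v j)])
      (sum_nonneg fun j _ => sq_nonneg (digitW (g * n) v j - T / n))) i hi
    exact sub_eq_zero.1 (pow_eq_zero_iff two_ne_zero |>.1 h1)
  have hR0 : ∀ i ∈ R, digitW (g * n) v i = 0 := fun i hi => by
    have h1 := (sum_eq_zero_iff_of_nonneg fun j _ => sq_nonneg _).1 (le_antisymm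
      (by linarith [sum_nonneg (s := S) fun j _ => sq_nonneg (digitW (g * n) v j - T / n)])
      (sum_nonneg fun j _ => sq_nonneg (digitW (g * n) v j))) i hi
    exact pow_eq_zero_iff two_ne_zero |>.1 h1
  have hpos : ∀ i ∈ S, 0 < digitW (g * n) v i := fun i hi => by
    rw [hS0 i hi]
    refine div_pos (lt_of_le_of_ne hT0 fun e => ?_) hn0
    rw [← e] at hT2
    linarith
  obtain ⟨u, hu⟩ : ∃ u : ℕ → ℂ, u = fun i : ℕ => v * eAdd (-((i : ℝ) / ((g * n : ℕ) : ℝ))) :=
    ⟨_, rfl⟩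
  have hgn : ((g * n : ℕ) : ℝ) ≠ 0 := Nat.cast_ne_zero.2 (by omega)
  have hun : ∀ i, ‖u i‖ = 1 := fun i => by
    simp only [hu, norm_mul, hv, norm_eAdd, one_mul]
  have huq : ∀ i, u i ^ (g * n) = v ^ (g * n) := fun i => by
    simp only [hu, mul_pow, ← eAdd_nat_mul]
    rw [show ((g * n : ℕ) : ℝ) * -((i : ℝ) / ((g * n : ℕ) : ℝ)) = ((-(i : ℤ) : ℤ) : ℝ) by
      rw [mul_neg, mul_div_cancel₀ _ hgn]; push_cast; rfl, eAdd_intCast, mul_one]
  have hinj : ∀ i < g * n, ∀ j < g * n, u i = u j → i = j := fun i hi j hj e => by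
    simp only [hu] at e
    have e' := congrArg (· * eAdd ((i : ℝ) / ((g * n : ℕ) : ℝ))) (mul_left_cancel₀
      (show v ≠ 0 by rintro rfl; simp at hv) e)
    simp only [← eAdd_add, neg_add_cancel] at e'
    rw [show eAdd 0 = 1 from by simp [eAdd]] at e'
    by_contra hne
    have hd : ((g * n : ℕ) : ℤ) ∣ (i : ℤ) - j := by
      have h4 := sum_eAdd_grid (M := g * n) (by omega) ((i : ℤ) - j)
      by_contra hnd
      rw [if_neg hnd] at h4
      have e5 : ∀ h : ℕ, eAdd ((((i : ℤ) - j : ℤ) : ℝ) * h / ((g * n : ℕ) : ℝ)) = 1 := fun h => by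
        rw [show (((i : ℤ) - j : ℤ) : ℝ) * h / ((g * n : ℕ) : ℝ) =
          (h : ℝ) * (-((j : ℝ) / ((g * n : ℕ) : ℝ)) + (i : ℝ) / ((g * n : ℕ) : ℝ)) by
            push_cast; ring, eAdd_nat_mul, ← e', one_pow]
      simp only [e5, sum_const, card_range, nsmul_eq_mul, mul_one, Nat.cast_eq_zero] at h4
      omega
    have hji : j % (g * n) = i % (g * n) := Nat.modEq_iff_dvd.2 hd
    rw [Nat.mod_eq_of_lt hj, Nat.mod_eq_of_lt hi] at hji
    exact hne hji.symm
  by_cases h1 : v ^ (g * n) = 1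
  · have hSone : ∀ i ∈ S, u i = 1 := fun i hi => by
      by_contra hne
      have h0 := hpos i hi
      rw [digitW] at h0
      simp only [digitFactor] at h0
      rw [geom_sum_eq (by simpa only [hu] using hne)] at h0
      have h2 := huq i
      simp only [hu] at h2
      rw [h2, h1, sub_self, zero_div, norm_zero, zero_div] at h0
      exact lt_irrefl _ h0
    obtain ⟨i, hi, j, hj, hij⟩ := one_lt_card.1 (show 1 < S.card by omega)
    rw [hS, mem_filter, mem_range] at hi hj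
    exact hij (hinj i hi.1 j hj.1 ((hSone i (hS ▸ mem_filter.2 ⟨mem_range.2 hi.1, hi.2⟩)).trans
      (hSone j (hS ▸ mem_filter.2 ⟨mem_range.2 hj.1, hj.2⟩)).symm))
  · have hne : ∀ i, u i ≠ 1 := fun i e => h1 (by rw [← huq i, e, one_pow])
    have hW : ∀ i, digitW (g * n) v i =
        ‖v ^ (g * n) - 1‖ / ‖u i - 1‖ / ((g * n : ℕ) : ℝ) := fun i => by
      have h2 := huq i
      have h3 := hne i
      simp only [hu] at h2 h3 ⊢
      rw [digitW, digitFactor, geom_sum_eq h3, h2, norm_div]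
    have hne0 : ∀ i, digitW (g * n) v i ≠ 0 := fun i => by
      rw [hW]
      exact div_ne_zero (div_ne_zero (norm_ne_zero_iff.2 (sub_ne_zero.2 h1))
        (norm_ne_zero_iff.2 (sub_ne_zero.2 (hne i)))) hgn
    rcases lt_or_ge g 2 with hg1 | hg2
    · obtain rfl : g = 1 := by omega
      obtain rfl : c = 0 := by omega
      have hmem : ∀ i < 1 * n, i ∈ S := fun i hi => by
        rw [hS, mem_filter, mem_range]
        exact ⟨hi, Nat.mod_one i⟩
      have hre : ∀ i < 1 * n, (u i).re = (u 0).re := fun i hi => by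
        have h3 := (hS0 i (hmem i hi)).trans (hS0 0 (hmem 0 (by omega))).symm
        rw [hW, hW, div_left_inj' hgn, div_eq_div_iff (norm_ne_zero_iff.2 (sub_ne_zero.2 (hne i)))
          (norm_ne_zero_iff.2 (sub_ne_zero.2 (hne 0)))] at h3
        have h4 := congrArg (· ^ 2)
          (mul_left_cancel₀ (norm_ne_zero_iff.2 (sub_ne_zero.2 h1)) h3)
        simp only [norm_sub_one_sq (hun _)] at h4
        linarith
      have him : ∀ i < 1 * n, u i = u 0 ∨ u i = conj (u 0) := fun i hi => by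
        have hr := hre i hi
        have hn1 : ∀ w : ℂ, ‖w‖ = 1 → w.re * w.re + w.im * w.im = 1 := fun w hw => by
          rw [← Complex.normSq_apply, Complex.normSq_eq_norm_sq, hw, one_pow]
        have h6 : (u i).im * (u i).im = (u 0).im * (u 0).im := by
          have := hn1 _ (hun i)
          have := hn1 _ (hun 0)
          rw [hr] at *
          linarith
        rcases mul_self_eq_mul_self_iff.1 h6 with h7 | h7
        · exact Or.inl (Complex.ext hr h7)
        · exact Or.inr (Complex.ext (by simpa using hr) (by simpa using h7))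
      have hn3 : 3 ≤ 1 * n := by omega
      rcases him 1 (by omega) with h | h
      · exact absurd (hinj 1 (by omega) 0 (by omega) h) one_ne_zero
      rcases him 2 (by omega) with h' | h'
      · exact absurd (hinj 2 (by omega) 0 (by omega) h') two_ne_zero
      exact absurd (hinj 2 (by omega) 1 (by omega) (h'.trans h.symm)) (by norm_num)
    · obtain ⟨i, hi, hic⟩ : ∃ i, i < g ∧ i ≠ c := by
        rcases Nat.eq_zero_or_pos c with rfl | h
        · exact ⟨1, by omega, one_ne_zero⟩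
        · exact ⟨0, by omega, by omega⟩
      refine hne0 i (hR0 i ?_)
      rw [hR, mem_filter, mem_range, Nat.mod_eq_of_lt hi]
      exact ⟨hi.trans hlt, hic⟩

/-- **A factor less than the base for every digit**, the base being at least `3`. -/
theorem exists_digit_bound {q : ℕ} (hq : 3 ≤ q) : ∃ β : ℝ, 1 ≤ β ∧ β < q ∧
    ∀ g c, g ∣ q → g < q → c < g → ∀ v : ℂ, ‖v‖ = 1 →
      (g : ℝ) * (∑ i ∈ (range q).filter (fun i => i % g = c), digitW q v i) ^ 2 ≤ β := by
  have hone : ∀ y : ℕ × ℕ, ∃ β : ℝ, β < q ∧ (y.1 ∣ q → y.1 < q → y.2 < y.1 → ∀ v : ℂ, ‖v‖ = 1 →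
      (y.1 : ℝ) * (∑ i ∈ (range q).filter (fun i => i % y.1 = y.2), digitW q v i) ^ 2 ≤ β) := by
    intro y
    obtain ⟨v₀, hv₀, hmax⟩ := (isCompact_sphere (0 : ℂ) 1).exists_isMaxOn ⟨1, by simp⟩
      (f := fun v : ℂ => (y.1 : ℝ) *
        (∑ i ∈ (range q).filter (fun i => i % y.1 = y.2), digitW q v i) ^ 2)
      (Continuous.continuousOn (continuous_const.mul
        ((continuous_finsetSum _ fun i _ => continuous_digitW q i).pow 2)))
    rw [mem_sphere_zero_iff_norm] at hv₀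
    by_cases h : y.1 ∣ q ∧ y.1 < q ∧ y.2 < y.1
    · exact ⟨_, sum_digitW_class_lt (by omega) h.1 h.2.1 (Or.inr hq) h.2.2 hv₀,
        fun _ _ _ v hv => hmax (mem_sphere_zero_iff_norm.2 hv)⟩
    · exact ⟨0, Nat.cast_pos.2 (by omega), fun h1 h2 h3 => absurd ⟨h1, h2, h3⟩ h⟩
  choose f hf hfb using hone
  obtain ⟨y₀, -, hy₀⟩ := exists_max_image (range q ×ˢ range q) f
    ⟨(0, 0), by simp; omega⟩
  refine ⟨max (f y₀) 1, le_max_right _ _, max_lt (hf y₀) (by exact_mod_cast (by omega : 1 < q)),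
    fun g c h1 h2 h3 v hv => le_trans (hfb (g, c) h1 h2 h3 v hv) ?_⟩
  exact (hy₀ (g, c) (mem_product.2 ⟨mem_range.2 h2, mem_range.2 (h3.trans h2)⟩)).trans
    (le_max_left _ _)

theorem eAdd_half : eAdd (1 / 2) = -1 := by
  rw [eAdd, show ((2 * Real.pi * (1 / 2) : ℝ) : ℂ) = (Real.pi : ℂ) by push_cast; ring,
    Complex.exp_pi_mul_I]

theorem norm_one_add_sq_add_norm_one_sub_sq {u : ℂ} (hu : ‖u‖ = 1) :
    ‖1 + u‖ ^ 2 + ‖1 - u‖ ^ 2 = 4 := by
  have h := parallelogram_law_with_norm ℝ (1 : ℂ) u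
  rw [norm_one, hu] at h
  linarith

theorem digitW_two_zero (v : ℂ) : digitW 2 v 0 = ‖1 + v‖ / 2 := by
  simp [digitW, digitFactor, sum_range_succ, eAdd]

theorem digitW_two_one (v : ℂ) : digitW 2 v 1 = ‖1 - v‖ / 2 := by
  have h : eAdd (-(((1 : ℕ) : ℝ) / ((2 : ℕ) : ℝ))) = -1 := by
    rw [show -(((1 : ℕ) : ℝ) / ((2 : ℕ) : ℝ)) = (1 / 2 : ℝ) + ((-1 : ℤ) : ℝ) by push_cast; ring,
      eAdd_add, eAdd_intCast, eAdd_half, mul_one]
  rw [digitW, h, digitFactor, sum_range_succ, sum_range_one]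
  simp [sub_eq_add_neg]

/-- **Two binary digits.** -/
theorem two_digit_le {z : ℂ} (hz : ‖z‖ = 1) (d a : ℕ) :
    ∑ i ∈ range 2, digitW 2 (digitPt 2 z (d + 1) a) i *
      ∑ l ∈ range 2, digitW 2 (digitPt 2 z (d + 2) (a + 2 ^ d * i)) l ≤ 37 / 20 := by
  simp only [sum_range_succ, sum_range_zero, zero_add, digitW_two_zero, digitW_two_one, digitPt,
    mul_zero, add_zero, mul_one, Nat.cast_ofNat]
  obtain ⟨v, hv⟩ : ∃ v, v = eAdd (-((a : ℝ) / (2 : ℝ) ^ (d + 2))) := ⟨_, rfl⟩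
  obtain ⟨v', hv'⟩ : ∃ v', v' = eAdd (-(((a + 2 ^ d : ℕ) : ℝ) / (2 : ℝ) ^ (d + 2))) := ⟨_, rfl⟩
  have hsq : v ^ 2 = eAdd (-((a : ℝ) / (2 : ℝ) ^ (d + 1))) := by
    rw [hv, ← eAdd_nat_mul]
    congr 1
    push_cast
    rw [pow_succ (2 : ℝ) (d + 1)]
    field_simp
  have hsq' : v' ^ 2 = -v ^ 2 := by
    rw [hsq, hv', ← eAdd_nat_mul,
      show ((2 : ℕ) : ℝ) * -(((a + 2 ^ d : ℕ) : ℝ) / (2 : ℝ) ^ (d + 2)) =
        -((a : ℝ) / (2 : ℝ) ^ (d + 1)) + ((1 / 2 : ℝ) + ((-1 : ℤ) : ℝ)) by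
        push_cast; rw [pow_succ, pow_succ]; field_simp; ring, eAdd_add, eAdd_add, eAdd_intCast,
      eAdd_half]
    ring
  have hw : ‖z * v ^ 2‖ = 1 := by rw [hsq, norm_mul, hz, norm_eAdd, one_mul]
  have hu : ‖z * v‖ = 1 := by rw [hv, norm_mul, hz, norm_eAdd, one_mul]
  have hu' : ‖z * v'‖ = 1 := by rw [hv', norm_mul, hz, norm_eAdd, one_mul]
  have hw2 : ‖(z * v) ^ 2‖ = 1 := by rw [norm_pow, hu, one_pow]
  rw [← hv, ← hv', ← hsq]
  obtain ⟨p, hp⟩ : ∃ p, p = ‖1 + z * v ^ 2‖ / 2 := ⟨_, rfl⟩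
  obtain ⟨p', hp'⟩ : ∃ p', p' = ‖1 - z * v ^ 2‖ / 2 := ⟨_, rfl⟩
  obtain ⟨P, hP⟩ : ∃ P, P = ‖1 + z * v‖ / 2 + ‖1 - z * v‖ / 2 := ⟨_, rfl⟩
  obtain ⟨P', hP'⟩ : ∃ P', P' = ‖1 + z * v'‖ / 2 + ‖1 - z * v'‖ / 2 := ⟨_, rfl⟩
  rw [← hp, ← hp', ← hP, ← hP']
  have hpp : p ^ 2 + p' ^ 2 = 1 := by
    have := norm_one_add_sq_add_norm_one_sub_sq hw
    rw [hp, hp']
    linarith
  have hprod : ∀ u : ℂ, ‖1 + u‖ * ‖1 - u‖ = ‖1 - u ^ 2‖ := fun u => by
    rw [← norm_mul]
    congr 1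
    ring
  have hPsq : P ^ 2 = 1 + ‖1 - (z * v) ^ 2‖ / 2 := by
    rw [← hprod, hP]
    linear_combination (1 / 4 : ℝ) * norm_one_add_sq_add_norm_one_sub_sq hu
  have hPsq' : P' ^ 2 = 1 + ‖1 + (z * v) ^ 2‖ / 2 := by
    rw [show (z * v) ^ 2 = -(z * v') ^ 2 by rw [mul_pow, mul_pow, hsq']; ring, ← sub_eq_add_neg,
      ← hprod, hP']
    linear_combination (1 / 4 : ℝ) * norm_one_add_sq_add_norm_one_sub_sq hu'
  have h4 := norm_one_add_sq_add_norm_one_sub_sq hw2
  have hsum : ‖1 + (z * v) ^ 2‖ + ‖1 - (z * v) ^ 2‖ ≤ 283 / 100 := by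
    refine (pow_le_pow_iff_left₀ (by positivity) (by norm_num) two_ne_zero).1 ?_
    nlinarith [sq_nonneg (‖1 + (z * v) ^ 2‖ - ‖1 - (z * v) ^ 2‖)]
  refine (pow_le_pow_iff_left₀ (a := p * P + p' * P') (by
    rw [hp, hp', hP, hP']; positivity) (by norm_num) two_ne_zero).1 ?_
  nlinarith [sq_nonneg (p * P' - p' * P)]

/-- **The sum over a class in base `2`.** -/
theorem classSum_two_le {z : ℂ} (hz : ‖z‖ = 1) : ∀ m d a : ℕ,
    classSum 2 z d m 1 0 a ^ 2 ≤ 4 * (37 / 20) ^ m * coef 2 z d a ^ 2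
  | 0, d, a => by
    refine (pow_le_pow_left₀ (classSum_nonneg _ _ _ _ _ _ _) (classSum_zero_le _ _ _ _ _ _) 2).trans
      (le_mul_of_one_le_left (sq_nonneg _) (by norm_num))
  | 1, d, a => by
    have h : classSum 2 z d 1 1 0 a =
        (∑ i ∈ range 2, digitW 2 (digitPt 2 z (d + 1) a) i) * coef 2 z d a := by
      rw [classSum_succ, sum_mul]
      simp only [pow_zero, sum_range_one, Nat.mod_one, if_true, mul_zero, add_zero,
        coef_succ le_rfl]
    have hle : ∀ i, digitW 2 (digitPt 2 z (d + 1) a) i ≤ 1 := fun i => by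
      rw [digitW, div_le_one (by norm_num)]
      exact DigitSums.norm_digitFactor_le 2
        (by rw [norm_mul, norm_digitPt 2 hz, norm_eAdd, one_mul])
    have h2 : ∑ i ∈ range 2, digitW 2 (digitPt 2 z (d + 1) a) i ≤ 2 :=
      (sum_le_card_nsmul _ _ 1 fun i _ => hle i).trans_eq (by simp)
    rw [h, mul_pow]
    exact mul_le_mul_of_nonneg_right ((pow_le_pow_left₀ (sum_nonneg fun i _ =>
      digitW_nonneg _ _ _) h2 2).trans (by norm_num)) (sq_nonneg _)
  | m + 2, d, a => by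
    obtain ⟨A, hA⟩ : ∃ A : ℝ, A = Real.sqrt (4 * (37 / 20) ^ m) := ⟨_, rfl⟩
    have hA0 : 0 ≤ A := hA ▸ Real.sqrt_nonneg _
    have hrec : ∀ d' a', classSum 2 z d' m 1 0 a' ≤ A * coef 2 z d' a' := fun d' a' => by
      refine (pow_le_pow_iff_left₀ (classSum_nonneg _ _ _ _ _ _ _)
        (mul_nonneg hA0 (coef_nonneg _ _ _ _)) two_ne_zero).1 ?_
      rw [mul_pow, hA, Real.sq_sqrt (by positivity)]
      exact classSum_two_le hz m d' a'
    have hstep : ∀ d' m' a', classSum 2 z d' (m' + 1) 1 0 a' =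
        ∑ i ∈ range 2, classSum 2 z (d' + 1) m' 1 0 (a' + 2 ^ d' * i) := fun d' m' a' => by
      rw [classSum_succ]
      simp only [classSum, Nat.mod_one, if_true, filter_true]
    have hcs : classSum 2 z d (m + 2) 1 0 a ≤ 37 / 20 * A * coef 2 z d a := by
      rw [hstep, sum_congr rfl fun i _ => hstep (d + 1) m _]
      refine (sum_le_sum fun i _ => sum_le_sum fun l _ => hrec _ _).trans ?_
      simp only [coef_succ le_rfl, ← mul_sum, ← sum_mul]
      refine le_of_eq_of_le ?_ (mul_le_mul_of_nonneg_right (two_digit_le hz d a)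
        (mul_nonneg hA0 (coef_nonneg 2 z d a))) |>.trans_eq (by ring)
      simp only [mul_sum, sum_mul]
      exact sum_congr rfl fun i _ => sum_congr rfl fun l _ => by ring
    refine (pow_le_pow_left₀ (classSum_nonneg _ _ _ _ _ _ _) hcs 2).trans (le_of_eq ?_)
    rw [mul_pow, mul_pow, hA, Real.sq_sqrt (by positivity)]
    ring

theorem dvd_pow_div_gcd {q k m : ℕ} (hq : 0 < q) (hk : k ∣ q ^ (m + 1)) :
    k / k.gcd q ∣ q ^ m := by
  obtain ⟨r, hr⟩ := Nat.gcd_dvd_right k q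
  obtain ⟨k', hk'⟩ := Nat.gcd_dvd_left k q
  have hg0 : 0 < k.gcd q := Nat.gcd_pos_of_pos_right k hq
  have hco := Nat.coprime_div_gcd_div_gcd hg0
  obtain ⟨g, hg⟩ : ∃ g, g = k.gcd q := ⟨_, rfl⟩
  rw [← hg] at hr hk' hg0 hco ⊢
  rw [show q / g = r by rw [hr, Nat.mul_div_cancel_left _ hg0]] at hco
  rw [show k / g = k' by rw [hk', Nat.mul_div_cancel_left _ hg0]] at hco ⊢
  have h2 : g * k' ∣ g * (r * q ^ m) := by
    rw [← hk', ← mul_assoc, ← hr, ← pow_succ']
    exact hk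
  exact hco.dvd_of_dvd_mul_left (Nat.dvd_of_mul_dvd_mul_left hg0 h2)

/-- **The sum over a class.** -/
theorem exists_classSum_le {q : ℕ} (hq : 2 ≤ q) : ∃ β : ℝ, 1 ≤ β ∧ β < q ∧
    ∀ z : ℂ, ‖z‖ = 1 → ∀ m d k c a, k ∣ q ^ m → ¬q ∣ k →
      (k : ℝ) * classSum q z d m k c a ^ 2 ≤ 4 * β ^ m * coef q z d a ^ 2 := by
  rcases eq_or_lt_of_le hq with rfl | hq3
  · refine ⟨37 / 20, by norm_num, by norm_num, fun z hz m d k c a hk hnk => ?_⟩
    obtain ⟨i, -, rfl⟩ := (Nat.dvd_prime_pow Nat.prime_two).1 hk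
    obtain rfl : i = 0 := by
      by_contra h
      exact hnk (dvd_pow_self 2 h)
    rw [pow_zero, Nat.cast_one, one_mul]
    rcases Nat.eq_zero_or_pos c with rfl | hc
    · exact classSum_two_le hz m d a
    · rw [classSum, filter_false_of_mem fun j _ => by omega, sum_empty, zero_pow two_ne_zero]
      positivity
  obtain ⟨β, hβ1, hβq, hdig⟩ := exists_digit_bound hq3
  refine ⟨β, hβ1, hβq, fun z hz m => ?_⟩
  induction m with
  | zero =>
    intro d k c a hk _
    rw [pow_zero, Nat.dvd_one] at hk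
    subst hk
    rw [Nat.cast_one, one_mul]
    exact (pow_le_pow_left₀ (classSum_nonneg _ _ _ _ _ _ _) (classSum_zero_le _ _ _ _ _ _) 2).trans
      (le_mul_of_one_le_left (sq_nonneg _) (by norm_num))
  | succ m ih =>
    intro d k c a hk hnk
    have hq0 : 0 < q := by omega
    have hk0 : 0 < k := Nat.pos_of_dvd_of_pos hk (by positivity)
    obtain ⟨g, hg⟩ : ∃ g, g = k.gcd q := ⟨_, rfl⟩
    have hgq : g ∣ q := hg ▸ Nat.gcd_dvd_right k q
    have hgk : g ∣ k := hg ▸ Nat.gcd_dvd_left k q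
    have hg0 : 0 < g := Nat.pos_of_dvd_of_pos hgk hk0
    have hglt : g < q := lt_of_le_of_ne (Nat.le_of_dvd hq0 hgq) fun e => hnk (e ▸ hgk)
    obtain ⟨k', hk'⟩ : ∃ k', k' = k / g := ⟨_, rfl⟩
    have hkk : g * k' = k := hk' ▸ Nat.mul_div_cancel' hgk
    have hk'0 : (0 : ℝ) < k' := Nat.cast_pos.2 (Nat.pos_of_ne_zero fun e => by
      rw [e, mul_zero] at hkk
      omega)
    have hk'dvd : k' ∣ q ^ m := hk' ▸ hg ▸ dvd_pow_div_gcd hq0 hk
    have hnk' : ¬q ∣ k' := fun h => hnk (h.trans (hkk ▸ dvd_mul_left k' g))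
    obtain ⟨Y, hY⟩ : ∃ Y : ℝ, Y = Real.sqrt (4 * β ^ m / k') := ⟨_, rfl⟩
    obtain ⟨w, hw⟩ : ∃ w : ℕ → ℝ, w = digitW q (digitPt q z (d + 1) a) := ⟨_, rfl⟩
    have hw0 : ∀ i, 0 ≤ w i := fun i => hw ▸ digitW_nonneg _ _ _
    have hY0 : 0 ≤ Y := hY ▸ Real.sqrt_nonneg _
    have hinner : ∀ i ∈ range q, ∑ j ∈ range (q ^ m),
        (if (i + q * j) % k = c then coef q z (d + 1 + m) (a + q ^ d * i + q ^ (d + 1) * j)
          else 0) ≤ if i % g = c % g then Y * (w i * coef q z d a) else 0 := fun i _ => by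
      by_cases hex : ∃ j, (i + q * j) % k = c
      · obtain ⟨j₁, hj₁⟩ := hex
        have hig : i % g = c % g := by
          rw [← hj₁, Nat.mod_mod_of_dvd _ hgk, Nat.add_mod, Nat.dvd_iff_mod_eq_zero.1
            (hgq.mul_right j₁), add_zero, Nat.mod_mod]
        rw [if_pos hig, hw, ← coef_succ hq]
        refine le_trans (le_trans (le_of_eq (sum_filter _ _).symm)
          (sum_le_sum_of_subset_of_nonneg (t := (range (q ^ m)).filter
            fun j => j % k' = j₁ % k') (fun j hj => ?_) fun _ _ _ => coef_nonneg _ _ _ _)) ?_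
        · rw [mem_filter] at hj ⊢
          refine ⟨hj.1, ?_⟩
          have h2 : q * j ≡ q * j₁ [MOD k] := Nat.ModEq.add_left_cancel' i (hj.2.trans hj₁.symm)
          exact hk' ▸ hg ▸ Nat.ModEq.cancel_left_div_gcd hk0 h2
        · refine (pow_le_pow_iff_left₀ (sum_nonneg fun _ _ => coef_nonneg _ _ _ _)
            (mul_nonneg hY0 (coef_nonneg _ _ _ _)) two_ne_zero).1 ?_
          rw [mul_pow, hY, Real.sq_sqrt (by positivity), div_mul_eq_mul_div, le_div_iff₀ hk'0,
            mul_comm]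
          exact ih (d + 1) k' (j₁ % k') (a + q ^ d * i) hk'dvd hnk'
      · simp only [not_exists] at hex
        rw [sum_eq_zero fun j _ => if_neg (hex j)]
        split_ifs
        exacts [mul_nonneg hY0 (mul_nonneg (hw0 i) (coef_nonneg _ _ _ _)), le_rfl]
    obtain ⟨T, hT⟩ : ∃ T, T = ∑ i ∈ (range q).filter (fun i => i % g = c % g), w i := ⟨_, rfl⟩
    have hcs : classSum q z d (m + 1) k c a ≤ Y * coef q z d a * T := by
      rw [classSum_succ]
      refine (sum_le_sum hinner).trans (le_of_eq ?_)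
      rw [← sum_filter, hT, mul_sum]
      exact sum_congr rfl fun i _ => by ring
    have hTle : (g : ℝ) * T ^ 2 ≤ β := by
      rw [hT, hw]
      exact hdig g (c % g) hgq hglt (Nat.mod_lt _ hg0) _ (norm_digitPt q hz _ _)
    refine (mul_le_mul_of_nonneg_left (pow_le_pow_left₀ (classSum_nonneg _ _ _ _ _ _ _) hcs 2)
      (Nat.cast_nonneg k)).trans ?_
    rw [mul_pow, mul_pow, hY, Real.sq_sqrt (by positivity), ← hkk, Nat.cast_mul,
      show (g : ℝ) * k' * (4 * β ^ m / k' * coef q z d a ^ 2 * T ^ 2) =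
        4 * β ^ m * coef q z d a ^ 2 * ((g : ℝ) * T ^ 2) by field_simp]
    refine (mul_le_mul_of_nonneg_left hTle (by positivity)).trans (le_of_eq ?_)
    ring

/-- **The coefficients decay.** -/
theorem exists_coef_le {q : ℕ} (hq : 2 ≤ q) {z : ℂ} (hz : ‖z‖ = 1) (hz1 : z ^ (q - 1) ≠ 1) :
    ∃ K θ : ℝ, 1 ≤ K ∧ 0 < θ ∧ θ < 1 ∧ ∀ L h, coef q z L h ≤ K * θ ^ L := by
  obtain ⟨δ, K, hδ0, hδ1, hK⟩ := DigitSums.exists_powerSaving hq {z} (Set.finite_singleton z)
    (by simpa using hz) (by simpa using hz1)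
  have hq1 : (1 : ℝ) < q := by exact_mod_cast (show 1 < q by omega)
  refine ⟨max K 1, (q : ℝ) ^ δ / q, le_max_right _ _, by positivity, ?_, fun L h => ?_⟩
  · rw [div_lt_one (by positivity)]
    calc (q : ℝ) ^ δ < (q : ℝ) ^ (1 : ℝ) := Real.rpow_lt_rpow_of_exponent_lt hq1 hδ1
      _ = q := Real.rpow_one _
  · rw [coef, div_le_iff₀ (by positivity), mul_assoc, ← mul_pow,
      div_mul_cancel₀ _ (by linarith : (q : ℝ) ≠ 0)]
    refine (hK z rfl _ (norm_eAdd _) _ (by positivity)).trans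
      ((mul_le_mul_of_nonneg_right (le_max_left K 1) (by positivity)).trans_eq ?_)
    push_cast
    rw [← Real.rpow_natCast (q : ℝ) L, ← Real.rpow_mul (Nat.cast_nonneg q), mul_comm (L : ℝ) δ,
      Real.rpow_mul (Nat.cast_nonneg q), Real.rpow_natCast]

end FA.DigitPrimes

end
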