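import Fermat.Agent.DigitPrimes.Phases
import Mathlib.Analysis.InnerProductSpace.Basic
import Mathlib.Algebra.Order.Chebyshev
import Mathlib.NumberTheory.ArithmeticFunction.Defs

/-!
# The sums of type II

After Cauchy and van der Corput one meets the products of `z ^ s (m (n + k))` and `z ^ -s (m n)`,
`k < q ^ ρ`. Unless a carry passes the digit `L = μ + 2 ρ`, which is rare by the divisor bound,
only the lower digits matter, and for these the coefficients save a power.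
-/

set_option autoImplicit false

noncomputable section

namespace FA.DigitPrimes

open Finset
open scoped ComplexConjugate

theorem pow_mul_pow_le_one {u v : ℝ} (hu0 : 0 ≤ u) (hu1 : u ≤ 1) (hv : 0 ≤ v) {J : ℕ}
    (hJ : u ^ J * v ≤ 1) {e j : ℕ} (h : J * e ≤ j) : u ^ j * v ^ e ≤ 1 := by
  refine (mul_le_mul_of_nonneg_right (pow_le_pow_of_le_one hu0 hu1 h) (by positivity)).trans ?_
  rw [pow_mul, ← mul_pow]
  exact pow_le_one₀ (by positivity) hJ

theorem sum_prox_class_le {q : ℕ} (hq : 2 ≤ q) {z : ℂ} (hz : ‖z‖ = 1) {M B δ m k s : ℕ}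
    (hk : k ≤ 2 ^ B) (hs : 0 < s) :
    ∑ a ∈ range (q ^ δ * k), coef q z δ (a % q ^ δ) ^ 2 *
        (prox M (q ^ (δ + m)) (a * s % (q ^ δ * k)) +
          prox M (q ^ (δ + m)) (q ^ δ * k - a * s % (q ^ δ * k))) ≤
      s * (2 * M + 2 * (q : ℝ) ^ m * (1 + B)) := by
  obtain ⟨E, hE⟩ : ∃ E, E = q ^ δ := ⟨_, rfl⟩
  obtain ⟨Q, hQ⟩ : ∃ Q, Q = q ^ (δ + m) := ⟨_, rfl⟩
  have hE0 : 0 < E := hE ▸ by positivity
  have hQE : (Q : ℝ) / E = (q : ℝ) ^ m := by
    rw [hQ, hE, pow_add]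
    push_cast
    exact mul_div_cancel_left₀ _ (by positivity)
  have hM0 : (0 : ℝ) ≤ M := Nat.cast_nonneg M
  rw [← hE, ← hQ, ← sum_fiberwise_of_maps_to (g := fun a => a % E) (t := range E)
    (fun a _ => mem_range.2 (Nat.mod_lt a hE0))]
  refine (sum_le_sum (g := fun a₀ => coef q z δ a₀ ^ 2 *
    (s * (2 * M + 2 * (q : ℝ) ^ m * (1 + B)))) fun a₀ _ => ?_).trans ?_
  · rw [sum_congr rfl fun a ha => by rw [(mem_filter.1 ha).2], ← mul_sum]
    refine mul_le_mul_of_nonneg_left ((sum_class_mul_le hs (dvd_mul_right E k) a₀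
      (fun u => prox (M : ℝ) Q u + prox (M : ℝ) Q (E * k - u))
      fun u => add_nonneg (prox_nonneg hM0 _ _) (prox_nonneg hM0 _ _)).trans
        (mul_le_mul_of_nonneg_left ?_ (Nat.cast_nonneg s))) (sq_nonneg _)
    rw [sum_range_class _ E k (Nat.mod_lt _ hE0)]
    refine (sum_class_prox_le hM0 Q hE0 hk (Nat.mod_lt _ hE0)).trans ?_
    rw [hQE]
    linarith [prox_le (M : ℝ) Q (a₀ * s % E), prox_le (M : ℝ) Q (E - a₀ * s % E)]
  · rw [← sum_mul, hE, sum_coef_sq hq hz, one_mul]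

/-- **The periodic part saves `q ^ ρ`.** -/
theorem exists_periodic_le {q : ℕ} (hq : 2 ≤ q) {z : ℂ} (hz : ‖z‖ = 1) (hz1 : z ^ (q - 1) ≠ 1) :
    ∃ C : ℝ, ∃ R : ℕ, 0 ≤ C ∧ 100 ≤ R ∧ ∀ μ ν ρ s : ℕ, μ ≤ ν → R * ρ ≤ μ → 0 < s → s ≤ q ^ ρ →
      ∀ Dv : ℝ, ((q ^ (μ + 2 * ρ)).divisors.card : ℝ) ≤ Dv → ∀ T : ℕ → ℕ,
      (∀ n, T n ≤ q * q ^ μ) →
      ∑ n ∈ Ioc (q ^ ν) (q * q ^ ν), ‖∑ m ∈ Ioc (q ^ μ) (T n),
          low q z (μ + 2 * ρ) (m * (n + s)) * conj (low q z (μ + 2 * ρ) (m * n))‖ ≤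
        C * (1 + (μ + 2 * ρ : ℕ)) ^ 2 * Dv * ((q : ℝ) ^ μ * (q : ℝ) ^ ν / (q : ℝ) ^ ρ) := by
  obtain ⟨K, θ, hK, hθ0, hθ1, hcoef⟩ := exists_coef_le hq hz hz1
  obtain ⟨β, hβ1, hβq, hcls⟩ := exists_classSum_le hq
  have hqr : (2 : ℝ) ≤ q := by exact_mod_cast hq
  have hq0 : (0 : ℝ) < q := by linarith
  have hq1 : (1 : ℝ) ≤ q := by linarith
  obtain ⟨b, hb⟩ : ∃ b : ℝ, b = β / q := ⟨_, rfl⟩
  have hb0 : 0 ≤ b := hb ▸ by positivity
  have hb1 : b < 1 := hb ▸ (div_lt_one hq0).2 hβq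
  obtain ⟨J, hJ⟩ := exists_pow_lt_of_lt_one (show (0 : ℝ) < 1 / q by positivity) hb1
  obtain ⟨R₀, hR₀⟩ := exists_pow_lt_of_lt_one (show (0 : ℝ) < 1 / q by positivity) hθ1
  rw [lt_div_iff₀ hq0] at hJ hR₀
  obtain ⟨c, hc⟩ : ∃ c : ℝ, c = 4 * (2 + 6 * q + 2 * q ^ 2 + 3 * q ^ 2 * K ^ 2) := ⟨_, rfl⟩
  have hc0 : 0 ≤ c := hc ▸ by positivity
  refine ⟨c * q, 2 * R₀ + 5 * J + 100, by positivity, by omega,
    fun μ ν ρ s hμν hR hs hsρ Dv hDv T hT => ?_⟩
  obtain ⟨L, hL⟩ : ∃ L, L = μ + 2 * ρ := ⟨_, rfl⟩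
  rw [← hL] at hDv ⊢
  have hRρ : 2 * (R₀ * ρ) + 5 * (J * ρ) + 100 * ρ ≤ μ := by
    rw [← mul_assoc, ← mul_assoc, ← add_mul, ← add_mul]
    exact hR
  obtain ⟨A, hA⟩ : ∃ A : ℝ, A = (q : ℝ) ^ μ * (q : ℝ) ^ ν / (q : ℝ) ^ ρ := ⟨_, rfl⟩
  have hA0 : 0 ≤ A := hA ▸ by positivity
  rw [← hA]
  obtain ⟨l, hl⟩ : ∃ l : ℝ, l = 1 + ((q * L : ℕ) : ℝ) := ⟨_, rfl⟩
  have hl1 : 1 ≤ l := hl ▸ le_add_of_nonneg_right (Nat.cast_nonneg _)
  have hQB : q ^ L ≤ 2 ^ (q * L) := by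
    rw [pow_mul]
    exact Nat.pow_le_pow_left Nat.lt_two_pow_self.le L
  have hlA : ∀ {x : ℝ}, x * (q : ℝ) ^ ρ ≤ (q : ℝ) ^ μ * (q : ℝ) ^ ν → x ≤ A := fun h => by
    rwa [hA, le_div_iff₀ (by positivity)]
  have hpe : ∀ {u v : ℕ}, u ≤ v → (q : ℝ) ^ u ≤ (q : ℝ) ^ v := fun h => pow_le_pow_right₀ hq1 h
  have hsR : (s : ℝ) ≤ (q : ℝ) ^ ρ := by exact_mod_cast hsρ
  have hβb : ∀ j, β ^ j = b ^ j * (q : ℝ) ^ j := fun j => by
    rw [hb, div_pow, div_mul_cancel₀ _ (by positivity)]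
  have hc3 : β ^ L * (q : ℝ) ^ (3 * ρ) ≤ (q : ℝ) ^ μ := by
    refine le_of_eq_of_le ?_ (mul_le_of_le_one_left (pow_nonneg hq0.le μ)
      (pow_mul_pow_le_one hb0 hb1.le hq0.le hJ.le (e := 5 * ρ) (j := L) (by
        rw [mul_left_comm]; omega)))
    rw [hβb, show (q : ℝ) ^ L = (q : ℝ) ^ μ * (q : ℝ) ^ (2 * ρ) by rw [hL, pow_add],
      show 5 * ρ = 2 * ρ + 3 * ρ by omega, pow_add]
    ring
  have hc2 : β ^ L * (q : ℝ) ^ (2 * ρ) ≤ (q : ℝ) ^ μ :=
    (mul_le_mul_of_nonneg_left (hpe (by omega)) (by positivity)).trans hc3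
  have hc1 : β ^ L * (q : ℝ) ^ ρ ≤ (q : ℝ) ^ μ :=
    (mul_le_mul_of_nonneg_left (hpe (by omega)) (by positivity)).trans hc3
  refine (sum_le_sum_of_subset_of_nonneg (t := Ioc (q ^ ν) (q ^ ν + q * q ^ ν))
    (Ioc_subset_Ioc_right (Nat.le_add_left _ _)) fun n _ _ => norm_nonneg _).trans ?_
  refine (sum_norm_low_le hq hz (hcls z hz) (s := s) (M := q * q ^ μ) hQB (q ^ ν) (q ^ μ) T
    (fun n => (hT n).trans (Nat.le_add_left _ _)) (Y := c * l * A) ?_).trans ?_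
  swap
  · refine (mul_le_mul_of_nonneg_right hDv (by positivity)).trans ?_
    have hl' : l ≤ q * (1 + (L : ℝ)) ^ 2 := by
      have h1 := le_self_pow₀ (show (1 : ℝ) ≤ 1 + L from
        le_add_of_nonneg_right (Nat.cast_nonneg L)) two_ne_zero
      have h2 := mul_le_mul_of_nonneg_left h1 hq0.le
      rw [hl]
      push_cast
      linarith
    have hDv0 : 0 ≤ Dv := (Nat.cast_nonneg _).trans hDv
    have := mul_le_mul_of_nonneg_left hl' (show 0 ≤ Dv * c * A by positivity)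
    linarith
  intro δ m k hδm hkm _
  obtain ⟨Z, hZ⟩ : ∃ Z : ℝ, Z = ∑ a ∈ range (q ^ δ * k), coef q z δ (a % q ^ δ) ^ 2 *
      (prox ((q * q ^ μ : ℕ) : ℝ) (q ^ L) (a * s % (q ^ δ * k)) +
        prox ((q * q ^ μ : ℕ) : ℝ) (q ^ L) (q ^ δ * k - a * s % (q ^ δ * k))) := ⟨_, rfl⟩
  rw [← hZ, ← hl]
  obtain ⟨M, hM⟩ : ∃ M : ℝ, M = q * (q : ℝ) ^ μ := ⟨_, rfl⟩
  have hMc : ((q * q ^ μ : ℕ) : ℝ) = M := by rw [hM]; push_cast; rfl
  obtain ⟨N, hN⟩ : ∃ N : ℝ, N = q * (q : ℝ) ^ ν := ⟨_, rfl⟩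
  rw [show ((q * q ^ ν : ℕ) : ℝ) = N by rw [hN]; push_cast; rfl]
  have hM0 : 0 ≤ M := hM ▸ by positivity
  have hN0 : 0 ≤ N := hN ▸ by positivity
  have hk0 : (0 : ℝ) < k := Nat.cast_pos.2 (Nat.pos_of_dvd_of_pos hkm (by positivity))
  have hkq : k ≤ q ^ m := Nat.le_of_dvd (by positivity) hkm
  have hp : ∀ u, 0 ≤ prox ((q * q ^ μ : ℕ) : ℝ) (q ^ L) u := fun u =>
    prox_nonneg (Nat.cast_nonneg _) _ _
  have hZ0 : 0 ≤ Z :=
    hZ ▸ sum_nonneg fun a _ => mul_nonneg (sq_nonneg _) (add_nonneg (hp _) (hp _))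
  have hcsum : ∑ a ∈ range (q ^ δ * k), coef q z δ (a % q ^ δ) ^ 2 = (k : ℝ) := by
    rw [sum_range_digits, sum_congr rfl fun i _ => (sum_congr rfl fun h hh => by
      rw [Nat.add_mul_mod_self_left, Nat.mod_eq_of_lt (mem_range.1 hh)]).trans
        (sum_coef_sq hq hz δ), sum_const, card_range, nsmul_one]
  have hZk : Z / k ≤ 2 * M := by
    rw [div_le_iff₀ hk0, hZ, ← hcsum, mul_sum]
    refine sum_le_sum fun a _ => ?_
    rw [mul_comm (2 * M)]
    exact mul_le_mul_of_nonneg_left (((add_le_add (prox_le _ _ _) (prox_le _ _ _))).trans_eq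
      (by rw [hMc]; ring)) (sq_nonneg _)
  have hmL : m ≤ L := by omega
  have hβm : β ^ m ≤ β ^ L := pow_le_pow_right₀ hβ1 hmL
  have i1 : β ^ m * (Z / k) ≤ 2 * q * A := by
    refine (mul_le_mul hβm hZk (by positivity) (by positivity)).trans ?_
    rw [hM]
    have h := hlA (x := β ^ L * (q : ℝ) ^ μ) (by
      rw [mul_right_comm, mul_comm ((q : ℝ) ^ μ)]
      exact mul_le_mul_of_nonneg_right (hc1.trans (hpe hμν)) (by positivity))
    have := mul_le_mul_of_nonneg_left h (show (0 : ℝ) ≤ 2 * q by positivity)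
    linarith
  have i2 : β ^ m * ((1 / (k : ℝ)) * (2 * (q : ℝ) ^ m * l)) ≤ 2 * l * A := by
    refine (mul_le_mul hβm (mul_le_of_le_one_left (by positivity)
      ((div_le_one hk0).2 (Nat.one_le_cast.2 (Nat.cast_pos.1 hk0)))) (by positivity)
      (by positivity)).trans ?_
    have h := hlA (x := β ^ L * (q : ℝ) ^ m) (by
      refine (mul_le_mul_of_nonneg_right (mul_le_mul_of_nonneg_left (hpe hmL) (by positivity))
        (by positivity)).trans ?_
      rw [show (q : ℝ) ^ L = (q : ℝ) ^ μ * (q : ℝ) ^ (2 * ρ) by rw [hL, pow_add],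
        show β ^ L * ((q : ℝ) ^ μ * (q : ℝ) ^ (2 * ρ)) * (q : ℝ) ^ ρ =
          (q : ℝ) ^ μ * (β ^ L * (q : ℝ) ^ (3 * ρ)) by ring]
      exact mul_le_mul_of_nonneg_left (hc3.trans (hpe hμν)) (by positivity))
    have := mul_le_mul_of_nonneg_left h (show (0 : ℝ) ≤ 2 * l by positivity)
    linarith
  have i3 : β ^ m * (2 * N * l) ≤ 2 * q * l * A := by
    refine (mul_le_mul_of_nonneg_right hβm (by positivity)).trans ?_
    have h := hlA (x := β ^ L * (q : ℝ) ^ ν) (by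
      rw [mul_right_comm]
      exact mul_le_mul_of_nonneg_right hc1 (by positivity))
    have := mul_le_mul_of_nonneg_left h (show (0 : ℝ) ≤ 2 * q * l by positivity)
    rw [hN]
    linarith
  have i4 : N * (b ^ m * Z) ≤ (2 * q ^ 2 + 2 * q + 3 * q ^ 2 * K ^ 2) * l * A := by
    rcases le_or_gt (J * (2 * ρ)) m with hlarge | hsmall
    · have hZle : Z ≤ (q : ℝ) ^ ρ * (2 * M + 2 * (q : ℝ) ^ m * l) := by
        have h := sum_prox_class_le hq hz (M := q * q ^ μ) (B := q * L) (δ := δ) (m := m) (k := k)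
          (hkq.trans ((Nat.pow_le_pow_right (by omega) hmL).trans hQB)) hs
        rw [hδm, ← hZ, hMc, ← hl] at h
        exact h.trans (mul_le_mul_of_nonneg_right hsR (by positivity))
      have h1 := hlA (x := b ^ m * ((q : ℝ) ^ ρ * ((q : ℝ) ^ μ * (q : ℝ) ^ ν))) (by
        refine le_of_eq_of_le ?_ (mul_le_of_le_one_left (show (0 : ℝ) ≤
          (q : ℝ) ^ μ * (q : ℝ) ^ ν by positivity)
          (pow_mul_pow_le_one hb0 hb1.le hq0.le hJ.le (e := 2 * ρ) hlarge))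
        rw [two_mul, pow_add]
        ring)
      have h2 := hlA (x := β ^ L * ((q : ℝ) ^ ρ * (q : ℝ) ^ ν)) (by
        rw [show β ^ L * ((q : ℝ) ^ ρ * (q : ℝ) ^ ν) * (q : ℝ) ^ ρ =
          β ^ L * (q : ℝ) ^ (2 * ρ) * (q : ℝ) ^ ν by ring]
        exact mul_le_mul_of_nonneg_right hc2 (by positivity))
      have h3 := mul_le_mul_of_nonneg_left h1 (show (0 : ℝ) ≤ 2 * q ^ 2 by positivity)
      have h4 := mul_le_mul_of_nonneg_left ((mul_le_mul_of_nonneg_right hβm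
        (show (0 : ℝ) ≤ (q : ℝ) ^ ρ * (q : ℝ) ^ ν by positivity)).trans h2)
        (show (0 : ℝ) ≤ 2 * q * l by positivity)
      have h5 := mul_le_mul_of_nonneg_left (mul_le_mul_of_nonneg_left hZle (pow_nonneg hb0 m)) hN0
      refine h5.trans ?_
      rw [hN, hM]
      rw [hβb] at h4
      have := mul_le_mul_of_nonneg_left hl1 (show (0 : ℝ) ≤ 2 * q ^ 2 * A by positivity)
      have : 0 ≤ 3 * (q : ℝ) ^ 2 * K ^ 2 * l * A := by positivity
      linarith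
    · have hZle : Z ≤ (K * θ ^ δ) ^ 2 * ((q : ℝ) ^ ρ * (M + 2 * ((q : ℝ) ^ L * l))) := by
        rw [hZ]
        refine (sum_le_sum fun a _ => mul_le_mul_of_nonneg_right
          (pow_le_pow_left₀ (coef_nonneg _ _ _ _) (hcoef δ _) 2)
          (add_nonneg (hp _) (hp _))).trans ?_
        rw [← mul_sum]
        refine mul_le_mul_of_nonneg_left ((sum_mul_mod_le hs
          (fun u => prox ((q * q ^ μ : ℕ) : ℝ) (q ^ L) u +
            prox ((q * q ^ μ : ℕ) : ℝ) (q ^ L) (q ^ δ * k - u))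
          fun u => add_nonneg (hp _) (hp _)).trans (mul_le_mul hsR ?_
            (sum_nonneg fun u _ => add_nonneg (hp _) (hp _)) (by positivity))) (sq_nonneg _)
        refine (sum_range_prox_le (B := q * L) (Nat.cast_nonneg _)
          ((le_of_le_of_eq (Nat.mul_le_mul_left _ hkq) (by rw [← pow_add, hδm])).trans
            hQB)).trans_eq ?_
        rw [hMc, hl]
        push_cast
        rfl
      have hM' : M + 2 * ((q : ℝ) ^ L * l) ≤ 3 * q * ((q : ℝ) ^ μ * (q : ℝ) ^ (2 * ρ) * l) := by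
        rw [hL, pow_add, hM]
        have h1 := mul_le_mul_of_nonneg_left
          (one_le_mul_of_one_le_of_one_le (one_le_pow₀ (n := 2 * ρ) hq1) hl1)
          (show (0 : ℝ) ≤ q * (q : ℝ) ^ μ by positivity)
        have h2 := mul_le_mul_of_nonneg_right hq1
          (show (0 : ℝ) ≤ 2 * ((q : ℝ) ^ μ * (q : ℝ) ^ (2 * ρ) * l) by positivity)
        linarith
      have hθ4 : θ ^ (2 * δ) * (q : ℝ) ^ (4 * ρ) ≤ 1 :=
        pow_mul_pow_le_one hθ0.le hθ1.le hq0.le hR₀.le (by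
          rw [mul_left_comm]; rw [mul_left_comm J] at hsmall; omega)
      have h1 := hlA (x := θ ^ (2 * δ) * ((q : ℝ) ^ (3 * ρ) * ((q : ℝ) ^ μ * (q : ℝ) ^ ν))) (by
        refine le_of_eq_of_le ?_ (mul_le_of_le_one_left (show (0 : ℝ) ≤
          (q : ℝ) ^ μ * (q : ℝ) ^ ν by positivity) hθ4)
        rw [show 4 * ρ = 3 * ρ + ρ by omega, pow_add]
        ring)
      have h2 := mul_le_mul_of_nonneg_left h1
        (show (0 : ℝ) ≤ 3 * q ^ 2 * K ^ 2 * l by positivity)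
      have h3 : (K * θ ^ δ) ^ 2 * ((q : ℝ) ^ ρ * (M + 2 * ((q : ℝ) ^ L * l))) ≤
          (K * θ ^ δ) ^ 2 *
            ((q : ℝ) ^ ρ * (3 * q * ((q : ℝ) ^ μ * (q : ℝ) ^ (2 * ρ) * l))) := by gcongr
      refine (mul_le_mul_of_nonneg_left ((mul_le_of_le_one_left hZ0 (pow_le_one₀ hb0 hb1.le)).trans
        (hZle.trans h3)) hN0).trans ?_
      have : 0 ≤ (2 * (q : ℝ) ^ 2 + 2 * q) * l * A := by positivity
      rw [show (K * θ ^ δ) ^ 2 = K ^ 2 * θ ^ (2 * δ) by ring, hN]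
      rw [show 3 * ρ = ρ + 2 * ρ by omega, pow_add] at h2
      linarith
  have e : 4 * β ^ m * (N / (q : ℝ) ^ m + 1 / (k : ℝ)) * (Z + 2 * (q : ℝ) ^ m * l) =
      4 * (N * (b ^ m * Z) + β ^ m * (2 * N * l) + β ^ m * (Z / k) +
        β ^ m * ((1 / (k : ℝ)) * (2 * (q : ℝ) ^ m * l))) := by
    rw [hβb]
    field_simp
    ring
  rw [e, hc]
  have := mul_le_mul_of_nonneg_right hl1 (show (0 : ℝ) ≤ 2 * q * A by positivity)
  linarith

/-- **Carries past the digit `L` are rare.** -/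
theorem sum_card_carry_le (q : ℕ) {M N Q V : ℕ} {Dv : ℝ} (hDv0 : 0 ≤ Dv) (hQ : 0 < Q)
    (hDv : ∀ l, 1 ≤ l → l ≤ q * q * (M * N) → (l.divisors.card : ℝ) ≤ Dv) :
    ∑ n ∈ Ioc N (q * N), ((((Ioc M (q * M)).filter fun m => Q ≤ m * n % Q + V).card : ℕ) : ℝ) ≤
      Dv * (((q * q * (M * N) / Q + 1) * V : ℕ) : ℝ) := by
  obtain ⟨P, hP⟩ : ∃ P, P = (Ioc M (q * M) ×ˢ Ioc N (q * N)).filter
      fun p => Q ≤ p.1 * p.2 % Q + V := ⟨_, rfl⟩
  obtain ⟨E, hE⟩ : ∃ E, E = (Icc 1 (q * q * (M * N))).filter fun l => Q ≤ l % Q + V := ⟨_, rfl⟩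
  have hlhs : ∑ n ∈ Ioc N (q * N),
      ((((Ioc M (q * M)).filter fun m => Q ≤ m * n % Q + V).card : ℕ) : ℝ) = (P.card : ℝ) := by
    rw [← Nat.cast_sum, hP, card_filter, sum_product_right]
    simp only [card_filter]
  rw [hlhs, card_eq_sum_card_fiberwise (f := fun p : ℕ × ℕ => p.1 * p.2) (t := E) fun p hp => ?_,
    Nat.cast_sum]
  · refine (sum_le_card_nsmul _ _ Dv fun l hl => ?_).trans ?_
    · rw [hE, mem_filter, mem_Icc] at hl
      refine le_trans (Nat.cast_le.2 (card_le_card_of_injOn Prod.fst (t := l.divisors)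
        (fun p hp => ?_) fun p hp p' hp' he => ?_)) (hDv l hl.1.1 hl.1.2)
      · simp only [mem_coe, mem_filter] at hp
        exact mem_coe.2 (Nat.mem_divisors.2 ⟨⟨p.2, hp.2.symm⟩, by omega⟩)
      · simp only [mem_coe, mem_filter] at hp hp'
        refine Prod.ext he (Nat.eq_of_mul_eq_mul_left (show 0 < p.1 from ?_)
          (hp.2.trans (by rw [← hp'.2, he])))
        rw [hP, mem_filter, mem_product, mem_Ioc] at hp
        omega
    · rw [nsmul_eq_mul, mul_comm]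
      refine mul_le_mul_of_nonneg_left (Nat.cast_le.2 ?_) hDv0
      refine (card_le_card_of_injOn (fun l => (l / Q, Q - 1 - l % Q))
        (t := range (q * q * (M * N) / Q + 1) ×ˢ range V) (fun l hl => ?_)
        fun a ha b hb he => ?_).trans (by rw [card_product, card_range, card_range])
      · rw [mem_coe, hE, mem_filter, mem_Icc] at hl
        have := Nat.mod_lt l hQ
        simp only [mem_coe, mem_product, mem_range]
        exact ⟨Nat.lt_succ_of_le (Nat.div_le_div_right hl.1.2), by omega⟩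
      · simp only [Prod.mk.injEq] at he
        have := Nat.mod_lt a hQ
        have := Nat.mod_lt b hQ
        rw [← Nat.div_add_mod a Q, ← Nat.div_add_mod b Q, he.1, show a % Q = b % Q by omega]
  · rw [mem_coe, hP, mem_filter, mem_product, mem_Ioc, mem_Ioc] at hp
    rw [mem_coe, hE, mem_filter, mem_Icc]
    obtain ⟨⟨⟨h1, h2⟩, h3, h4⟩, h5⟩ := hp
    refine ⟨⟨Nat.mul_pos (by omega) (by omega), ?_⟩, h5⟩
    calc p.1 * p.2 ≤ q * M * (q * N) := Nat.mul_le_mul h2 h4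
      _ = q * q * (M * N) := by ring

/-- **The products after van der Corput.** -/
theorem exists_corr_le {q : ℕ} (hq : 2 ≤ q) {z : ℂ} (hz : ‖z‖ = 1) (hz1 : z ^ (q - 1) ≠ 1) :
    ∃ C : ℝ, ∃ R : ℕ, 0 ≤ C ∧ 100 ≤ R ∧ ∀ μ ν ρ s : ℕ, μ ≤ ν → R * ρ ≤ μ → 0 < s → s ≤ q ^ ρ →
      ∀ Dv : ℝ, 1 ≤ Dv →
      (∀ l, 1 ≤ l → l ≤ q * q * ((q ^ μ * q ^ ν) * (q ^ μ * q ^ ν)) →
        (l.divisors.card : ℝ) ≤ Dv) →
      ∀ T : ℕ → ℕ, (∀ n, T n ≤ q * q ^ μ) →
      ∑ n ∈ Ioc (q ^ ν) (q * q ^ ν), ‖∑ m ∈ Ioc (q ^ μ) (T n),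
          wave q z (m * (n + s)) * conj (wave q z (m * n))‖ ≤
        C * (1 + (μ + 2 * ρ : ℕ)) ^ 2 * Dv * ((q : ℝ) ^ μ * (q : ℝ) ^ ν / (q : ℝ) ^ ρ) := by
  obtain ⟨C, R, hC, hR, hper⟩ := exists_periodic_le hq hz hz1
  refine ⟨C + 2 * ((q : ℝ) ^ 3 + q), R, by positivity, hR,
    fun μ ν ρ s hμν hρ hs hsρ Dv hDv1 hDv T hT => ?_⟩
  have hρμ : 100 * ρ ≤ μ := le_trans (Nat.mul_le_mul_right ρ hR) hρ
  have hq0 : 0 < q := by omega
  obtain ⟨L, hL⟩ : ∃ L, L = μ + 2 * ρ := ⟨_, rfl⟩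
  have hsq : q ^ μ * q ^ ν ≤ (q ^ μ * q ^ ν) * (q ^ μ * q ^ ν) := Nat.le_mul_self _
  have hqL : q ^ L ≤ q ^ μ * q ^ ν * (q ^ μ * q ^ ν) := by
    rw [← pow_add, ← pow_add]
    exact Nat.pow_le_pow_right hq0 (by omega)
  have hper' := hper μ ν ρ s hμν hρ hs hsρ Dv (hDv _ (Nat.one_le_pow _ _ hq0) (by
    rw [← hL]
    exact hqL.trans (Nat.le_mul_of_pos_left _ (by positivity)))) T hT
  rw [← hL] at hper' ⊢
  obtain ⟨V, hV⟩ : ∃ V, V = q * q ^ μ * q ^ ρ := ⟨_, rfl⟩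
  have hone : ∀ u, ‖low q z L u‖ = 1 := fun u => norm_wave q hz _
  have hn : ∀ n, ‖∑ m ∈ Ioc (q ^ μ) (T n), wave q z (m * (n + s)) * conj (wave q z (m * n))‖ ≤
      ‖∑ m ∈ Ioc (q ^ μ) (T n), low q z L (m * (n + s)) * conj (low q z L (m * n))‖ +
        2 * ((((Ioc (q ^ μ) (q * q ^ μ)).filter
          fun m => q ^ L ≤ m * n % q ^ L + V).card : ℕ) : ℝ) := fun n => by
    refine le_trans (norm_le_norm_add_norm_sub' _
      (∑ m ∈ Ioc (q ^ μ) (T n), low q z L (m * (n + s)) * conj (low q z L (m * n))))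
      (add_le_add le_rfl ?_)
    rw [← sum_sub_distrib]
    refine (norm_sum_le _ _).trans ((sum_le_sum (g := fun m =>
      if q ^ L ≤ m * n % q ^ L + V then (2 : ℝ) else 0) fun m hm => ?_).trans ?_)
    · split_ifs with h
      · refine (norm_sub_le _ _).trans (le_of_eq ?_)
        rw [norm_mul, norm_mul, Complex.norm_conj, Complex.norm_conj, norm_wave q hz,
          norm_wave q hz, hone, hone]
        norm_num
      · have hms : m * s ≤ V := by
          rw [hV]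
          exact Nat.mul_le_mul ((mem_Ioc.1 hm).2.trans (hT n)) hsρ
        rw [mul_add, wave_carry hq hz (L := L) (by omega), sub_self, norm_zero]
    · rw [← sum_filter, sum_const, nsmul_eq_mul, mul_comm]
      exact mul_le_mul_of_nonneg_left (Nat.cast_le.2 (card_le_card (filter_subset_filter _
        (Ioc_subset_Ioc_right (hT n))))) two_pos.le
  refine (sum_le_sum fun n _ => hn n).trans ?_
  rw [sum_add_distrib, ← mul_sum]
  have hcar := sum_card_carry_le q (M := q ^ μ) (N := q ^ ν) (Q := q ^ L) (V := V) (by linarith)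
    (by positivity) fun l h1 h2 => hDv l h1 (h2.trans (Nat.mul_le_mul_left _ hsq))
  obtain ⟨A, hA⟩ : ∃ A : ℝ, A = (q : ℝ) ^ μ * (q : ℝ) ^ ν / (q : ℝ) ^ ρ := ⟨_, rfl⟩
  rw [← hA] at hper' ⊢
  have hA0 : 0 ≤ A := hA ▸ by positivity
  have hV' : (((q * q * (q ^ μ * q ^ ν) / q ^ L + 1) * V : ℕ) : ℝ) ≤
      ((q : ℝ) ^ 3 + q) * A := by
    have h1 : ((q * q * (q ^ μ * q ^ ν) / q ^ L : ℕ) : ℝ) ≤
        (q : ℝ) * q * ((q : ℝ) ^ μ * (q : ℝ) ^ ν) / (q : ℝ) ^ L :=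
      Nat.cast_div_le.trans_eq (by push_cast; rfl)
    have h2 : (q : ℝ) ^ μ * (q : ℝ) ^ ρ ≤ A := by
      rw [hA, le_div_iff₀ (by positivity), mul_assoc, ← pow_add _ ρ ρ]
      exact mul_le_mul_of_nonneg_left (pow_le_pow_right₀ (Nat.one_le_cast.2 hq0) (by omega))
        (by positivity)
    have h3 : (q : ℝ) * q * ((q : ℝ) ^ μ * (q : ℝ) ^ ν) / (q : ℝ) ^ L *
        (q * ((q : ℝ) ^ μ * (q : ℝ) ^ ρ)) = (q : ℝ) ^ 3 * A := by
      rw [hA, hL, pow_add, two_mul ρ, pow_add]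
      field_simp
    rw [Nat.cast_mul, Nat.cast_add, hV]
    push_cast
    have := mul_le_mul_of_nonneg_right h1
      (show (0 : ℝ) ≤ q * ((q : ℝ) ^ μ * (q : ℝ) ^ ρ) by positivity)
    have := mul_le_mul_of_nonneg_left h2 (Nat.cast_nonneg (α := ℝ) q)
    linarith
  have hl : (1 : ℝ) ≤ (1 + (L : ℝ)) ^ 2 :=
    one_le_pow₀ (le_add_of_nonneg_right (Nat.cast_nonneg L))
  refine (add_le_add hper' (mul_le_mul_of_nonneg_left
    (hcar.trans (mul_le_mul_of_nonneg_left hV' (by linarith))) two_pos.le)).trans ?_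
  have := mul_le_mul_of_nonneg_left hl
    (show (0 : ℝ) ≤ 2 * ((q : ℝ) ^ 3 + q) * Dv * A by positivity)
  linarith

/-- The product over `Ioc N (q N)` of a sequence at two shifts. -/
theorem norm_pair_le {q M N x r r' : ℕ} {z : ℂ} (hrr : r ≤ r') {b : ℕ → ℂ} {B : ℝ}
    (hb : ∀ n, ‖b n‖ ≤ B) :
    ‖∑ m ∈ Ioc M (q * M), ∑ i ∈ range (q * N + 1),
        (if i + r ∈ Ioc N (q * N) ∧ m * (i + r) ≤ x then
          b (i + r) * wave q z (m * (i + r)) else 0) *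
        conj (if i + r' ∈ Ioc N (q * N) ∧ m * (i + r') ≤ x then
          b (i + r') * wave q z (m * (i + r')) else 0)‖ ≤
      B ^ 2 * ∑ n ∈ Ioc N (q * N), ‖∑ m ∈ Ioc M (min (q * M) (x / (n + (r' - r)))),
        wave q z (m * (n + (r' - r))) * conj (wave q z (m * n))‖ := by
  have hB0 : 0 ≤ B := (norm_nonneg _).trans (hb 0)
  rw [sum_comm]
  refine (norm_sum_le _ _).trans ((sum_le_sum (g := fun i => if i + r ∈ Ioc N (q * N) then
    B ^ 2 * ‖∑ m ∈ Ioc M (min (q * M) (x / (i + r + (r' - r)))),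
      wave q z (m * (i + r + (r' - r))) * conj (wave q z (m * (i + r)))‖ else 0)
      fun i _ => ?_).trans ?_)
  · by_cases h1 : i + r ∈ Ioc N (q * N)
    · rw [if_pos h1, show i + r + (r' - r) = i + r' by omega]
      by_cases h2 : i + r' ∈ Ioc N (q * N)
      · have e : ∑ m ∈ Ioc M (q * M),
            (if i + r ∈ Ioc N (q * N) ∧ m * (i + r) ≤ x then
              b (i + r) * wave q z (m * (i + r)) else 0) *
            conj (if i + r' ∈ Ioc N (q * N) ∧ m * (i + r') ≤ x then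
              b (i + r') * wave q z (m * (i + r')) else 0) =
            b (i + r) * conj (b (i + r')) * conj (∑ m ∈ Ioc M (min (q * M) (x / (i + r'))),
              wave q z (m * (i + r')) * conj (wave q z (m * (i + r)))) := by
          rw [show Ioc M (min (q * M) (x / (i + r'))) =
              (Ioc M (q * M)).filter (fun m => m * (i + r') ≤ x) by
            ext m
            simp only [mem_Ioc, mem_filter, le_min_iff,
              Nat.le_div_iff_mul_le (show 0 < i + r' by have := (mem_Ioc.1 h2).1; omega),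
              and_assoc],
            map_sum, mul_sum, sum_filter]
          refine sum_congr rfl fun m _ => ?_
          simp only [h1, h2, true_and]
          by_cases h3 : m * (i + r') ≤ x
          · rw [if_pos h3, if_pos h3,
              if_pos ((Nat.mul_le_mul_left m (show i + r ≤ i + r' by omega)).trans h3), map_mul,
              map_mul, Complex.conj_conj]
            ring
          · rw [if_neg h3, if_neg h3, map_zero, mul_zero]
        rw [e, norm_mul, norm_mul, Complex.norm_conj, Complex.norm_conj, sq]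
        exact mul_le_mul_of_nonneg_right (mul_le_mul (hb _) (hb _) (norm_nonneg _) hB0)
          (norm_nonneg _)
      · rw [sum_eq_zero fun m _ => by simp [h2], norm_zero]
        positivity
    · rw [if_neg h1, sum_eq_zero fun m _ => by rw [if_neg fun h => h1 h.1, zero_mul], norm_zero]
  · rw [← sum_filter, mul_sum]
    refine le_trans (le_of_eq (sum_image (s := (range (q * N + 1)).filter
      fun i => i + r ∈ Ioc N (q * N)) (g := fun i => i + r)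
      (f := fun n => B ^ 2 * ‖∑ m ∈ Ioc M (min (q * M) (x / (n + (r' - r)))),
        wave q z (m * (n + (r' - r))) * conj (wave q z (m * n))‖)
      fun a _ b _ h => Nat.add_right_cancel h).symm) ?_
    refine sum_le_sum_of_subset_of_nonneg (fun n hn => ?_) fun n _ _ => by positivity
    obtain ⟨i, hi, rfl⟩ := mem_image.1 hn
    exact (mem_filter.1 hi).2

/-- **Cauchy and van der Corput.** -/
theorem norm_bilinear_sq_le {q μ ν ρ x : ℕ} (hq : 2 ≤ q) {z : ℂ} (hz : ‖z‖ = 1) (hρ : ρ ≤ ν)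
    {a b : ℕ → ℂ} {A B S₀ : ℝ} (ha : ∀ m, ‖a m‖ ≤ A) (hb : ∀ n, ‖b n‖ ≤ B)
    (hcorr : ∀ s, 0 < s → s ≤ q ^ ρ → ∑ n ∈ Ioc (q ^ ν) (q * q ^ ν),
      ‖∑ m ∈ Ioc (q ^ μ) (min (q * q ^ μ) (x / (n + s))),
        wave q z (m * (n + s)) * conj (wave q z (m * n))‖ ≤ S₀) :
    ‖∑ m ∈ Ioc (q ^ μ) (q * q ^ μ), ∑ n ∈ Ioc (q ^ ν) (q * q ^ ν),
        if m * n ≤ x then a m * b n * wave q z (m * n) else 0‖ ^ 2 ≤
      2 * (q : ℝ) ^ 4 * A ^ 2 * B ^ 2 * ((q : ℝ) ^ μ * (q : ℝ) ^ ν) *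
        ((q : ℝ) ^ μ * (q : ℝ) ^ ν / (q : ℝ) ^ ρ + S₀) := by
  have hq0 : 0 < q := by omega
  obtain ⟨M, hM⟩ : ∃ M, M = q ^ μ := ⟨_, rfl⟩
  obtain ⟨N, hN⟩ : ∃ N, N = q ^ ν := ⟨_, rfl⟩
  obtain ⟨R, hR⟩ : ∃ R, R = q ^ ρ := ⟨_, rfl⟩
  have hR0 : 0 < R := hR ▸ by positivity
  have hRN : R ≤ N := hR ▸ hN ▸ Nat.pow_le_pow_right hq0 hρ
  have hRqN : R ≤ q * N := hRN.trans (Nat.le_mul_of_pos_left N hq0)
  rw [← hN] at hcorr ⊢
  rw [← hM] at hcorr ⊢
  rw [← hR] at hcorr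
  have hA0 : 0 ≤ A := (norm_nonneg _).trans (ha 0)
  have hB0 : 0 ≤ B := (norm_nonneg _).trans (hb 0)
  have hS0 : 0 ≤ S₀ := (sum_nonneg fun n _ => norm_nonneg _).trans (hcorr R hR0 le_rfl)
  obtain ⟨c, hc⟩ : ∃ c : ℕ → ℕ → ℂ, c = fun m n =>
      if n ∈ Ioc N (q * N) ∧ m * n ≤ x then b n * wave q z (m * n) else 0 := ⟨_, rfl⟩
  obtain ⟨S, hS⟩ : ∃ S : ℕ → ℂ, S = fun m => ∑ n ∈ Ioc N (q * N), c m n := ⟨_, rfl⟩
  have e0 : ∑ m ∈ Ioc M (q * M), ∑ n ∈ Ioc N (q * N),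
      (if m * n ≤ x then a m * b n * wave q z (m * n) else 0) = ∑ m ∈ Ioc M (q * M), a m * S m := by
    refine sum_congr rfl fun m _ => ?_
    simp only [hS, mul_sum]
    refine sum_congr rfl fun n hn => ?_
    simp only [hc, hn, true_and]
    split_ifs <;> ring
  have hshift : ∀ m, ∀ r < R, ∑ i ∈ range (q * N + 1), c m (i + r) = S m := fun m r hr => by
    simp only [add_comm _ r, hS]
    rw [show ∑ i ∈ range (q * N + 1), c m (r + i) = ∑ n ∈ Ico r (r + (q * N + 1)), c m n by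
      rw [sum_Ico_eq_sum_range, Nat.add_sub_cancel_left]]
    refine (sum_subset (fun n hn => ?_) fun n _ hn => ?_).symm
    · simp only [mem_Ioc] at hn
      simp only [mem_Ico]
      omega
    · simp only [hc]
      rw [if_neg fun h => hn h.1]
  have hvdc : ∀ m, (R : ℝ) ^ 2 * ‖S m‖ ^ 2 ≤
      ((q : ℝ) * N + 1) * ∑ i ∈ range (q * N + 1), ‖∑ r ∈ range R, c m (i + r)‖ ^ 2 := fun m => by
    have e : (R : ℂ) * S m = ∑ i ∈ range (q * N + 1), ∑ r ∈ range R, c m (i + r) := by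
      rw [sum_comm, sum_congr rfl fun r hr => hshift m r (mem_range.1 hr), sum_const, card_range,
        nsmul_eq_mul]
    have h1 : (R : ℝ) * ‖S m‖ ≤ ∑ i ∈ range (q * N + 1), ‖∑ r ∈ range R, c m (i + r)‖ := by
      rw [← Complex.norm_natCast R, ← norm_mul, e]
      exact norm_sum_le _ _
    rw [← mul_pow]
    refine (pow_le_pow_left₀ (by positivity) h1 2).trans (sq_sum_le_card_mul_sum_sq.trans_eq ?_)
    rw [card_range]
    push_cast
    ring
  have hdiag : ∀ r, ‖∑ m ∈ Ioc M (q * M), ∑ i ∈ range (q * N + 1),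
      c m (i + r) * conj (c m (i + r))‖ ≤ B ^ 2 * (((q : ℝ) * M) * (q * N)) := fun r => by
    refine (norm_sum_le _ _).trans ((sum_le_card_nsmul _ _ (B ^ 2 * (q * N))
      fun m _ => ?_).trans ?_)
    · refine (norm_sum_le _ _).trans ((sum_le_sum (g := fun i =>
        if i + r ∈ Ioc N (q * N) then B ^ 2 else 0) fun i _ => ?_).trans ?_)
      · simp only [hc]
        by_cases h : i + r ∈ Ioc N (q * N)
        · rw [if_pos h, norm_mul, Complex.norm_conj, ← sq]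
          refine pow_le_pow_left₀ (norm_nonneg _) ?_ 2
          split_ifs
          · rw [norm_mul, norm_wave q hz, mul_one]
            exact hb _
          · rw [norm_zero]
            exact hB0
        · rw [if_neg h, if_neg fun h' => h h'.1, zero_mul, norm_zero]
      · rw [← sum_filter, sum_const, nsmul_eq_mul, mul_comm]
        refine mul_le_mul_of_nonneg_left ((Nat.cast_le.2 ?_).trans_eq (Nat.cast_mul q N))
          (sq_nonneg B)
        refine (card_le_card_of_injOn (fun i => i + r) (t := Ioc N (q * N))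
          (fun i hi => (mem_filter.1 hi).2) fun a _ b _ h => Nat.add_right_cancel h).trans ?_
        rw [Nat.card_Ioc]
        omega
    · rw [Nat.card_Ioc, nsmul_eq_mul]
      refine le_of_le_of_eq (mul_le_mul_of_nonneg_right ((Nat.cast_le.2 (Nat.sub_le _ _)).trans_eq
        (Nat.cast_mul q M)) (by positivity)) ?_
      ring
  have hpair : ∀ r < R, ∀ r' < R, r ≠ r' → ‖∑ m ∈ Ioc M (q * M), ∑ i ∈ range (q * N + 1),
      c m (i + r) * conj (c m (i + r'))‖ ≤ B ^ 2 * S₀ := by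
    intro r hr r' hr' hne
    rcases lt_or_gt_of_ne hne with h | h
    · simp only [hc]
      exact (norm_pair_le h.le hb).trans
        (mul_le_mul_of_nonneg_left (hcorr _ (by omega) (by omega)) (sq_nonneg B))
    · have e : ∑ m ∈ Ioc M (q * M), ∑ i ∈ range (q * N + 1), c m (i + r) * conj (c m (i + r')) =
          conj (∑ m ∈ Ioc M (q * M), ∑ i ∈ range (q * N + 1),
            c m (i + r') * conj (c m (i + r))) := by
        simp only [map_sum, map_mul, Complex.conj_conj, mul_comm]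
      rw [e, Complex.norm_conj]
      simp only [hc]
      exact (norm_pair_le h.le hb).trans
        (mul_le_mul_of_nonneg_left (hcorr _ (by omega) (by omega)) (sq_nonneg B))
  obtain ⟨T, hT⟩ : ∃ T : ℝ, T = ∑ m ∈ Ioc M (q * M), ∑ i ∈ range (q * N + 1),
      ‖∑ r ∈ range R, c m (i + r)‖ ^ 2 := ⟨_, rfl⟩
  have hTle : T ≤ (R : ℝ) * (B ^ 2 * (q * M * (q * N))) + (R : ℝ) * R * (B ^ 2 * S₀) := by
    have e : (T : ℂ) = ∑ r ∈ range R, ∑ r' ∈ range R, ∑ m ∈ Ioc M (q * M),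
        ∑ i ∈ range (q * N + 1), c m (i + r) * conj (c m (i + r')) := by
      rw [hT, Complex.ofReal_sum]
      simp only [Complex.ofReal_sum, Complex.ofReal_pow, ← Complex.mul_conj', map_sum, sum_mul_sum]
      rw [sum_congr rfl fun m _ => sum_comm, sum_comm]
      refine sum_congr rfl fun r _ => ?_
      rw [sum_congr rfl fun m _ => sum_comm, sum_comm]
    refine (le_abs_self T).trans ?_
    rw [← Real.norm_eq_abs, ← Complex.norm_real, e]
    refine (norm_sum_le _ _).trans ((sum_le_card_nsmul _ _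
      (B ^ 2 * (q * M * (q * N)) + (R : ℝ) * (B ^ 2 * S₀)) fun r hr => ?_).trans_eq ?_)
    · refine (norm_sum_le _ _).trans ?_
      rw [← add_sum_erase _ _ hr]
      refine add_le_add (hdiag r) ((sum_le_card_nsmul _ _ _ fun r' hr' =>
        hpair r (mem_range.1 hr) r' (mem_range.1 (mem_of_mem_erase hr'))
          (ne_of_mem_erase hr').symm).trans ?_)
      rw [nsmul_eq_mul]
      exact mul_le_mul_of_nonneg_right
        (Nat.cast_le.2 ((card_le_card (erase_subset _ _)).trans (card_range R).le)) (by positivity)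
    · rw [card_range, nsmul_eq_mul]
      ring
  have hCS : ‖∑ m ∈ Ioc M (q * M), a m * S m‖ ^ 2 ≤
      (q : ℝ) * M * A ^ 2 * ∑ m ∈ Ioc M (q * M), ‖S m‖ ^ 2 := by
    refine (pow_le_pow_left₀ (norm_nonneg _) (norm_sum_le _ _) 2).trans
      (sq_sum_le_card_mul_sum_sq.trans ?_)
    rw [Nat.card_Ioc, mul_assoc, mul_sum (a := A ^ 2)]
    refine mul_le_mul ((Nat.cast_le.2 (Nat.sub_le _ _)).trans_eq (Nat.cast_mul q M))
      (sum_le_sum fun m _ => ?_) (sum_nonneg fun m _ => sq_nonneg _) (by positivity)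
    rw [norm_mul, mul_pow]
    exact mul_le_mul_of_nonneg_right (pow_le_pow_left₀ (norm_nonneg _) (ha m) 2) (sq_nonneg _)
  have hsum : (R : ℝ) ^ 2 * ∑ m ∈ Ioc M (q * M), ‖S m‖ ^ 2 ≤ ((q : ℝ) * N + 1) * T := by
    rw [hT, mul_sum, mul_sum]
    exact sum_le_sum fun m _ => hvdc m
  have hN3 : ((q : ℝ) * N + 1) ≤ 2 * (q * N) := by
    have : (1 : ℝ) ≤ (q : ℝ) * N := by exact_mod_cast hR0.trans_le hRqN
    linarith
  rw [e0]
  refine le_of_mul_le_mul_left (a := (R : ℝ) ^ 2) ?_ (by positivity)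
  have h1 := mul_le_mul_of_nonneg_left hCS (sq_nonneg (R : ℝ))
  have h2 := mul_le_mul_of_nonneg_left (hsum.trans (mul_le_mul hN3 hTle
    (hT ▸ sum_nonneg fun m _ => sum_nonneg fun i _ => sq_nonneg _) (by positivity)))
    (show (0 : ℝ) ≤ q * M * A ^ 2 by positivity)
  refine (h1.trans (le_of_eq_of_le (by ring) h2)).trans ?_
  have hMc : (M : ℝ) = (q : ℝ) ^ μ := by rw [hM]; push_cast; rfl
  have hNc : (N : ℝ) = (q : ℝ) ^ ν := by rw [hN]; push_cast; rfl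
  have hRc : (R : ℝ) = (q : ℝ) ^ ρ := by rw [hR]; push_cast; rfl
  rw [← hMc, ← hNc, ← hRc]
  have hR0' : (R : ℝ) ≠ 0 := Nat.cast_ne_zero.2 hR0.ne'
  have hq2 : (q : ℝ) ^ 2 ≤ (q : ℝ) ^ 4 :=
    pow_le_pow_right₀ (Nat.one_le_cast.2 hq0) (by norm_num)
  have := mul_le_mul_of_nonneg_left hq2
    (show (0 : ℝ) ≤ 2 * R ^ 2 * A ^ 2 * B ^ 2 * (M * N) * S₀ by positivity)
  refine le_of_le_of_eq (b := 2 * (q : ℝ) ^ 4 * A ^ 2 * B ^ 2 * (M * N) *
    ((R : ℝ) * (M * N) + R ^ 2 * S₀)) ?_ ?_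
  · linarith
  · field_simp

end FA.DigitPrimes

end
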