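import Fermat.Agent.DigitPrimes.TypeOne
import Fermat.Agent.DigitPrimes.TypeTwo
import Fermat.Agent.DavenportMoebius.Minor
import Fermat.Agent.Forms3.RepresentationBound

/-!
# The sum of the digits over the primes and against `μ`

Vaughan's identities at `U = q ^ (log_q x / E)`; the bilinear sum is cut into boxes at the powers
of `q`.
-/

set_option autoImplicit false

noncomputable section

namespace FA.DigitPrimes

open Finset ArithmeticFunction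
open FA.ThreePrimes (lowPart highPart moebiusR oneR vaughan lowPart_apply highPart_apply
  abs_moebiusR_le abs_low_mul_le low_mul_eq_zero tailCoeff abs_tailCoeff_le tailCoeff_eq_zero)

theorem log_le_rpow_div {x : ℕ} (hx : 0 < x) {e : ℝ} (he : 0 < e) :
    1 + Real.log x ≤ (1 + 1 / e) * (x : ℝ) ^ e := by
  have h0 : (0 : ℝ) < x := Nat.cast_pos.2 hx
  have h1 := Real.log_le_rpow_div h0.le he
  have h2 : 1 ≤ (x : ℝ) ^ e := Real.one_le_rpow (Nat.one_le_cast.2 hx) he.le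
  rw [add_mul, one_mul, one_div_mul_eq_div]
  linarith

theorem natLog_add_le {q x : ℕ} (hq : 2 ≤ q) (hx : 0 < x) {e : ℝ} (he : 0 < e) :
    1 + (Nat.log q x : ℝ) ≤ 2 * (1 + 1 / e) * (x : ℝ) ^ e := by
  have hlog : (Nat.log q x : ℝ) ≤ Nat.log 2 x := Nat.cast_le.2 (Nat.log_anti_left one_lt_two hq)
  refine (add_le_add le_rfl hlog).trans ?_
  have h1 : (Nat.log 2 x : ℝ) * Real.log 2 ≤ Real.log x := by
    rw [← Real.log_pow]
    exact Real.log_le_log (by positivity) (by exact_mod_cast Nat.pow_log_le_self 2 hx.ne')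
  have h2 := mul_le_mul_of_nonneg_left Real.log_two_gt_d9.le
    (Nat.cast_nonneg (α := ℝ) (Nat.log 2 x))
  have := log_le_rpow_div hx he
  linarith [Real.log_natCast_nonneg x, Nat.cast_nonneg (α := ℝ) (Nat.log 2 x)]

theorem sum_box {M : Type*} [AddCommMonoid M] {q : ℕ} (hq : 0 < q) (g : ℕ → M) (u : ℕ) :
    ∀ n, u ≤ n →
      ∑ i ∈ Ico u n, ∑ m ∈ Ioc (q ^ i) (q * q ^ i), g m = ∑ m ∈ Ioc (q ^ u) (q ^ n), g m := by
  intro n hn
  induction n, hn using Nat.le_induction with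
  | base => simp
  | succ n hn ih =>
    rw [sum_Ico_succ_top hn, ih, ← pow_succ',
      sum_Ioc_consecutive g (Nat.pow_le_pow_right hq hn)
        (Nat.pow_le_pow_right hq (Nat.le_succ n))]

/-- **One box.** -/
theorem exists_box_le {q : ℕ} (hq : 2 ≤ q) {z : ℂ} (hz : ‖z‖ = 1) (hz1 : z ^ (q - 1) ≠ 1) :
    ∃ C : ℝ, ∃ R : ℕ, 0 ≤ C ∧ 0 < R ∧
    ∀ (μ ν ρ x : ℕ) (a b : ℕ → ℂ) (A B Dv : ℝ), μ ≤ ν → R * ρ ≤ μ → q ^ μ * q ^ ν ≤ x →
      (∀ m, ‖a m‖ ≤ A) → (∀ n, ‖b n‖ ≤ B) → 1 ≤ Dv →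
      (∀ l, 1 ≤ l → l ≤ q * q * (x * x) → (l.divisors.card : ℝ) ≤ Dv) →
      ‖∑ m ∈ Ioc (q ^ μ) (q * q ^ μ), ∑ n ∈ Ioc (q ^ ν) (q * q ^ ν),
          if m * n ≤ x then a m * b n * wave q z (m * n) else 0‖ ^ 2 ≤
        C * A ^ 2 * B ^ 2 * Dv * (1 + (Nat.log q x : ℝ)) ^ 2 * (x : ℝ) ^ 2 / (q : ℝ) ^ ρ := by
  obtain ⟨C, R, hC, hR, hcorr⟩ := exists_corr_le hq hz hz1
  refine ⟨2 * (q : ℝ) ^ 4 * (1 + 4 * C), R, by positivity, by omega,
    fun μ ν ρ x a b A B Dv hμν hρ hx ha hb hDv1 hDv => ?_⟩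
  have hρμ : 100 * ρ ≤ μ := le_trans (Nat.mul_le_mul_right ρ hR) hρ
  refine (norm_bilinear_sq_le hq hz (by omega) ha hb fun s hs hsρ =>
    hcorr μ ν ρ s hμν hρ hs hsρ Dv hDv1 (fun l h1 h2 => hDv l h1 (h2.trans
      (Nat.mul_le_mul_left _ (Nat.mul_le_mul hx hx)))) (fun n => min (q * q ^ μ) (x / (n + s)))
      fun n => min_le_left _ _).trans ?_
  have hμx : μ ≤ Nat.log q x := Nat.le_log_of_pow_le (by omega)
    (le_trans (Nat.le_mul_of_pos_right _ (by positivity)) hx)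
  have hL : (1 + ((μ + 2 * ρ : ℕ) : ℝ)) ≤ 2 * (1 + (Nat.log q x : ℝ)) := by
    have h : ((μ + 2 * ρ : ℕ) : ℝ) ≤ 2 * (Nat.log q x : ℝ) := by
      exact_mod_cast (show μ + 2 * ρ ≤ 2 * Nat.log q x by omega)
    linarith
  obtain ⟨l, hl⟩ : ∃ l : ℝ, l = 1 + (Nat.log q x : ℝ) := ⟨_, rfl⟩
  rw [← hl] at hL ⊢
  have hl1 : 1 ≤ l := hl ▸ le_add_of_nonneg_right (Nat.cast_nonneg _)
  obtain ⟨P, hP⟩ : ∃ P : ℝ, P = (q : ℝ) ^ μ * (q : ℝ) ^ ν := ⟨_, rfl⟩
  rw [← hP]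
  have hPx : P ≤ x := by rw [hP]; exact_mod_cast hx
  have hP0 : 0 ≤ P := hP ▸ by positivity
  have h1 : (1 : ℝ) ≤ Dv * l ^ 2 := one_le_mul_of_one_le_of_one_le hDv1 (one_le_pow₀ hl1)
  have h2 : C * (1 + ((μ + 2 * ρ : ℕ) : ℝ)) ^ 2 * Dv ≤ 4 * C * (Dv * l ^ 2) := by
    refine le_of_le_of_eq (mul_le_mul_of_nonneg_right (mul_le_mul_of_nonneg_left
      (pow_le_pow_left₀ (by positivity) hL 2) hC) (by linarith)) (by ring)
  calc 2 * (q : ℝ) ^ 4 * A ^ 2 * B ^ 2 * P * (P / (q : ℝ) ^ ρ +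
        C * (1 + ((μ + 2 * ρ : ℕ) : ℝ)) ^ 2 * Dv * (P / (q : ℝ) ^ ρ))
      ≤ 2 * (q : ℝ) ^ 4 * A ^ 2 * B ^ 2 * P * ((1 + 4 * C) * (Dv * l ^ 2) * (P / (q : ℝ) ^ ρ)) := by
        refine mul_le_mul_of_nonneg_left ?_ (by positivity)
        rw [← one_add_mul]
        exact mul_le_mul_of_nonneg_right (by nlinarith) (by positivity)
    _ = 2 * (q : ℝ) ^ 4 * (1 + 4 * C) * A ^ 2 * B ^ 2 * Dv * l ^ 2 * P ^ 2 / (q : ℝ) ^ ρ := by
        ring
    _ ≤ _ := by gcongr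

/-- **The sum of type II.** -/
theorem exists_typeTwo_le {q : ℕ} (hq : 2 ≤ q) {z : ℂ} (hz : ‖z‖ = 1) (hz1 : z ^ (q - 1) ≠ 1)
    {E : ℕ} (hE : 0 < E) :
    ∃ η C : ℝ, 0 < η ∧ 0 ≤ C ∧ ∀ x : ℕ, 0 < x → ∀ f : ArithmeticFunction ℝ,
      (∀ m, m ≤ x → |f m| ≤ 1 + Real.log x) →
      ‖waveSum q z (highPart (q ^ (Nat.log q x / E)) f *
        tailCoeff (q ^ (Nat.log q x / E))) x‖ ≤ C * (x : ℝ) ^ (1 - η) := by
  obtain ⟨C, R, hC, hR, hbox⟩ := exists_box_le hq hz hz1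
  have hq0 : 0 < q := by omega
  obtain ⟨κ, hκ⟩ : ∃ κ : ℝ, κ = 1 / ((E * R : ℕ) : ℝ) := ⟨_, rfl⟩
  have hκ0 : 0 < κ := hκ ▸ by positivity
  obtain ⟨e, he⟩ : ∃ e : ℝ, e = κ / 32 := ⟨_, rfl⟩
  have he0 : 0 < e := he ▸ by positivity
  obtain ⟨Cd, hCd1, hCd⟩ := RepresentationBound.card_divisors_isBigO e he0
  obtain ⟨G, hG⟩ : ∃ G : ℝ, G = (2 * (1 + 1 / e)) ^ 4 *
      ((q : ℝ) * C * (1 + 1 / e) ^ 2 * Cd ^ 3 * ((q : ℝ) * q) ^ (5 * e)) ^ (1 / 2 : ℝ) := ⟨_, rfl⟩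
  refine ⟨κ / 4, G, by positivity, hG ▸ by positivity, fun x hx f hf => ?_⟩
  obtain ⟨t, ht⟩ : ∃ t, t = Nat.log q x := ⟨_, rfl⟩
  rw [← ht]
  obtain ⟨u, hu⟩ : ∃ u, u = t / E := ⟨_, rfl⟩
  rw [← hu]
  have hx0 : (0 : ℝ) < x := Nat.cast_pos.2 hx
  have hxt : x < q ^ (t + 1) := ht ▸ Nat.lt_pow_succ_log_self hq x
  have hut : u ≤ t := hu ▸ Nat.div_le_self t E
  obtain ⟨ρ, hρ⟩ : ∃ ρ, ρ = u / R := ⟨_, rfl⟩
  have h2ρ : (x : ℝ) ^ κ ≤ (q : ℝ) * (q : ℝ) ^ ρ := by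
    have h1 : t + 1 ≤ (ρ + 1) * (E * R) := by
      have h := Nat.lt_div_mul_add (a := t) (b := E * R) (Nat.mul_pos hE hR)
      rw [hρ, hu, Nat.div_div_eq_div_mul, add_one_mul]
      omega
    refine (Real.rpow_le_rpow hx0.le (show (x : ℝ) ≤ ((q : ℝ) ^ (ρ + 1)) ^ (E * R) by
      rw [← pow_mul]
      exact_mod_cast hxt.le.trans (Nat.pow_le_pow_right hq0 h1)) hκ0.le).trans (le_of_eq ?_)
    rw [← Real.rpow_natCast _ (E * R), ← Real.rpow_mul (by positivity), hκ,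
      mul_one_div_cancel (by positivity), Real.rpow_one, pow_succ']
  obtain ⟨w, hw⟩ : ∃ w : ℝ, w = ((q * q * (x * x) : ℕ) : ℝ) ^ e := ⟨_, rfl⟩
  have hw1 : 1 ≤ w :=
    hw ▸ Real.one_le_rpow (Nat.one_le_cast.2
      (Nat.mul_pos (Nat.mul_pos hq0 hq0) (Nat.mul_pos hx hx))) he0.le
  have hxX : x ≤ q * q * (x * x) :=
    (Nat.le_mul_self x).trans (Nat.le_mul_of_pos_left _ (by positivity))
  have hdiv : ∀ l, 1 ≤ l → l ≤ q * q * (x * x) → (l.divisors.card : ℝ) ≤ Cd * w := fun l h1 h2 =>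
    (hCd l (by omega)).trans (mul_le_mul_of_nonneg_left (hw ▸ Real.rpow_le_rpow (Nat.cast_nonneg l)
      (Nat.cast_le.2 h2) he0.le) (by linarith))
  obtain ⟨a, ha⟩ : ∃ a : ℕ → ℂ, a = fun m => if m ≤ x then (highPart (q ^ u) f m : ℂ) else 0 :=
    ⟨_, rfl⟩
  obtain ⟨b, hb⟩ : ∃ b : ℕ → ℂ, b = fun n => if n ≤ x then (tailCoeff (q ^ u) n : ℂ) else 0 :=
    ⟨_, rfl⟩
  have hab : ∀ m, ‖a m‖ ≤ (1 + 1 / e) * w ∧ ‖b m‖ ≤ Cd * w := fun m => by
    simp only [ha, hb]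
    by_cases hm : m ≤ x
    · rw [if_pos hm, if_pos hm, Complex.norm_real, Complex.norm_real, Real.norm_eq_abs,
        Real.norm_eq_abs]
      constructor
      · rw [highPart_apply]
        split_ifs with h
        · rw [abs_zero]
          positivity
        · refine ((hf m hm).trans (log_le_rpow_div hx he0)).trans ?_
          rw [hw]
          gcongr
      · rcases Nat.eq_zero_or_pos m with rfl | hm0
        · rw [ArithmeticFunction.map_zero, abs_zero]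
          positivity
        · exact (abs_tailCoeff_le _ _).trans (hdiv m hm0 (hm.trans hxX))
    · rw [if_neg hm, if_neg hm, norm_zero]
      constructor <;> positivity
  obtain ⟨Z, hZ⟩ : ∃ Z : ℝ, Z = C * ((1 + 1 / e) * w) ^ 2 * (Cd * w) ^ 2 * (Cd * w) *
      (1 + (t : ℝ)) ^ 2 * (x : ℝ) ^ 2 / (q : ℝ) ^ ρ := ⟨_, rfl⟩
  have hbox' : ∀ i ∈ Ico u (t + 1), ∀ j ∈ Ico u (t + 1),
      ‖∑ m ∈ Ioc (q ^ i) (q * q ^ i), ∑ n ∈ Ioc (q ^ j) (q * q ^ j),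
        if m * n ≤ x then a m * b n * wave q z (m * n) else 0‖ ≤ Z ^ (1 / 2 : ℝ) := by
    intro i hi j hj
    rw [← Real.sqrt_eq_rpow]
    refine Real.le_sqrt_of_sq_le ?_
    rcases le_or_gt (q ^ i * q ^ j) x with hle | hgt
    · have hρi : R * ρ ≤ i ∧ R * ρ ≤ j := by
        have := hρ ▸ Nat.mul_div_le u R
        exact ⟨this.trans (mem_Ico.1 hi).1, this.trans (mem_Ico.1 hj).1⟩
      have hD : (1 : ℝ) ≤ Cd * w := one_le_mul_of_one_le_of_one_le hCd1 hw1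
      rcases le_total i j with hij | hij
      · exact (hbox i j ρ x a b _ _ _ hij hρi.1 hle (fun m => (hab m).1) (fun n => (hab n).2)
          hD hdiv).trans_eq (by rw [hZ, ht])
      · rw [sum_comm]
        refine le_trans (le_of_eq ?_) ((hbox j i ρ x b a _ _ _ hij hρi.2
          (by rwa [mul_comm]) (fun n => (hab n).2) (fun m => (hab m).1) hD hdiv).trans_eq
            (by rw [hZ, ht]; ring))
        congr 2
        refine sum_congr rfl fun n _ => sum_congr rfl fun m _ => ?_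
        rw [mul_comm m n, mul_comm (a m) (b n)]
    · rw [sum_eq_zero fun m hm => sum_eq_zero fun n hn => if_neg (not_le.2 (hgt.trans_le
        (Nat.mul_le_mul (mem_Ioc.1 hm).1.le (mem_Ioc.1 hn).1.le))), norm_zero,
        zero_pow two_ne_zero, hZ]
      positivity
  have hexp : waveSum q z (highPart (q ^ u) f * tailCoeff (q ^ u)) x =
      ∑ i ∈ Ico u (t + 1), ∑ j ∈ Ico u (t + 1), ∑ m ∈ Ioc (q ^ i) (q * q ^ i),
        ∑ n ∈ Ioc (q ^ j) (q * q ^ j), if m * n ≤ x then a m * b n * wave q z (m * n) else 0 := by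
    have ha0 : ∀ m, m ≤ q ^ u ∨ x < m → a m = 0 := fun m hm => by
      simp only [ha, highPart_apply]
      rcases hm with hm | hm
      · rw [if_pos hm]
        simp
      · exact if_neg (not_le.2 hm)
    have hb0 : ∀ m, m ≤ q ^ u ∨ x < m → b m = 0 := fun m hm => by
      simp only [hb]
      rcases hm with hm | hm
      · rw [tailCoeff_eq_zero hm]
        simp
      · exact if_neg (not_le.2 hm)
    have hext : ∀ g : ℕ → ℂ, (∀ m, m ≤ q ^ u ∨ x < m → g m = 0) →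
        ∑ m ∈ Ioc 0 x, g m = ∑ i ∈ Ico u (t + 1), ∑ m ∈ Ioc (q ^ i) (q * q ^ i), g m := by
      intro g hg
      rw [sum_box hq0 g u (t + 1) (by omega)]
      have h1 : ∀ m ∈ Ioc 0 (q ^ (t + 1)), m ∉ Ioc (q ^ u) (q ^ (t + 1)) → g m = 0 :=
        fun m hm hn => hg m (Or.inl (by simp only [mem_Ioc] at hm hn; omega))
      have h2 : ∀ m ∈ Ioc 0 (q ^ (t + 1)), m ∉ Ioc 0 x → g m = 0 :=
        fun m hm hn => hg m (Or.inr (by simp only [mem_Ioc] at hm hn; omega))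
      exact (sum_subset (Ioc_subset_Ioc_right hxt.le) h2).trans
        (sum_subset (Ioc_subset_Ioc_left (Nat.zero_le _)) h1).symm
    rw [waveSum_mul]
    have e : ∀ m ∈ Ioc 0 x, ∀ k ∈ Ioc 0 x,
        (if m * k ≤ x then (highPart (q ^ u) f m : ℂ) * tailCoeff (q ^ u) k * wave q z (m * k)
          else 0) = if m * k ≤ x then a m * b k * wave q z (m * k) else 0 := fun m hm k hk => by
      simp only [ha, hb, if_pos (mem_Ioc.1 hm).2, if_pos (mem_Ioc.1 hk).2]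
    rw [sum_congr rfl fun m hm => sum_congr rfl fun k hk => e m hm k hk,
      hext _ fun m hm => sum_eq_zero fun k _ => by simp [ha0 m hm]]
    refine sum_congr rfl fun i _ => ?_
    rw [sum_congr rfl fun m _ => hext
      (fun k => if m * k ≤ x then a m * b k * wave q z (m * k) else 0)
      fun k hk => by simp [hb0 k hk], sum_comm]
  rw [hexp]
  refine (norm_sum_le _ _).trans ((sum_le_card_nsmul _ _ (((t + 1 : ℕ) : ℝ) * Z ^ (1 / 2 : ℝ))
    fun i hi => ?_).trans ?_)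
  · refine (norm_sum_le _ _).trans ((sum_le_card_nsmul _ _ _ fun j hj => hbox' i hi j hj).trans ?_)
    rw [nsmul_eq_mul, Nat.card_Ico]
    exact mul_le_mul_of_nonneg_right (Nat.cast_le.2 (Nat.sub_le _ _))
      (Real.rpow_nonneg (by rw [hZ]; positivity) _)
  rw [nsmul_eq_mul, Nat.card_Ico]
  refine (mul_le_mul_of_nonneg_right (Nat.cast_le.2 (Nat.sub_le (t + 1) u))
    (mul_nonneg (Nat.cast_nonneg _) (Real.rpow_nonneg (by rw [hZ]; positivity) _))).trans ?_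
  push_cast
  have hl := natLog_add_le hq hx he0
  rw [← ht] at hl
  obtain ⟨V, hV⟩ : ∃ V : ℝ, V = 2 * (1 + 1 / e) := ⟨_, rfl⟩
  obtain ⟨K, hK⟩ : ∃ K : ℝ, K = C * (1 + 1 / e) ^ 2 * Cd ^ 3 := ⟨_, rfl⟩
  have hw5 : w ^ 5 = ((q : ℝ) * q) ^ (5 * e) * (x : ℝ) ^ (10 * e) := by
    rw [hw, ← Real.rpow_mul_natCast (by positivity), show 10 * e = 5 * e + 5 * e by ring,
      Real.rpow_add hx0, ← Real.mul_rpow hx0.le hx0.le,
      ← Real.mul_rpow (by positivity) (by positivity)]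
    push_cast
    rw [mul_comm e 5]
  have hZle : Z ≤ ((q : ℝ) * K * ((q : ℝ) * q) ^ (5 * e)) * (1 + (t : ℝ)) ^ 2 *
      (x : ℝ) ^ (2 + 10 * e - κ) := by
    have h := (inv_anti₀ (show 0 < (x : ℝ) ^ κ by positivity) h2ρ)
    rw [mul_inv] at h
    have h' : ((q : ℝ) ^ ρ)⁻¹ ≤ q * ((x : ℝ) ^ κ)⁻¹ :=
      (inv_mul_le_iff₀ (Nat.cast_pos.2 hq0)).1 h
    have e1 : (x : ℝ) ^ (2 + 10 * e - κ) =
        (x : ℝ) ^ 2 * (x : ℝ) ^ (10 * e) * ((x : ℝ) ^ κ)⁻¹ := by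
      rw [Real.rpow_sub hx0, Real.rpow_add hx0, Real.rpow_two, div_eq_mul_inv]
    have e2 : Z = K * w ^ 5 * (1 + (t : ℝ)) ^ 2 * (x : ℝ) ^ 2 * ((q : ℝ) ^ ρ)⁻¹ := by
      rw [hZ, hK]
      ring
    have hK0 : 0 ≤ K := hK ▸ by positivity
    rw [e1, e2, hw5]
    refine (mul_le_mul_of_nonneg_left h' (by positivity)).trans (le_of_eq ?_)
    ring
  have hZ0 : 0 ≤ Z := hZ ▸ by positivity
  have hsqrt := Real.rpow_le_rpow hZ0 hZle (show (0 : ℝ) ≤ 1 / 2 by norm_num)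
  rw [Real.mul_rpow (by rw [hK]; positivity) (by positivity),
    Real.mul_rpow (by rw [hK]; positivity) (by positivity), ← Real.sqrt_eq_rpow ((1 + (t : ℝ)) ^ 2),
    Real.sqrt_sq (by positivity), ← Real.rpow_mul hx0.le] at hsqrt
  obtain ⟨Y, hY⟩ : ∃ Y : ℝ, Y = ((q : ℝ) * K * ((q : ℝ) * q) ^ (5 * e)) ^ (1 / 2 : ℝ) := ⟨_, rfl⟩
  rw [← hY] at hsqrt
  have hY0 : 0 ≤ Y := hY ▸ Real.rpow_nonneg (by rw [hK]; positivity) _
  have h3 : ((t : ℝ) + 1) * (((t : ℝ) + 1) * Z ^ (1 / 2 : ℝ)) ≤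
      (1 + (t : ℝ)) ^ 3 * (Y * (x : ℝ) ^ ((2 + 10 * e - κ) * (1 / 2))) := by
    refine (mul_le_mul_of_nonneg_left (mul_le_mul_of_nonneg_left hsqrt (by positivity))
      (by positivity)).trans (le_of_eq ?_)
    ring
  refine h3.trans ((mul_le_mul_of_nonneg_right (pow_le_pow_left₀ (by positivity) hl 3)
    (mul_nonneg hY0 (by positivity))).trans ?_)
  have e3 : (2 * (1 + 1 / e) * (x : ℝ) ^ e) ^ 3 *
      (Y * (x : ℝ) ^ ((2 + 10 * e - κ) * (1 / 2))) =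
        (V ^ 3 * Y) * (x : ℝ) ^ (3 * e + (2 + 10 * e - κ) * (1 / 2)) := by
    rw [← hV, mul_pow, ← Real.rpow_mul_natCast hx0.le, Real.rpow_add hx0]
    push_cast
    rw [mul_comm e 3]
    ring
  rw [e3, hG, ← hV]
  have hV2 : 2 ≤ V := by rw [hV]; linarith [show 0 ≤ 1 / e by positivity]
  have e4 : (q : ℝ) * C * (1 + 1 / e) ^ 2 * Cd ^ 3 * ((q : ℝ) * q) ^ (5 * e) =
      (q : ℝ) * K * ((q : ℝ) * q) ^ (5 * e) := by
    rw [hK]
    ring
  rw [e4, ← hY]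
  refine mul_le_mul (mul_le_mul_of_nonneg_right ?_ hY0)
    (Real.rpow_le_rpow_of_exponent_le (Nat.one_le_cast.2 hx) (by rw [he]; linarith))
    (by positivity) (by positivity)
  exact pow_le_pow_right₀ (by linarith) (by norm_num)

/-- **The parts of Vaughan's identities.** -/
theorem exists_parts_le {q : ℕ} (hq : 2 ≤ q) {z : ℂ} (hz : ‖z‖ = 1) (hz1 : z ^ (q - 1) ≠ 1) :
    ∃ δ e C : ℝ, 0 < δ ∧ 0 < e ∧ 0 ≤ C ∧ ∀ x : ℕ, 0 < x → ∃ U : ℕ,
      (∀ f : ArithmeticFunction ℝ, (∀ m, m ≤ x → |f m| ≤ 1 + Real.log x) →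
        ‖waveSum q z (lowPart U f) x‖ ≤ C * (x : ℝ) ^ (1 - δ) ∧
          ‖waveSum q z (highPart U f * tailCoeff U) x‖ ≤ C * (x : ℝ) ^ (1 - δ)) ∧
      ∀ (g : ArithmeticFunction ℝ) (B : ℝ), (∀ m, m ≤ x → |g m| ≤ B) →
        (∀ m, U * U < m → g m = 0) →
        ‖waveSum q z (g * ArithmeticFunction.log) x‖ ≤ B * (C * (x : ℝ) ^ (1 - δ - e)) ∧
          ‖waveSum q z (g * oneR) x‖ ≤ B * (C * (x : ℝ) ^ (1 - δ - e)) := by
  obtain ⟨γ, C₁, hγ0, hγ1, hC₁, h₁⟩ := exists_typeOne_le hq hz hz1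
  obtain ⟨E, hE⟩ := exists_nat_gt (4 / (1 - γ))
  have hE0 : (0 : ℝ) < E := lt_trans (div_pos four_pos (by linarith)) hE
  have hEg : 2 / (E : ℝ) ≤ (1 - γ) / 2 := by
    rw [div_le_div_iff₀ hE0 two_pos]
    rw [div_lt_iff₀ (by linarith)] at hE
    linarith
  obtain ⟨η, C₂, hη, hC₂, h₂⟩ := exists_typeTwo_le hq hz hz1 (E := E) (Nat.cast_pos.1 hE0)
  obtain ⟨e, he⟩ : ∃ e : ℝ, e = (1 - γ) / 8 := ⟨_, rfl⟩
  have he0 : 0 < e := by rw [he]; linarith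
  obtain ⟨L, hL⟩ : ∃ L : ℝ, L = 1 + 1 / e := ⟨_, rfl⟩
  have hL0 : 0 ≤ L := hL ▸ by positivity
  refine ⟨min η ((1 - γ) / 4), e, L + C₁ * L + C₂,
    lt_min hη (by linarith), he0, by positivity, fun x hx => ?_⟩
  obtain ⟨t, ht⟩ : ∃ t, t = Nat.log q x := ⟨_, rfl⟩
  obtain ⟨U, hU⟩ : ∃ U, U = q ^ (t / E) := ⟨_, rfl⟩
  refine ⟨U, ?_⟩
  have hq0 : 0 < q := by omega
  have hx0 : (0 : ℝ) < x := Nat.cast_pos.2 hx
  have hx1 : (1 : ℝ) ≤ x := Nat.one_le_cast.2 hx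
  obtain ⟨l, hl⟩ : ∃ l : ℝ, l = 1 + Real.log x := ⟨_, rfl⟩
  have hl1 : 1 ≤ l := hl ▸ le_add_of_nonneg_right (Real.log_natCast_nonneg x)
  have hlL : l ≤ L * (x : ℝ) ^ e := hl ▸ hL ▸ log_le_rpow_div hx he0
  have hU1 : (1 : ℝ) ≤ U := by rw [hU]; exact_mod_cast Nat.one_le_pow (t / E) q hq0
  have hU2 : (U : ℝ) ^ 2 ≤ (x : ℝ) ^ ((1 - γ) / 2) := by
    have h1 : ((U : ℝ)) ^ E ≤ x := by
      rw [hU]
      push_cast
      rw [← pow_mul]
      exact_mod_cast (Nat.pow_le_pow_right hq0 (Nat.div_mul_le_self t E)).trans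
        (ht ▸ Nat.pow_log_le_self q hx.ne')
    refine le_trans ?_ (Real.rpow_le_rpow_of_exponent_le hx1 hEg)
    refine le_trans (le_of_eq ?_) (Real.rpow_le_rpow (by positivity) h1 (by positivity))
    rw [← Real.rpow_natCast (U : ℝ) E, ← Real.rpow_mul (Nat.cast_nonneg U),
      mul_div_cancel₀ _ hE0.ne', Real.rpow_two]
  obtain ⟨d, hd⟩ : ∃ d : ℝ, d = min η ((1 - γ) / 4) := ⟨_, rfl⟩
  rw [← hd]
  have hd1 : d ≤ (1 - γ) / 4 := hd ▸ min_le_right _ _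
  have hd2 : d ≤ η := hd ▸ min_le_left _ _
  have hpw : ∀ {s s' : ℝ}, s ≤ s' → (x : ℝ) ^ s ≤ (x : ℝ) ^ s' := fun hs =>
    Real.rpow_le_rpow_of_exponent_le hx1 hs
  refine ⟨fun f hf => ⟨?_, ?_⟩, fun g B hg hg0 => ?_⟩
  · refine le_trans ?_ (mul_le_mul_of_nonneg_right (show L ≤ L + C₁ * L + C₂ from
      le_add_of_le_of_nonneg (le_add_of_nonneg_right (by positivity)) hC₂) (by positivity))
    refine (norm_sum_le _ _).trans ((sum_le_sum (g := fun n => if n ≤ U then l else 0)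
      fun n hn => ?_).trans ?_)
    · rw [norm_mul, norm_wave q hz, mul_one, Complex.norm_real, Real.norm_eq_abs, lowPart_apply]
      split_ifs
      · exact (hf n (mem_Ioc.1 hn).2).trans_eq hl.symm
      · simp
    · rw [← sum_filter, sum_const, nsmul_eq_mul]
      refine (mul_le_mul ((Nat.cast_le.2 ((card_le_card (t := Ioc 0 U) fun n hn => ?_).trans
        (by simp : (Ioc 0 U).card ≤ U))).trans ((le_self_pow₀ hU1 two_ne_zero).trans hU2)) hlL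
          (by linarith) (by positivity)).trans ?_
      · rw [mem_filter, mem_Ioc] at hn
        exact mem_Ioc.2 ⟨hn.1.1, hn.2⟩
      · rw [mul_left_comm, ← Real.rpow_add hx0]
        exact mul_le_mul_of_nonneg_left (hpw (by rw [he]; linarith)) hL0
  · rw [hU, ht]
    exact (h₂ x hx f hf).trans (mul_le_mul (le_add_of_nonneg_left (by positivity))
      (hpw (by linarith)) (by positivity) (by positivity))
  · have hB0 : 0 ≤ B := (abs_nonneg _).trans (hg 0 x.zero_le)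
    have key : ((U * U : ℕ) : ℝ) * (B * (C₁ * (x : ℝ) ^ γ * (1 + Real.log x))) ≤
        B * ((L + C₁ * L + C₂) * (x : ℝ) ^ (1 - d - e)) := by
      rw [← hl, Nat.cast_mul, ← sq, mul_left_comm]
      refine mul_le_mul_of_nonneg_left ((mul_le_mul hU2 (mul_le_mul_of_nonneg_left hlL
        (by positivity)) (by positivity) (by positivity)).trans ?_) hB0
      rw [show (x : ℝ) ^ ((1 - γ) / 2) * (C₁ * (x : ℝ) ^ γ * (L * (x : ℝ) ^ e)) =
        C₁ * L * (x : ℝ) ^ ((1 - γ) / 2 + γ + e) by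
          rw [Real.rpow_add hx0, Real.rpow_add hx0]; ring]
      exact mul_le_mul (le_add_of_le_of_nonneg (le_add_of_nonneg_left hL0) hC₂)
        (hpw (by rw [he] at *; linarith)) (by positivity) (by positivity)
    exact ⟨(h₁ x (U * U) g B hx hg hg0).1.trans key, (h₁ x (U * U) g B hx hg hg0).2.trans key⟩

/-- **The theorem of Mauduit and Rivat.** -/
theorem exists_vonMangoldt_wave_le {q : ℕ} (hq : 2 ≤ q) {z : ℂ} (hz : ‖z‖ = 1)
    (hz1 : z ^ (q - 1) ≠ 1) :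
    ∃ δ C : ℝ, 0 < δ ∧ 0 ≤ C ∧ ∀ x : ℕ, 0 < x →
      ‖waveSum q z Λ x‖ ≤ C * (x : ℝ) ^ (1 - δ) := by
  obtain ⟨δ, e, C, hδ, he, hC, h⟩ := exists_parts_le hq hz hz1
  obtain ⟨L, hL⟩ : ∃ L : ℝ, L = 1 + 1 / e := ⟨_, rfl⟩
  refine ⟨δ, 3 * C + L * C, hδ, by rw [hL]; positivity, fun x hx => ?_⟩
  obtain ⟨U, hf, hg⟩ := h x hx
  have hx0 : (0 : ℝ) < x := Nat.cast_pos.2 hx
  obtain ⟨P, hP⟩ : ∃ P : ℝ, P = (x : ℝ) ^ (1 - δ) := ⟨_, rfl⟩
  rw [← hP] at hf ⊢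
  have hl0 := Real.log_natCast_nonneg x
  have hΛ : ∀ m, m ≤ x → |(Λ : ArithmeticFunction ℝ) m| ≤ 1 + Real.log x := fun m hm => by
    rw [abs_of_nonneg vonMangoldt_nonneg]
    refine vonMangoldt_le_log.trans ?_
    rcases Nat.eq_zero_or_pos m with rfl | h0
    · simp only [Nat.cast_zero, Real.log_zero]
      linarith
    · linarith [Real.log_le_log (Nat.cast_pos.2 h0) (Nat.cast_le (α := ℝ).2 hm)]
  obtain ⟨hA, hD⟩ := hf Λ hΛ
  have hB : ‖waveSum q z (lowPart U moebiusR * ArithmeticFunction.log) x‖ ≤ C * P := by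
    refine ((hg (lowPart U moebiusR) 1 (fun m _ => DavenportMoebius.abs_lowPart_le U m)
      (fun m hm => ?_)).1).trans ?_
    · rw [lowPart_apply, if_neg (by have := Nat.le_mul_self U; omega)]
    · rw [one_mul, hP]
      exact mul_le_mul_of_nonneg_left
        (Real.rpow_le_rpow_of_exponent_le (Nat.one_le_cast.2 hx) (by linarith)) hC
  have hC' : ‖waveSum q z (lowPart U Λ * lowPart U moebiusR * oneR) x‖ ≤ L * C * P := by
    refine ((hg (lowPart U Λ * lowPart U moebiusR) (1 + Real.log x) (fun m hm => ?_)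
      (fun m hm => low_mul_eq_zero hm)).2).trans ?_
    · refine (abs_low_mul_le U m).trans ?_
      rcases Nat.eq_zero_or_pos m with rfl | h0
      · simp only [Nat.cast_zero, Real.log_zero]
        linarith
      · linarith [Real.log_le_log (Nat.cast_pos.2 h0) (Nat.cast_le (α := ℝ).2 hm)]
    · refine (mul_le_mul_of_nonneg_right (hL ▸ log_le_rpow_div hx he)
        (by positivity)).trans_eq ?_
      rw [hP, mul_mul_mul_comm, ← Real.rpow_add hx0, add_sub_cancel]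
  have hv := congrArg (fun f => waveSum q z f x) (vaughan U)
  simp only [waveSum_add, waveSum_sub] at hv
  rw [show waveSum q z Λ x = _ from hv]
  refine (norm_add_le _ _).trans ((add_le_add ((norm_sub_le _ _).trans
    (add_le_add ((norm_add_le _ _).trans (add_le_add hA hB)) hC')) hD).trans (le_of_eq ?_))
  ring

/-- **The sum of the digits against the Möbius function.** -/
theorem exists_moebius_wave_le {q : ℕ} (hq : 2 ≤ q) {z : ℂ} (hz : ‖z‖ = 1)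
    (hz1 : z ^ (q - 1) ≠ 1) :
    ∃ δ C : ℝ, 0 < δ ∧ 0 ≤ C ∧ ∀ x : ℕ, 0 < x →
      ‖waveSum q z moebiusR x‖ ≤ C * (x : ℝ) ^ (1 - δ) := by
  obtain ⟨δ, e, C, hδ, he, hC, h⟩ := exists_parts_le hq hz hz1
  obtain ⟨Cd, hCd1, hCd⟩ := RepresentationBound.card_divisors_isBigO e he
  refine ⟨δ, 3 * C + Cd * C, hδ, by positivity, fun x hx => ?_⟩
  obtain ⟨U, hf, hg⟩ := h x hx
  have hx0 : (0 : ℝ) < x := Nat.cast_pos.2 hx
  obtain ⟨P, hP⟩ : ∃ P : ℝ, P = (x : ℝ) ^ (1 - δ) := ⟨_, rfl⟩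
  rw [← hP] at hf ⊢
  obtain ⟨hA, hD⟩ := hf moebiusR fun m _ => (abs_moebiusR_le m).trans
    (le_add_of_nonneg_right (Real.log_natCast_nonneg x))
  have hB : ‖waveSum q z (lowPart U moebiusR * lowPart U moebiusR * oneR) x‖ ≤ Cd * C * P := by
    refine ((hg (lowPart U moebiusR * lowPart U moebiusR) (Cd * (x : ℝ) ^ e) (fun m hm => ?_)
      (fun m hm => DavenportMoebius.low_low_eq_zero hm)).2).trans_eq ?_
    · rcases Nat.eq_zero_or_pos m with rfl | h0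
      · rw [ArithmeticFunction.map_zero, abs_zero]
        positivity
      · exact (DavenportMoebius.abs_low_low_le U m).trans ((hCd m (by omega)).trans
          (mul_le_mul_of_nonneg_left (Real.rpow_le_rpow (Nat.cast_nonneg m) (Nat.cast_le.2 hm)
            he.le) (by linarith)))
    · rw [hP, mul_mul_mul_comm, ← Real.rpow_add hx0, add_sub_cancel]
  have hv := congrArg (fun f => waveSum q z f x) (DavenportMoebius.vaughan_moebius U)
  simp only [waveSum_add, waveSum_sub] at hv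
  rw [show waveSum q z moebiusR x = _ from hv]
  refine (norm_add_le _ _).trans ((add_le_add ((norm_sub_le _ _).trans
    (add_le_add ((norm_add_le _ _).trans (add_le_add hA hA)) hB)) hD).trans (le_of_eq ?_))
  ring

end FA.DigitPrimes

end
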