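import Fermat.Agent.DigitPrimes.Fourier
import Mathlib.Analysis.Complex.ExponentialBounds

/-!
# The correlation of the periodic part

With both factors expanded in additive characters the sum over `m` is geometric. The frequencies
are grouped by the common divisor `D = q ^ δ k` of their difference and `q ^ L`, `q ∤ k`: the `n`
then run evenly through one class modulo `D`, fixed by the class `a` of the first frequency, and
the two frequencies contribute the square of the sum of the coefficients over `a`.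
-/

set_option autoImplicit false

noncomputable section

namespace FA.DigitPrimes

open Finset
open FA.ThreePrimes (eAdd eAdd_add eAdd_intCast norm_eAdd conj_eAdd nearDist clip clip_le
  clip_le_inv norm_geom_le)
open scoped ComplexConjugate

/-- `min (Z, Q / u)`, read as `Z` at `u = 0`. -/
def prox (Z : ℝ) (Q u : ℕ) : ℝ := if u = 0 then Z else min Z ((Q : ℝ) / u)

theorem prox_le (Z : ℝ) (Q u : ℕ) : prox Z Q u ≤ Z := by
  unfold prox
  split_ifs
  exacts [le_rfl, min_le_left _ _]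

theorem prox_nonneg {Z : ℝ} (hZ : 0 ≤ Z) (Q u : ℕ) : 0 ≤ prox Z Q u := by
  unfold prox
  split_ifs
  exacts [hZ, le_min hZ (by positivity)]

theorem prox_le_div (Z : ℝ) (Q : ℕ) {u v : ℕ} (hv : 0 < v) (hvu : v ≤ u) :
    prox Z Q u ≤ (Q : ℝ) / v := by
  rw [prox, if_neg (by omega)]
  exact (min_le_right _ _).trans (div_le_div_of_nonneg_left (Nat.cast_nonneg Q)
    (Nat.cast_pos.2 hv) (Nat.cast_le.2 hvu))

theorem norm_geom_grid_le {Q : ℕ} (hQ : 0 < Q) {M a b : ℕ} (hab : b - a ≤ M) (u : ℕ) :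
    ‖∑ m ∈ Ioc a b, eAdd (((m * u : ℕ) : ℝ) / Q)‖ ≤
      prox M Q (u % Q) + prox M Q (Q - u % Q) := by
  obtain ⟨r, hr⟩ : ∃ r, r = u % Q := ⟨_, rfl⟩
  have hrQ : r < Q := hr ▸ Nat.mod_lt u hQ
  have hQ0 : (0 : ℝ) < Q := Nat.cast_pos.2 hQ
  have e : ∀ m : ℕ, eAdd (((m * u : ℕ) : ℝ) / Q) = eAdd ((m : ℝ) * ((r : ℝ) / Q)) := fun m => by
    obtain ⟨t, ht⟩ : ∃ t, t = u / Q := ⟨_, rfl⟩
    conv_lhs => rw [← Nat.div_add_mod u Q, ← hr, ← ht]
    rw [show ((m * (Q * t + r) : ℕ) : ℝ) / Q =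
      (((m * t : ℕ) : ℤ) : ℝ) + (m : ℝ) * ((r : ℝ) / Q) by push_cast; field_simp,
      eAdd_add, eAdd_intCast, one_mul]
  rw [sum_congr rfl fun m _ => e m, ← hr]
  refine (norm_geom_le _ a b).trans ?_
  have hM : ((b - a : ℕ) : ℝ) ≤ M := Nat.cast_le.2 hab
  have hM0 : (0 : ℝ) ≤ M := Nat.cast_nonneg M
  rcases Nat.eq_zero_or_pos r with h0 | h0
  · refine ((clip_le _ _).trans hM).trans (le_add_of_le_of_nonneg (le_of_eq ?_)
      (prox_nonneg hM0 _ _))
    rw [prox, if_pos h0]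
  have hx0 : 0 < (r : ℝ) / Q := by positivity
  have hx1 : (r : ℝ) / Q < 1 := by
    rw [div_lt_one hQ0]
    exact Nat.cast_lt.2 hrQ
  rw [prox, prox, if_neg h0.ne', if_neg (by omega : Q - r ≠ 0)]
  have hmin : min ((r : ℝ) / Q) (1 - (r : ℝ) / Q) ≤ nearDist ((r : ℝ) / Q) := by
    unfold nearDist
    rcases le_or_gt (round ((r : ℝ) / Q)) 0 with hk | hk
    · have hk' : ((round ((r : ℝ) / Q) : ℤ) : ℝ) ≤ 0 := by exact_mod_cast hk
      exact (min_le_left _ _).trans (le_abs.2 (Or.inl (by linarith)))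
    · have hk' : (1 : ℝ) ≤ ((round ((r : ℝ) / Q) : ℤ) : ℝ) := by exact_mod_cast hk
      exact (min_le_right _ _).trans (le_abs.2 (Or.inr (by linarith)))
  have hclip := clip_le_inv (Z := ((b - a : ℕ) : ℝ)) (lt_min hx0 (by linarith)) hmin
  rcases le_total ((r : ℝ) / Q) (1 - (r : ℝ) / Q) with h | h
  · rw [min_eq_left h] at hclip
    refine (le_min ((clip_le _ _).trans hM) (hclip.trans ?_)).trans
      (le_add_of_nonneg_right (le_min hM0 (by positivity)))
    rw [one_div, mul_inv, inv_div]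
    exact mul_le_of_le_one_left (by positivity) (by norm_num)
  · rw [min_eq_right h] at hclip
    refine (le_min ((clip_le _ _).trans hM) (hclip.trans ?_)).trans
      (le_add_of_nonneg_left (le_min hM0 (by positivity)))
    rw [one_sub_div hQ0.ne', one_div, mul_inv, inv_div, Nat.cast_sub hrQ.le]
    exact mul_le_of_le_one_left (div_nonneg hQ0.le (sub_nonneg.2 (Nat.cast_le.2 hrQ.le)))
      (by norm_num)

theorem sum_range_inv_le {n B : ℕ} (hn : n ≤ 2 ^ B) :
    ∑ j ∈ range n, ((j : ℝ) + 1)⁻¹ ≤ 1 + B := by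
  have h : ∑ j ∈ range n, ((j : ℝ) + 1)⁻¹ = (harmonic n : ℝ) := by
    rw [harmonic]
    push_cast
    rfl
  rw [h]
  refine (harmonic_le_one_add_log n).trans ?_
  rcases Nat.eq_zero_or_pos n with rfl | hn0
  · simp
  have h1 : Real.log n ≤ B * Real.log 2 := by
    rw [← Real.log_pow]
    exact Real.log_le_log (Nat.cast_pos.2 hn0) (by exact_mod_cast hn)
  nlinarith [Real.log_two_lt_d9, Nat.cast_nonneg (α := ℝ) B]

/-- A class modulo `E` inside `[0, E k)`. -/
theorem sum_class_prox_le {Z : ℝ} (hZ : 0 ≤ Z) (Q : ℕ) {E k B r : ℕ} (hE : 0 < E) (hk : k ≤ 2 ^ B)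
    (hr : r < E) :
    ∑ j ∈ range k, (prox Z Q (r + E * j) + prox Z Q (E * k - (r + E * j))) ≤
      prox Z Q r + prox Z Q (E - r) + 2 * ((Q : ℝ) / E) * (1 + B) := by
  rcases Nat.eq_zero_or_pos k with rfl | hk0
  · rw [range_zero, sum_empty]
    exact add_nonneg (add_nonneg (prox_nonneg hZ _ _) (prox_nonneg hZ _ _)) (by positivity)
  have key : ∀ s : ℕ, ∑ j ∈ range k, prox Z Q (s + E * j) ≤
      prox Z Q s + (Q : ℝ) / E * (1 + B) := fun s => by
    obtain ⟨k', rfl⟩ : ∃ k', k = k' + 1 := ⟨k - 1, by omega⟩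
    rw [sum_range_succ', mul_zero, add_zero, add_comm]
    refine add_le_add le_rfl ((sum_le_sum fun j _ =>
      prox_le_div Z Q (v := E * (j + 1)) (by positivity) (Nat.le_add_left _ _)).trans ?_)
    have e : ∀ j : ℕ, (Q : ℝ) / ((E * (j + 1) : ℕ) : ℝ) = (Q : ℝ) / E * ((j : ℝ) + 1)⁻¹ :=
      fun j => by
        push_cast
        field_simp
    rw [sum_congr rfl fun j _ => e j, ← mul_sum]
    exact mul_le_mul_of_nonneg_left (sum_range_inv_le (by omega)) (by positivity)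
  rw [sum_add_distrib, ← sum_range_reflect (fun j => prox Z Q (E * k - (r + E * j))) k]
  have e : ∀ j ∈ range k, prox Z Q (E * k - (r + E * (k - 1 - j))) = prox Z Q (E - r + E * j) :=
    fun j hj => by
      have hj' := mem_range.1 hj
      obtain ⟨i, hi⟩ : ∃ i, k = j + 1 + i := ⟨k - 1 - j, by omega⟩
      congr 1
      rw [hi, show j + 1 + i - 1 - j = i by omega, mul_add, mul_add, mul_one]
      omega
  rw [sum_congr rfl e]
  linarith [key r, key (E - r)]

/-- **The multiples of `D` modulo `D P`.** -/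
theorem sum_mod_le {D P d : ℕ} (hD : 0 < D) (hP : 0 < P) (hd : D ∣ d) (hco : P.Coprime (d / D))
    (e a l : ℕ) (F : ℕ → ℝ) (hF : ∀ u, 0 ≤ F u) :
    ∑ n ∈ Ioc a (a + l), F ((d * n + e) % (D * P)) ≤
      ((l : ℝ) / P + 1) * ∑ j ∈ range P, F (e % D + D * j) := by
  obtain ⟨c, rfl⟩ := hd
  rw [Nat.mul_div_cancel_left c hD] at hco
  have hval : ∀ n, (D * c * n + e) % (D * P) =
      e % D + D * ((D * c * n + e) % (D * P) / D) := fun n => by
    have h2 : (D * c * n + e) % (D * P) % D = e % D := by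
      rw [Nat.mod_mod_of_dvd _ (dvd_mul_right D P), mul_assoc, Nat.mul_add_mod]
    have h1 := Nat.div_add_mod ((D * c * n + e) % (D * P)) D
    omega
  have hfib : ∀ i, ((Ioc a (a + l)).filter
      fun n => (D * c * n + e) % (D * P) / D = i).card ≤ l / P + 1 := fun i => by
    refine (card_le_card_of_injOn (fun n => (n - (a + 1)) / P) (t := range (l / P + 1))
      (fun n hn => ?_) fun n hn n' hn' he => ?_).trans (card_range _).le
    · simp only [mem_coe, mem_filter, mem_Ioc] at hn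
      rw [mem_coe, mem_range]
      exact Nat.lt_succ_of_le (Nat.div_le_div_right (by omega))
    · simp only [mem_coe, mem_filter, mem_Ioc] at hn hn'
      have h1 : D * c * n + e ≡ D * c * n' + e [MOD D * P] := by
        rw [Nat.ModEq, hval n, hval n', hn.2, hn'.2]
      have h2 := Nat.ModEq.add_right_cancel' e h1
      rw [mul_assoc, mul_assoc] at h2
      have h3 := (Nat.ModEq.mul_left_cancel' hD.ne' h2).cancel_left_of_coprime hco
      have e1 : n - (a + 1) + (a + 1) = n := Nat.sub_add_cancel (by omega)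
      have e2 : n' - (a + 1) + (a + 1) = n' := Nat.sub_add_cancel (by omega)
      have h4 : (n - (a + 1)) % P = (n' - (a + 1)) % P :=
        Nat.ModEq.add_right_cancel' (a + 1) (by rwa [e1, e2])
      simp only at he
      rw [← e1, ← e2, ← Nat.div_add_mod (n - (a + 1)) P, ← Nat.div_add_mod (n' - (a + 1)) P, he,
        h4]
  rw [← sum_fiberwise_of_maps_to (g := fun n => (D * c * n + e) % (D * P) / D) (t := range P)
    (fun n _ => mem_range.2 (Nat.div_lt_of_lt_mul (Nat.mod_lt _ (Nat.mul_pos hD hP)))), mul_sum]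
  refine sum_le_sum fun i _ => ?_
  rw [sum_congr rfl fun n hn => by rw [hval n, (mem_filter.1 hn).2], sum_const, nsmul_eq_mul]
  refine mul_le_mul_of_nonneg_right ((Nat.cast_le.2 (hfib i)).trans ?_) (hF _)
  push_cast
  exact add_le_add Nat.cast_div_le le_rfl

/-- The classes modulo `D` of the multiples of `s`, over one class modulo `E`. -/
theorem sum_class_mul_le {D E s : ℕ} (hs : 0 < s) (hED : E ∣ D) (a₀ : ℕ) (F : ℕ → ℝ)
    (hF : ∀ u, 0 ≤ F u) :
    ∑ a ∈ (range D).filter (fun a => a % E = a₀), F (a * s % D) ≤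
      s * ∑ u ∈ (range D).filter (fun u => u % E = a₀ * s % E), F u := by
  rcases Nat.eq_zero_or_pos D with rfl | hD
  · simp
  rw [← sum_fiberwise_of_maps_to (g := fun a => a * s % D)
    (t := (range D).filter fun u => u % E = a₀ * s % E) (fun a ha => ?_), mul_sum]
  · refine sum_le_sum fun u _ => ?_
    rw [sum_congr rfl fun a ha => by rw [(mem_filter.1 ha).2], sum_const, nsmul_eq_mul]
    refine mul_le_mul_of_nonneg_right (Nat.cast_le.2 ?_) (hF _)
    refine (card_le_card_of_injOn (fun a => a * s / D) (t := range s) (fun a ha => ?_)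
      fun a ha b hb he => ?_).trans (card_range _).le
    · simp only [mem_coe, mem_filter, mem_range] at ha
      rw [mem_coe, mem_range, Nat.div_lt_iff_lt_mul hD, mul_comm s D]
      exact Nat.mul_lt_mul_of_pos_right ha.1.1 hs
    · simp only [mem_coe, mem_filter] at ha hb
      simp only at he
      refine Nat.eq_of_mul_eq_mul_right hs ?_
      rw [← Nat.div_add_mod (a * s) D, ← Nat.div_add_mod (b * s) D, he, ha.2, hb.2]
  · rw [mem_filter] at ha ⊢
    refine ⟨mem_range.2 (Nat.mod_lt _ hD), ?_⟩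
    rw [Nat.mod_mod_of_dvd _ hED, ← Nat.mod_mul_mod, ha.2]

/-- The classes modulo `D` of the multiples of `s`. -/
theorem sum_mul_mod_le {D s : ℕ} (hs : 0 < s) (F : ℕ → ℝ) (hF : ∀ u, 0 ≤ F u) :
    ∑ a ∈ range D, F (a * s % D) ≤ s * ∑ u ∈ range D, F u := by
  simpa [Nat.mod_one] using sum_class_mul_le hs (one_dvd D) 0 F hF

theorem sum_range_prox_le {Z : ℝ} (hZ : 0 ≤ Z) {Q D B : ℕ} (hD : D ≤ 2 ^ B) :
    ∑ u ∈ range D, (prox Z Q u + prox Z Q (D - u)) ≤ Z + 2 * (Q * (1 + B)) := by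
  rcases Nat.eq_zero_or_pos D with rfl | hD0
  · simp only [range_zero, sum_empty]
    positivity
  obtain ⟨D', rfl⟩ : ∃ D', D = D' + 1 := ⟨D - 1, by omega⟩
  have key : ∀ n, n ≤ 2 ^ B → ∑ j ∈ range n, prox Z Q (j + 1) ≤ (Q : ℝ) * (1 + B) := fun n hn => by
    refine (sum_le_sum fun j _ => prox_le_div Z Q (Nat.succ_pos j) le_rfl).trans ?_
    push_cast
    simp only [div_eq_mul_inv, ← mul_sum]
    exact mul_le_mul_of_nonneg_left (sum_range_inv_le hn) (Nat.cast_nonneg Q)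
  rw [sum_add_distrib, sum_range_succ', ← sum_range_reflect (fun u => prox Z Q (D' + 1 - u)) _]
  have e : ∀ j ∈ range (D' + 1), prox Z Q (D' + 1 - (D' + 1 - 1 - j)) = prox Z Q (j + 1) :=
    fun j hj => by
      congr 1
      have := mem_range.1 hj
      omega
  rw [sum_congr rfl e]
  linarith [key D' (by omega), key (D' + 1) hD, prox_le Z Q 0]

theorem sum_range_class (F : ℕ → ℝ) (D P : ℕ) {a : ℕ} (ha : a < D) :
    ∑ h ∈ (range (D * P)).filter (fun h => h % D = a), F h = ∑ j ∈ range P, F (a + D * j) := by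
  refine (sum_nbij' (fun j => a + D * j) (fun h => h / D) ?_ ?_ ?_ ?_ fun _ _ => rfl).symm
  · intro j hj
    rw [mem_range] at hj
    rw [mem_filter, mem_range, Nat.add_mul_mod_self_left, Nat.mod_eq_of_lt ha]
    refine ⟨?_, rfl⟩
    calc a + D * j < D + D * j := Nat.add_lt_add_right ha _
      _ = D * (j + 1) := by ring
      _ ≤ D * P := Nat.mul_le_mul_left D hj
  · intro h hh
    rw [mem_filter, mem_range] at hh
    rw [mem_range]
    exact Nat.div_lt_of_lt_mul hh.1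
  · intro j _
    rw [Nat.add_mul_div_left _ _ (by omega : 0 < D), Nat.div_eq_of_lt ha, zero_add]
  · intro h hh
    conv_rhs => rw [← Nat.mod_add_div h D, (mem_filter.1 hh).2]

/-- A class modulo `E k` inside `[0, E q ^ m)`. -/
theorem sum_coef_class (q : ℕ) (z : ℂ) {δ m k a : ℕ} (hq : 0 < q) :
    ∑ h ∈ (range (q ^ (δ + m))).filter (fun h => h % (q ^ δ * k) = a), coef q z (δ + m) h =
      classSum q z δ m k (a / q ^ δ) (a % q ^ δ) := by
  obtain ⟨E, hE⟩ : ∃ E, E = q ^ δ := ⟨_, rfl⟩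
  have hE0 : 0 < E := hE ▸ by positivity
  rw [classSum, ← hE, pow_add, ← hE]
  refine (sum_nbij' (fun j => a % E + E * j) (fun h => h / E) ?_ ?_ ?_ ?_ fun _ _ => rfl).symm
  · intro j hj
    rw [mem_filter, mem_range] at hj
    rw [mem_filter, mem_range, Nat.mod_mul, Nat.add_mul_mod_self_left, Nat.mod_mod,
      Nat.add_mul_div_left _ _ hE0, Nat.div_eq_of_lt (Nat.mod_lt a hE0), zero_add, hj.2,
      Nat.mod_add_div]
    refine ⟨?_, rfl⟩
    calc a % E + E * j < E + E * j := Nat.add_lt_add_right (Nat.mod_lt a hE0) _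
      _ = E * (j + 1) := by ring
      _ ≤ E * q ^ m := Nat.mul_le_mul_left E hj.1
  · intro h hh
    rw [mem_filter, mem_range] at hh
    rw [mem_filter, mem_range]
    exact ⟨Nat.div_lt_of_lt_mul hh.1, by rw [← hh.2, Nat.mod_mul_right_div_self]⟩
  · intro j _
    rw [Nat.add_mul_div_left _ _ hE0, Nat.div_eq_of_lt (Nat.mod_lt a hE0), zero_add]
  · intro h hh
    rw [← (mem_filter.1 hh).2, Nat.mod_mod_of_dvd _ (dvd_mul_right E k), Nat.mod_add_div]

/-- The phase of the pair of frequencies `z`. -/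
def phase (Q s : ℕ) (z : ℕ × ℕ) (n : ℕ) : ℕ := (z.1 + (Q - z.2)) * n + z.1 * s

theorem norm_sum_low_le {q : ℕ} (hq : 2 ≤ q) (z : ℂ) {L M a b : ℕ} (hab : b - a ≤ M) (s n : ℕ) :
    ‖∑ m ∈ Ioc a b, low q z L (m * (n + s)) * conj (low q z L (m * n))‖ ≤
      ∑ h ∈ range (q ^ L) ×ˢ range (q ^ L), coef q z L h.1 * coef q z L h.2 *
        (prox M (q ^ L) (phase (q ^ L) s h n % q ^ L) +
          prox M (q ^ L) (q ^ L - phase (q ^ L) s h n % q ^ L)) := by
  obtain ⟨Q, hQ⟩ : ∃ Q, Q = q ^ L := ⟨_, rfl⟩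
  have hQ0 : 0 < Q := hQ ▸ by positivity
  have hQR : (q : ℝ) ^ L = (Q : ℝ) := by rw [hQ]; push_cast; rfl
  have hQR0 : (0 : ℝ) < Q := Nat.cast_pos.2 hQ0
  have e : ((q : ℂ) ^ L * (q : ℂ) ^ L) *
      (∑ m ∈ Ioc a b, low q z L (m * (n + s)) * conj (low q z L (m * n))) =
      ∑ h ∈ range Q ×ˢ range Q, coefC q z L h.1 * conj (coefC q z L h.2) *
        ∑ m ∈ Ioc a b, eAdd (((m * phase Q s h n : ℕ) : ℝ) / Q) := by
    simp only [mul_sum]
    rw [sum_comm]
    refine sum_congr rfl fun m _ => ?_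
    have hc : conj ((q : ℂ) ^ L) = (q : ℂ) ^ L := by rw [map_pow, map_natCast]
    rw [mul_mul_mul_comm]
    conv_lhs => arg 2; rw [← hc, ← map_mul, pow_mul_low hq]
    rw [pow_mul_low hq, map_sum, sum_mul_sum, ← sum_product', ← hQ, hQR]
    refine sum_congr rfl fun h hh => ?_
    simp only [mem_product, mem_range] at hh
    rw [map_mul, conj_eAdd, mul_mul_mul_comm, ← eAdd_add]
    congr 1
    have e2 : ((m * phase Q s h n : ℕ) : ℝ) / Q =
        ((m * (n + s) * h.1 : ℕ) : ℝ) / Q + -(((m * n * h.2 : ℕ) : ℝ) / Q) +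
          (((m * n : ℕ) : ℤ) : ℝ) := by
      rw [phase]
      push_cast [Nat.cast_sub hh.2.le]
      field_simp
      ring
    rw [e2, eAdd_add (_ + _), eAdd_intCast, mul_one]
  have h2 := congrArg norm e
  rw [norm_mul, norm_mul, norm_pow, Complex.norm_natCast, hQR] at h2
  rw [← hQ]
  refine le_of_mul_le_mul_left (a := (Q : ℝ) * Q) ?_ (mul_pos hQR0 hQR0)
  rw [h2, mul_sum]
  refine (norm_sum_le _ _).trans (sum_le_sum fun h _ => ?_)
  rw [norm_mul, norm_mul, Complex.norm_conj]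
  refine (mul_le_mul_of_nonneg_left (norm_geom_grid_le hQ0 hab _)
    (by positivity)).trans (le_of_eq ?_)
  rw [coef, coef, hQR]
  field_simp

/-- The bound for the frequencies with `D = q ^ δ k`. -/
theorem sum_classSum_sq_le {q : ℕ} (hq : 2 ≤ q) {z : ℂ} (hz : ‖z‖ = 1) {β : ℝ} {δ m k : ℕ}
    (hk : k ∣ q ^ m) (hcls : ∀ c a, (k : ℝ) * classSum q z δ m k c a ^ 2 ≤
      4 * β ^ m * coef q z δ a ^ 2) (N l : ℝ) (hN : 0 ≤ N) (hl : 0 ≤ l) (F : ℕ → ℝ)
    (hF : ∀ a, 0 ≤ F a) :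
    ∑ a ∈ range (q ^ δ * k), classSum q z δ m k (a / q ^ δ) (a % q ^ δ) ^ 2 *
        ((N / ((q ^ (δ + m) / (q ^ δ * k) : ℕ) : ℝ) + 1) *
          (F a + 2 * ((q ^ (δ + m) / (q ^ δ * k) : ℕ) : ℝ) * l)) ≤
      4 * β ^ m * (N / (q : ℝ) ^ m + 1 / (k : ℝ)) *
        ((∑ a ∈ range (q ^ δ * k), coef q z δ (a % q ^ δ) ^ 2 * F a) + 2 * (q : ℝ) ^ m * l) := by
  have hq0 : 0 < q := by omega
  obtain ⟨P, hP⟩ := hk
  have hk0 : (0 : ℝ) < k := Nat.cast_pos.2 (Nat.pos_of_ne_zero fun e => by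
    rw [e, zero_mul] at hP
    exact (pow_pos hq0 m).ne' hP)
  have hqm : (q : ℝ) ^ m = k * P := by exact_mod_cast hP
  have hPe : q ^ (δ + m) / (q ^ δ * k) = P := by
    rw [pow_add, hP, ← mul_assoc]
    exact Nat.mul_div_cancel_left P (Nat.mul_pos (pow_pos hq0 δ) (Nat.cast_pos.1 hk0))
  have hP0 : (0 : ℝ) < P := pos_of_mul_pos_right (hqm ▸ by positivity) hk0.le
  have hsum : ∑ a ∈ range (q ^ δ * k), coef q z δ (a % q ^ δ) ^ 2 = k := by
    rw [sum_range_digits, sum_congr rfl fun i _ => (sum_congr rfl fun h hh => by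
      rw [Nat.add_mul_mod_self_left, Nat.mod_eq_of_lt (mem_range.1 hh)]).trans
        (sum_coef_sq hq hz δ), sum_const, card_range, nsmul_one]
  rw [hPe, hqm]
  refine (sum_le_sum fun a _ => mul_le_mul_of_nonneg_right ((le_div_iff₀' hk0).2 (hcls _ _))
    (mul_nonneg (by positivity) (add_nonneg (hF a) (by positivity)))).trans (le_of_eq ?_)
  rw [show 2 * ((k : ℝ) * P) * l =
    ∑ a ∈ range (q ^ δ * k), coef q z δ (a % q ^ δ) ^ 2 * (2 * P * l) by
      rw [← sum_mul, hsum]; ring, ← sum_add_distrib, mul_sum]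
  refine sum_congr rfl fun a _ => ?_
  field_simp

/-- **The periodic part.** -/
theorem sum_norm_low_le {q : ℕ} (hq : 2 ≤ q) {z : ℂ} (hz : ‖z‖ = 1) {β : ℝ}
    (hcls : ∀ m d k c a, k ∣ q ^ m → ¬q ∣ k →
      (k : ℝ) * classSum q z d m k c a ^ 2 ≤ 4 * β ^ m * coef q z d a ^ 2)
    {L M B N s : ℕ} (hB : q ^ L ≤ 2 ^ B) (N₀ M₀ : ℕ) (T : ℕ → ℕ) (hT : ∀ n, T n ≤ M₀ + M)
    {Y : ℝ} (hY : ∀ δ m k, δ + m = L → k ∣ q ^ m → ¬q ∣ k →
      4 * β ^ m * ((N : ℝ) / (q : ℝ) ^ m + 1 / (k : ℝ)) *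
        ((∑ a ∈ range (q ^ δ * k), coef q z δ (a % q ^ δ) ^ 2 *
            (prox M (q ^ L) (a * s % (q ^ δ * k)) +
              prox M (q ^ L) (q ^ δ * k - a * s % (q ^ δ * k)))) +
          2 * (q : ℝ) ^ m * (1 + B)) ≤ Y) :
    ∑ n ∈ Ioc N₀ (N₀ + N), ‖∑ m ∈ Ioc M₀ (T n),
        low q z L (m * (n + s)) * conj (low q z L (m * n))‖ ≤
      ((q ^ L).divisors.card : ℝ) * Y := by
  obtain ⟨Q, hQ⟩ : ∃ Q, Q = q ^ L := ⟨_, rfl⟩
  have hQ0 : 0 < Q := hQ ▸ by positivity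
  rw [← hQ] at hY ⊢
  refine (sum_le_sum fun n _ =>
    norm_sum_low_le hq z (M := M) (by have := hT n; omega) s n).trans ?_
  rw [← hQ, sum_comm]
  simp only [← mul_sum]
  obtain ⟨G, hG⟩ : ∃ G : ℕ → ℕ → ℝ, G = fun D a => ((N : ℝ) / ((Q / D : ℕ) : ℝ) + 1) *
      (prox M Q (a * s % D) + prox M Q (D - a * s % D) +
        2 * ((Q / D : ℕ) : ℝ) * (1 + (B : ℝ))) := ⟨_, rfl⟩
  have hM0 : (0 : ℝ) ≤ M := Nat.cast_nonneg M
  have hG0 : ∀ D a, 0 ≤ G D a := fun D a => by
    rw [hG]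
    exact mul_nonneg (by positivity)
      (add_nonneg (add_nonneg (prox_nonneg hM0 _ _) (prox_nonneg hM0 _ _)) (by positivity))
  obtain ⟨f, hf⟩ : ∃ f : ℕ → ℕ × ℕ → ℝ, f = fun D h => if D ∣ h.1 + (Q - h.2) then
      coef q z L h.1 * coef q z L h.2 * G D (h.1 % D) else 0 := ⟨_, rfl⟩
  have hstep : ∀ h ∈ range Q ×ˢ range Q, coef q z L h.1 * coef q z L h.2 *
      ∑ n ∈ Ioc N₀ (N₀ + N), (prox M Q (phase Q s h n % Q) + prox M Q (Q - phase Q s h n % Q)) ≤
        ∑ D ∈ Q.divisors, f D h := fun h _ => by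
    obtain ⟨d, hd⟩ : ∃ d, d = h.1 + (Q - h.2) := ⟨_, rfl⟩
    obtain ⟨D, hD⟩ : ∃ D, D = d.gcd Q := ⟨_, rfl⟩
    have hD0 : 0 < D := hD ▸ Nat.gcd_pos_of_pos_right d hQ0
    have hDQ : D ∣ Q := hD ▸ Nat.gcd_dvd_right d Q
    refine le_trans ?_ (single_le_sum (f := fun i => f i h) (fun i _ => ?_)
      (Nat.mem_divisors.2 ⟨hDQ, hQ0.ne'⟩))
    · simp only [hf, if_pos (hd ▸ hD ▸ Nat.gcd_dvd_left d Q : D ∣ h.1 + (Q - h.2)), hG]
      refine mul_le_mul_of_nonneg_left ?_ (mul_nonneg (coef_nonneg _ _ _ _) (coef_nonneg _ _ _ _))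
      obtain ⟨P, hP⟩ : ∃ P, P = Q / D := ⟨_, rfl⟩
      have hP0 : 0 < P := hP ▸ Nat.div_pos (Nat.le_of_dvd hQ0 hDQ) hD0
      have hQ' : Q = D * P := hP ▸ (Nat.mul_div_cancel' hDQ).symm
      have hco : P.Coprime (d / D) := by
        rw [hP, hD]
        exact (Nat.coprime_div_gcd_div_gcd (hD ▸ hD0)).symm
      have h1 := sum_mod_le hD0 hP0 (hD ▸ Nat.gcd_dvd_left d Q) hco (h.1 * s) N₀ N
        (fun u => prox (M : ℝ) Q u + prox (M : ℝ) Q (Q - u))
        fun u => add_nonneg (prox_nonneg hM0 _ _) (prox_nonneg hM0 _ _)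
      rw [← hQ'] at h1
      simp only [phase, ← hd, ← hP]
      refine h1.trans ?_
      refine mul_le_mul_of_nonneg_left ?_ (by positivity)
      have h2 := sum_class_prox_le hM0 Q hD0 (B := B) (k := P)
        (le_trans (hP ▸ Nat.div_le_self Q D) (hQ ▸ hB)) (Nat.mod_lt (h.1 * s) hD0)
      rw [← hQ', show (Q : ℝ) / D = (P : ℝ) by
        rw [hQ', Nat.cast_mul, mul_div_cancel_left₀ _ (Nat.cast_ne_zero.2 hD0.ne')]] at h2
      rwa [Nat.mod_mul_mod]
    · simp only [hf]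
      split_ifs
      exacts [mul_nonneg (mul_nonneg (coef_nonneg _ _ _ _) (coef_nonneg _ _ _ _)) (hG0 _ _), le_rfl]
  refine (sum_le_sum hstep).trans ?_
  rw [sum_comm]
  refine (sum_le_card_nsmul _ _ Y fun D hDmem => ?_).trans (nsmul_eq_mul _ _).le
  have hDQ : D ∣ Q := Nat.dvd_of_mem_divisors hDmem
  have hD0 : 0 < D := Nat.pos_of_dvd_of_pos hDQ hQ0
  obtain ⟨δ, hδ⟩ : ∃ δ, δ = Nat.findGreatest (fun i => q ^ i ∣ D) L := ⟨_, rfl⟩
  have hδL : δ ≤ L := hδ ▸ Nat.findGreatest_le L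
  obtain ⟨k, hk⟩ : q ^ δ ∣ D := hδ ▸ Nat.findGreatest_spec (P := fun i => q ^ i ∣ D) (m := 0)
    (Nat.zero_le L) (by simp)
  obtain ⟨m, rfl⟩ : ∃ m, L = δ + m := ⟨L - δ, by omega⟩
  have hkm : k ∣ q ^ m := by
    rw [hk, hQ, pow_add] at hDQ
    exact Nat.dvd_of_mul_dvd_mul_left (by positivity) hDQ
  have hnk : ¬q ∣ k := fun h => by
    have h1 : q ^ (δ + 1) ∣ D := by
      rw [hk, pow_succ]
      exact Nat.mul_dvd_mul_left _ h
    have h2 : δ + 1 ≤ δ + m := (Nat.pow_dvd_pow_iff_le_right hq).1 (hQ ▸ h1.trans hDQ)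
    have := Nat.le_findGreatest (P := fun i => q ^ i ∣ D) h2 h1
    omega
  have hcond : ∀ h1, ∀ h2 ∈ range Q, (D ∣ h1 + (Q - h2) ↔ h2 % D = h1 % D) := fun h1 h2 hh => by
    have hh' := (mem_range.1 hh).le
    constructor
    · intro hdv
      have h4 : h1 + (Q - h2) + h2 ≡ 0 + h2 [MOD D] := (Nat.modEq_zero_iff_dvd.2 hdv).add_right h2
      rw [add_assoc, Nat.sub_add_cancel hh', zero_add] at h4
      have h5 : h1 + Q ≡ h1 + 0 [MOD D] := (Nat.modEq_zero_iff_dvd.2 hDQ).add_left h1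
      rw [add_zero] at h5
      exact h4.symm.trans h5
    · intro hmod
      refine Nat.modEq_zero_iff_dvd.1 (Nat.ModEq.add_right_cancel' h2 ?_)
      rw [add_assoc, Nat.sub_add_cancel hh', zero_add]
      have h5 : h1 + Q ≡ h1 + 0 [MOD D] := (Nat.modEq_zero_iff_dvd.2 hDQ).add_left h1
      rw [add_zero] at h5
      exact h5.trans hmod.symm
  have hW : ∀ a, ∑ h ∈ (range Q).filter (fun h => h % D = a), coef q z (δ + m) h =
      classSum q z δ m k (a / q ^ δ) (a % q ^ δ) := fun a => by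
    rw [hk, hQ]
    exact sum_coef_class q z (by omega)
  calc ∑ h ∈ range Q ×ˢ range Q, f D h
      = ∑ h ∈ range Q, coef q z (δ + m) h *
          classSum q z δ m k (h % D / q ^ δ) (h % D % q ^ δ) * G D (h % D) := by
        rw [sum_product]
        refine sum_congr rfl fun h1 _ => ?_
        simp only [hf]
        rw [← sum_filter, filter_congr (hcond h1), ← hW, mul_sum, sum_mul]
    _ = ∑ a ∈ range D, classSum q z δ m k (a / q ^ δ) (a % q ^ δ) ^ 2 * G D a := by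
        rw [← sum_fiberwise_of_maps_to (g := fun h => h % D) (t := range D)
          (fun h _ => mem_range.2 (Nat.mod_lt h hD0))]
        refine sum_congr rfl fun a _ => ?_
        rw [sum_congr rfl fun h hh => by rw [(mem_filter.1 hh).2], ← sum_mul, ← sum_mul,
          hW a, sq]
    _ ≤ Y := by
        have h1 := sum_classSum_sq_le hq hz hkm (β := β) (fun c a => hcls m δ k c a hkm hnk)
          (N : ℝ) (1 + (B : ℝ)) (Nat.cast_nonneg N) (by positivity)
          (fun a => prox (M : ℝ) Q (a * s % (q ^ δ * k)) +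
            prox (M : ℝ) Q (q ^ δ * k - a * s % (q ^ δ * k)))
          fun a => add_nonneg (prox_nonneg hM0 _ _) (prox_nonneg hM0 _ _)
        simp only [hG, hk]
        rw [← hQ] at h1
        exact h1.trans (hY δ m k rfl hkm hnk)

end FA.DigitPrimes

end
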