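import Fermat.Agent.DigitPrimes.Fourier
import Fermat.Agent.ThreePrimes.Vaughan

/-!
# The sums of type I

The multiples of `d` are detected by roots of unity, and Gelfond's saving is uniform in the twist.
-/

set_option autoImplicit false

noncomputable section

namespace FA.DigitPrimes

open Finset ArithmeticFunction
open FA.ThreePrimes (eAdd norm_eAdd eAdd_nat_mul sum_eAdd_grid oneR)
open FA.DigitSums (digitSum expSum)

/-- `∑_{0 < n ≤ N} f n z ^ s n`. -/
def waveSum (q : ℕ) (z : ℂ) (f : ArithmeticFunction ℝ) (N : ℕ) : ℂ :=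
  ∑ n ∈ Ioc 0 N, (f n : ℂ) * wave q z n

theorem waveSum_add (q : ℕ) (z : ℂ) (f g : ArithmeticFunction ℝ) (N : ℕ) :
    waveSum q z (f + g) N = waveSum q z f N + waveSum q z g N := by
  simp [waveSum, add_mul, sum_add_distrib]

theorem waveSum_sub (q : ℕ) (z : ℂ) (f g : ArithmeticFunction ℝ) (N : ℕ) :
    waveSum q z (f - g) N = waveSum q z f N - waveSum q z g N := by
  rw [eq_sub_iff_add_eq, ← waveSum_add, sub_add_cancel]

theorem waveSum_mul (q : ℕ) (z : ℂ) (f g : ArithmeticFunction ℝ) (N : ℕ) :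
    waveSum q z (f * g) N = ∑ m ∈ Ioc 0 N, ∑ k ∈ Ioc 0 N,
      if m * k ≤ N then (f m : ℂ) * g k * wave q z (m * k) else 0 := by
  trans ∑ x ∈ Ioc 0 N ×ˢ Ioc 0 N with x.1 * x.2 ≤ N, (f x.1 : ℂ) * g x.2 * wave q z (x.1 * x.2)
  · unfold waveSum
    trans ∑ n ∈ Ioc 0 N, ∑ x ∈ Ioc 0 N ×ˢ Ioc 0 N with x.1 * x.2 = n,
      (f x.1 : ℂ) * g x.2 * wave q z (x.1 * x.2)
    · refine sum_congr rfl fun n hn => ?_
      rw [mem_Ioc] at hn
      rw [mul_apply, Nat.divisorsAntidiagonal_eq_prod_filter_of_le hn.1.ne' hn.2,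
        Complex.ofReal_sum, sum_mul]
      refine sum_congr rfl fun x hx => ?_
      rw [(mem_filter.1 hx).2]
      push_cast
      rfl
    · simp_rw [sum_filter]
      rw [sum_comm]
      exact sum_congr rfl fun _ _ => (by simp_all)
  · rw [sum_filter, sum_product]

/-- **The multiples of `d`.** -/
theorem exists_multiples_le {q : ℕ} (hq : 2 ≤ q) {z : ℂ} (hz : ‖z‖ = 1)
    (hz1 : z ^ (q - 1) ≠ 1) : ∃ γ C : ℝ, 0 < γ ∧ γ < 1 ∧ 0 ≤ C ∧
    ∀ d K x : ℕ, 0 < d → 0 < x → d * K ≤ x →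
      ‖∑ k ∈ Ioc 0 K, wave q z (d * k)‖ ≤ C * (x : ℝ) ^ γ := by
  obtain ⟨γ, B, hγ0, hγ1, hB⟩ := DigitSums.exists_powerSaving hq {z} (Set.finite_singleton z)
    (by simpa using hz) (by simpa using hz1)
  refine ⟨γ, 2 * max B 0 + 1, hγ0, hγ1, by positivity, fun d K x hd hx hK => ?_⟩
  have hsum : (d : ℂ) * ∑ n ∈ (range (d * K + 1)).filter (d ∣ ·), wave q z n =
      ∑ j ∈ range d, expSum q z (eAdd ((j : ℝ) / d)) (d * K + 1) := by
    simp only [expSum]
    rw [sum_comm, mul_sum, sum_filter]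
    refine sum_congr rfl fun n _ => ?_
    have e : ∀ j : ℕ, eAdd ((j : ℝ) / d) ^ n = eAdd (((n : ℤ) : ℝ) * j / d) := fun j => by
      rw [← eAdd_nat_mul]
      push_cast
      ring_nf
    simp only [e]
    rw [← mul_sum, sum_eAdd_grid hd]
    simp only [Int.natCast_dvd_natCast, wave]
    split_ifs <;> ring
  have himg : ∑ n ∈ (range (d * K + 1)).filter (d ∣ ·), wave q z n =
      1 + ∑ k ∈ Ioc 0 K, wave q z (d * k) := by
    have h0 : (1 : ℂ) = wave q z (d * 0) := by simp [wave, digitSum]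
    rw [h0, ← sum_insert (f := fun k => wave q z (d * k)) (by simp : 0 ∉ Ioc 0 K),
      show insert 0 (Ioc 0 K) = range (K + 1) by
        ext i
        simp only [mem_insert, mem_Ioc, mem_range]
        omega]
    refine (sum_nbij' (fun k => d * k) (fun n => n / d) ?_ ?_ ?_ ?_ fun _ _ => rfl).symm
    · intro k hk
      rw [mem_range] at hk
      rw [mem_filter, mem_range]
      exact ⟨Nat.lt_succ_of_le (Nat.mul_le_mul_left d (by omega)), dvd_mul_right d k⟩
    · intro n hn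
      rw [mem_filter, mem_range] at hn
      rw [mem_range, Nat.lt_succ_iff]
      exact Nat.div_le_of_le_mul (Nat.lt_succ_iff.1 hn.1)
    · intro k _
      exact Nat.mul_div_cancel_left k hd
    · intro n hn
      exact Nat.mul_div_cancel' (mem_filter.1 hn).2
  have hd0 : (0 : ℝ) < d := Nat.cast_pos.2 hd
  have hx1 : (1 : ℝ) ≤ (x : ℝ) ^ γ := Real.one_le_rpow (Nat.one_le_cast.2 hx) hγ0.le
  have h1 : ‖∑ n ∈ (range (d * K + 1)).filter (d ∣ ·), wave q z n‖ ≤
      2 * max B 0 * (x : ℝ) ^ γ := by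
    refine le_of_mul_le_mul_left ?_ hd0
    rw [← Complex.norm_natCast d, ← norm_mul, hsum, Complex.norm_natCast]
    refine (norm_sum_le _ _).trans ((sum_le_card_nsmul _ _ _ fun j _ =>
      (hB z rfl _ (norm_eAdd _) _ (Nat.succ_pos _))).trans ?_)
    rw [card_range, nsmul_eq_mul]
    refine mul_le_mul_of_nonneg_left ?_ hd0.le
    refine (mul_le_mul (le_max_left B 0) (Real.rpow_le_rpow (by positivity)
      (show ((d * K + 1 : ℕ) : ℝ) ≤ 2 * (x : ℝ) by exact_mod_cast (by omega :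
        d * K + 1 ≤ 2 * x)) hγ0.le) (by positivity) (le_max_right _ _)).trans ?_
    rw [Real.mul_rpow zero_le_two (Nat.cast_nonneg x), mul_comm 2 (max B 0), mul_assoc]
    refine mul_le_mul_of_nonneg_left (mul_le_mul_of_nonneg_right ?_ (by positivity))
      (le_max_right _ _)
    calc (2 : ℝ) ^ γ ≤ 2 ^ (1 : ℝ) := Real.rpow_le_rpow_of_exponent_le one_le_two hγ1.le
      _ = 2 := Real.rpow_one 2
  rw [himg] at h1
  have h2 := norm_sub_le (1 + ∑ k ∈ Ioc 0 K, wave q z (d * k)) 1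
  rw [add_sub_cancel_left, norm_one] at h2
  rw [add_mul, one_mul]
  linarith

/-- **The sums of type I.** -/
theorem exists_typeOne_le {q : ℕ} (hq : 2 ≤ q) {z : ℂ} (hz : ‖z‖ = 1)
    (hz1 : z ^ (q - 1) ≠ 1) : ∃ γ C : ℝ, 0 < γ ∧ γ < 1 ∧ 0 ≤ C ∧
    ∀ (x W : ℕ) (f : ArithmeticFunction ℝ) (B : ℝ), 0 < x → (∀ m, m ≤ x → |f m| ≤ B) →
      (∀ m, W < m → f m = 0) →
      ‖waveSum q z (f * ArithmeticFunction.log) x‖ ≤
          W * (B * (C * (x : ℝ) ^ γ * (1 + Real.log x))) ∧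
        ‖waveSum q z (f * oneR) x‖ ≤ W * (B * (C * (x : ℝ) ^ γ * (1 + Real.log x))) := by
  obtain ⟨γ, C, hγ0, hγ1, hC, hmul⟩ := exists_multiples_le hq hz hz1
  refine ⟨γ, 2 * C, hγ0, hγ1, by positivity, fun x W f B hx hf hf0 => ?_⟩
  obtain ⟨Z, hZ⟩ : ∃ Z : ℝ, Z = 2 * C * (x : ℝ) ^ γ := ⟨_, rfl⟩
  rw [← hZ]
  have hB0 : 0 ≤ B := (abs_nonneg _).trans (hf 0 x.zero_le)
  have hl : 0 ≤ Real.log x := Real.log_natCast_nonneg x
  have hZ0 : 0 ≤ Z := hZ ▸ by positivity
  have hgen : ∀ g : ArithmeticFunction ℝ,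
      (∀ m, 0 < m → m ≤ x → ‖∑ k ∈ Ioc 0 (x / m), (g k : ℂ) * wave q z (m * k)‖ ≤
        Z * (1 + Real.log x)) →
      ‖waveSum q z (f * g) x‖ ≤ W * (B * (Z * (1 + Real.log x))) := by
    intro g hg
    have e : waveSum q z (f * g) x =
        ∑ m ∈ Ioc 0 x, (f m : ℂ) * ∑ k ∈ Ioc 0 (x / m), (g k : ℂ) * wave q z (m * k) := by
      rw [waveSum_mul]
      refine sum_congr rfl fun m hm => ?_
      rw [mem_Ioc] at hm
      rw [mul_sum, ← sum_filter]
      refine sum_congr ?_ fun k _ => by ring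
      ext k
      simp only [mem_filter, mem_Ioc, Nat.le_div_iff_mul_le hm.1, mul_comm k m]
      constructor
      · exact fun h => ⟨h.1.1, h.2⟩
      · exact fun h => ⟨⟨h.1, (Nat.le_mul_of_pos_left k hm.1).trans h.2⟩, h.2⟩
    rw [e]
    refine (norm_sum_le _ _).trans ((sum_le_sum (g := fun m => if m ≤ W then
      B * (Z * (1 + Real.log x)) else 0) fun m hm => ?_).trans ?_)
    · rw [mem_Ioc] at hm
      split_ifs with h
      · rw [norm_mul, Complex.norm_real, Real.norm_eq_abs]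
        exact mul_le_mul (hf m hm.2) (hg m hm.1 hm.2) (norm_nonneg _) hB0
      · simp [hf0 m (not_le.1 h)]
    · rw [← sum_filter, sum_const, nsmul_eq_mul]
      refine mul_le_mul_of_nonneg_right (Nat.cast_le.2 ((card_le_card (t := Ioc 0 W) fun m hm =>
        ?_).trans (by simp))) (by positivity)
      rw [mem_filter, mem_Ioc] at hm
      exact mem_Ioc.2 ⟨hm.1.1, hm.2⟩
  have htail : ∀ m, 0 < m → ∀ i, i ≤ x / m →
      ‖∑ k ∈ Ioc i (x / m), wave q z (m * k)‖ ≤ Z := fun m hm i hi => by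
    have h1 := hmul m (x / m) x hm hx (Nat.mul_div_le x m)
    have h2 := hmul m i x hm hx ((Nat.mul_le_mul_left m hi).trans (Nat.mul_div_le x m))
    have e := sum_Ioc_consecutive (fun k => wave q z (m * k)) (Nat.zero_le i) hi
    rw [eq_sub_of_add_eq' e]
    exact (norm_sub_le _ _).trans (by linarith)
  constructor
  · refine hgen _ fun m hm _ => ?_
    obtain ⟨K, hK⟩ : ∃ K, K = x / m := ⟨_, rfl⟩
    rw [← hK]
    rcases Nat.eq_zero_or_pos K with rfl | hK1
    · simp only [Ioc_self, sum_empty, norm_zero]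
      positivity
    obtain ⟨D, hD⟩ : ∃ D : ℕ → ℝ, D = fun j : ℕ => Real.log ((j + 1 : ℕ) : ℝ) - Real.log j :=
      ⟨_, rfl⟩
    have hD0 : ∀ j ∈ Ico 1 K, 0 ≤ D j := fun j hj => by
      rw [mem_Ico] at hj
      rw [hD]
      exact sub_nonneg.2 (Real.log_le_log (Nat.cast_pos.2 hj.1) (Nat.cast_le.2 (Nat.le_succ j)))
    have e : ∑ k ∈ Ioc 0 K, (ArithmeticFunction.log k : ℂ) * wave q z (m * k) =
        ∑ j ∈ Ico 1 K, (D j : ℂ) * ∑ k ∈ Ioc j K, wave q z (m * k) := by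
      simp only [mul_sum]
      rw [sum_comm' (t' := Ioc 0 K) (s' := fun k => Ico 1 k)]
      · refine sum_congr rfl fun k hk => ?_
        rw [mem_Ioc] at hk
        rw [← sum_mul, ← Complex.ofReal_sum, hD, sum_Ico_sub (fun j : ℕ => Real.log (j : ℝ)) hk.1]
        simp
      · intro j k
        simp only [mem_Ico, mem_Ioc]
        omega
    rw [e]
    refine (norm_sum_le _ _).trans ((sum_le_sum (g := fun j => D j * Z) fun j hj => ?_).trans ?_)
    · rw [norm_mul, Complex.norm_real, Real.norm_eq_abs, abs_of_nonneg (hD0 j hj)]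
      refine mul_le_mul_of_nonneg_left ?_ (hD0 j hj)
      rw [hK] at hj ⊢
      exact htail m hm j (mem_Ico.1 hj).2.le
    · rw [← sum_mul, hD, sum_Ico_sub (fun j : ℕ => Real.log (j : ℝ)) hK1, mul_comm]
      refine mul_le_mul_of_nonneg_left ?_ hZ0
      simp only [Nat.cast_one, Real.log_one, sub_zero]
      refine (Real.log_le_log (Nat.cast_pos.2 hK1) (Nat.cast_le.2 ?_)).trans (by linarith)
      rw [hK]
      exact Nat.div_le_self x m
  · refine hgen _ fun m hm _ => ?_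
    refine le_trans (le_of_eq_of_le (congrArg norm (sum_congr rfl fun k hk => ?_))
      (htail m hm 0 (Nat.zero_le _))) (le_mul_of_one_le_right hZ0 (by linarith))
    rw [mem_Ioc] at hk
    simp [oneR, zeta_apply, hk.1.ne']

end FA.DigitPrimes

end
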